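/-
GALREP, generic eigen-lattice core (helper8500).

Pure algebra (Mathlib only).
Part A: a Nakayama / Cayley–Hamilton lemma: a character of a commutative algebra acting on a
finite module, vanishing on the annihilator, has a non-torsion co-eigenquotient.
Part B: annihilators commute with flat base change.
-/
import Mathlib

set_option autoImplicit false
set_option linter.style.haveILetI false

namespace Fermat.Agent.GalRep.EigLat8500

open TensorProduct

/-! ## Part A: Cayley–Hamilton / Nakayama -/

section PartA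

variable {A : Type*} [CommRing A] {N : Type*} [AddCommGroup N] [Module A N]
  {C : Type*} [CommRing C] [Algebra A C]

/-- the `A`-submodule generated by the images `Φ c z` with `χ c = 0` -/
def relSub (Φ : C →ₐ[A] Module.End A N) (χ : C →ₐ[A] A) : Submodule A N :=
  Submodule.span A {y | ∃ (c : C) (z : N), χ c = 0 ∧ y = Φ c z}

theorem mem_relSub (Φ : C →ₐ[A] Module.End A N) (χ : C →ₐ[A] A) {c : C} (hc : χ c = 0) (z : N) :
    Φ c z ∈ relSub Φ χ :=
  Submodule.subset_span ⟨c, z, hc, rfl⟩

theorem exists_smul_notMem_relSub [IsDomain A] [Module.Finite A N]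
    (Φ : C →ₐ[A] Module.End A N) (χ : C →ₐ[A] A)
    (hann : ∀ c : C, Φ c = 0 → χ c = 0) {a : A} (ha : a ≠ 0) :
    ∃ x : N, a • x ∉ relSub Φ χ := by
  by_contra hcon
  push Not at hcon
  letI : Module C N := Module.compHom N (Φ : C →+* Module.End A N)
  have hsmul : ∀ (c : C) (x : N), c • x = Φ c x := fun _ _ => rfl
  haveI : IsScalarTower A C N := ⟨fun a c x => by
    rw [hsmul, hsmul, map_smul]; rfl⟩
  haveI : Module.Finite C N := Module.Finite.of_restrictScalars_finite A C N
  let I : Ideal C := RingHom.ker (χ : C →+* A)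
  let f : Module.End C N := algebraMap C (Module.End C N) (algebraMap A C a)
  have hf : ∀ x, f x = a • x := by
    intro x
    show (algebraMap A C a) • x = a • x
    rw [hsmul, AlgHom.commutes]
    rfl
  have hrange : LinearMap.range f ≤ I • (⊤ : Submodule C N) := by
    rintro _ ⟨x, rfl⟩
    rw [hf]
    have h1 := hcon x
    have h2 : relSub Φ χ ≤ (I • (⊤ : Submodule C N)).restrictScalars A := by
      refine Submodule.span_le.mpr ?_
      rintro _ ⟨c, z, hc, rfl⟩
      show Φ c z ∈ I • (⊤ : Submodule C N)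
      rw [← hsmul]
      exact Submodule.smul_mem_smul (RingHom.mem_ker.mpr hc) Submodule.mem_top
    exact h2 h1
  obtain ⟨P, hmonic, -, hcoeff, hP⟩ :=
    LinearMap.exists_monic_and_natDegree_eq_and_coeff_mem_pow_and_aeval_eq_zero C f I hrange
  have h1 : Polynomial.aeval f P
      = algebraMap C (Module.End C N) (Polynomial.eval (algebraMap A C a) P) := by
    show Polynomial.aeval (algebraMap C (Module.End C N) (algebraMap A C a)) P = _
    rw [Polynomial.aeval_algebraMap_apply, Polynomial.aeval_def, Polynomial.eval₂_eq_eval_map,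
      Algebra.algebraMap_self, Polynomial.map_id]
  have h2 : Φ (Polynomial.eval (algebraMap A C a) P) = 0 := by
    ext x
    have h3 := congrArg (fun g : Module.End C N => g x) (h1.symm.trans hP)
    simp only [Module.algebraMap_end_apply, LinearMap.zero_apply] at h3
    exact h3
  have h3 := hann _ h2
  have hχa : χ (algebraMap A C a) = a := by rw [AlgHom.commutes]; rfl
  have h4 : χ (Polynomial.eval (algebraMap A C a) P)
      = Polynomial.eval a (P.map (χ : C →+* A)) := by
    rw [Polynomial.eval_map]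
    conv_rhs => rw [← hχa]
    exact (Polynomial.eval₂_at_apply (χ : C →+* A) (algebraMap A C a)).symm
  have h5 : P.map (χ : C →+* A) = Polynomial.X ^ P.natDegree := by
    ext k
    rw [Polynomial.coeff_map, Polynomial.coeff_X_pow]
    split_ifs with hk
    · subst hk
      rw [hmonic.coeff_natDegree]
      exact map_one _
    · rcases lt_or_gt_of_ne hk with h | h
      · have h6 := hcoeff k
        have hle : I ^ (P.natDegree - k) ≤ I := Ideal.pow_le_self (by omega)
        exact RingHom.mem_ker.mp (hle h6)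
      · rw [Polynomial.coeff_eq_zero_of_natDegree_lt h]
        exact map_zero _
  rw [h4, h5, Polynomial.eval_pow, Polynomial.eval_X] at h3
  exact ha (eq_zero_of_pow_eq_zero h3)

end PartA

/-! ## Part B: annihilators and flat base change -/

section PartB

variable {R : Type*} [CommRing R] {A : Type*} [CommRing A] [Algebra R A]
  {H : Type*} [CommRing H] [Algebra R H]
  {M : Type*} [AddCommGroup M] [Module R M] [Module H M] [IsScalarTower R H M]

variable (A) in
/-- the action of `H` on `A ⊗[R] M` through the right factor -/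
noncomputable def actHom : H →ₐ[R] Module.End A (A ⊗[R] M) :=
  (Module.End.baseChangeHom R A M).comp (Algebra.lsmul R R M)

theorem actHom_tmul (P : H) (a : A) (v : M) :
    actHom A P (a ⊗ₜ[R] v) = a ⊗ₜ[R] (P • v) := rfl

theorem commute_ofId_actHom (a : A) (P : H) :
    Commute (Algebra.ofId A (Module.End A (A ⊗[R] M)) a) (actHom (M := M) A P) :=
  Algebra.commutes a (actHom A P)

variable (A) in
/-- the action of `A ⊗[R] H` on `A ⊗[R] M` -/
noncomputable def tensorAct : A ⊗[R] H →ₐ[A] Module.End A (A ⊗[R] M) :=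
  Algebra.TensorProduct.lift (Algebra.ofId A (Module.End A (A ⊗[R] M))) (actHom A)
    commute_ofId_actHom

theorem tensorAct_tmul (a : A) (P : H) (x : A ⊗[R] M) :
    tensorAct A (a ⊗ₜ[R] P) x = a • actHom A P x := by
  rw [tensorAct, Algebra.TensorProduct.lift_tmul, Module.End.mul_apply, Algebra.ofId_apply,
    Module.algebraMap_end_apply]

/-- the character `a ⊗ P ↦ a * χ P` -/
noncomputable def tensorChar (χ : H →ₐ[R] A) : A ⊗[R] H →ₐ[A] A :=
  Algebra.TensorProduct.lift (Algebra.ofId A A) χ (fun _ _ => Commute.all _ _)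

theorem tensorChar_tmul (χ : H →ₐ[R] A) (a : A) (P : H) :
    tensorChar χ (a ⊗ₜ[R] P) = a * χ P := by
  rw [tensorChar, Algebra.TensorProduct.lift_tmul, Algebra.ofId_apply, Algebra.algebraMap_self,
    RingHom.id_apply]

theorem tensorChar_eq_zero_of_tensorAct_eq_zero [Module.Flat R A] [Module.Finite R M]
    (χ : H →ₐ[R] A) (hann : ∀ P : H, (∀ v : M, P • v = 0) → χ P = 0)
    (c : A ⊗[R] H) (hc : tensorAct (M := M) A c = 0) : tensorChar χ c = 0 := by
  classical
  obtain ⟨n, s, hs⟩ := Module.Finite.exists_fin (R := R) (M := M)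
  -- evaluation on the generators
  let ev : H →ₗ[R] (Fin n → M) :=
    LinearMap.pi (fun k => (LinearMap.toSpanSingleton H M (s k)).restrictScalars R)
  have hev : ∀ (P : H) (k : Fin n), ev P k = P • s k := fun P k => rfl
  let K : Submodule R H := LinearMap.ker ev
  have hK : ∀ P ∈ K, χ P = 0 := by
    intro P hP
    refine hann P fun v => ?_
    have hv : v ∈ Submodule.span R (Set.range s) := by rw [hs]; exact Submodule.mem_top
    induction hv using Submodule.span_induction with
    | mem x hx =>
      obtain ⟨k, rfl⟩ := hx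
      have := congrFun (LinearMap.mem_ker.mp hP) k
      simpa [hev] using this
    | zero => simp
    | add x y _ _ hx hy => rw [smul_add, hx, hy, add_zero]
    | smul r x _ hx => rw [smul_comm, hx, smul_zero]
  have hexact : Function.Exact K.subtype ev := by
    intro P
    constructor
    · intro hP
      exact ⟨⟨P, hP⟩, rfl⟩
    · rintro ⟨⟨Q, hQ⟩, rfl⟩
      exact hQ
  have hexact' := Module.Flat.lTensor_exact A hexact
  -- `ev.lTensor A c = 0`
  have hc0 : (ev.lTensor A) c = 0 := by
    apply (TensorProduct.piRight R A A (fun _ : Fin n => M)).injective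
    rw [map_zero]
    funext k
    have key : ∀ c' : A ⊗[R] H,
        (TensorProduct.piRight R A A (fun _ : Fin n => M)) ((ev.lTensor A) c') k
          = tensorAct (M := M) A c' ((1 : A) ⊗ₜ[R] s k) := by
      intro c'
      induction c' using TensorProduct.induction_on with
      | zero => simp
      | tmul a P =>
        rw [LinearMap.lTensor_tmul, TensorProduct.piRight_apply, TensorProduct.piRightHom_tmul,
          tensorAct_tmul, actHom_tmul]
        show a ⊗ₜ[R] (P • s k) = a • ((1 : A) ⊗ₜ[R] (P • s k))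
        rw [TensorProduct.smul_tmul', smul_eq_mul, mul_one]
      | add x y hx hy => simp only [map_add, Pi.add_apply, hx, hy, LinearMap.add_apply]
    rw [key, hc]
    rfl
  -- the character vanishes on the image of `A ⊗ K`
  have hzero : ∀ d : A ⊗[R] K, tensorChar χ ((K.subtype.lTensor A) d) = 0 := by
    intro d
    induction d using TensorProduct.induction_on with
    | zero => simp
    | tmul a P =>
      rw [LinearMap.lTensor_tmul, Submodule.subtype_apply, tensorChar_tmul, hK P P.2, mul_zero]
    | add x y hx hy => rw [map_add, map_add, hx, hy, add_zero]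
  obtain ⟨d, rfl⟩ := (hexact' c).mp hc0
  exact hzero d

end PartB

/-! ## Part C: saturation and the torsion-free quotient -/

section PartC

variable {A : Type*} [CommRing A] [IsDomain A] {N : Type*} [AddCommGroup N] [Module A N]

/-- saturation of a submodule of a module over a domain -/
def sat (U : Submodule A N) : Submodule A N where
  carrier := {x | ∃ a : A, a ≠ 0 ∧ a • x ∈ U}
  add_mem' := by
    rintro x y ⟨a, ha, hx⟩ ⟨b, hb, hy⟩
    refine ⟨a * b, mul_ne_zero ha hb, ?_⟩
    rw [smul_add]
    refine U.add_mem ?_ ?_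
    · rw [mul_comm, mul_smul]; exact U.smul_mem b hx
    · rw [mul_smul]; exact U.smul_mem a hy
  zero_mem' := ⟨1, one_ne_zero, by simp⟩
  smul_mem' := by
    rintro c x ⟨a, ha, hx⟩
    exact ⟨a, ha, by rw [smul_comm]; exact U.smul_mem c hx⟩

theorem mem_sat {U : Submodule A N} {x : N} : x ∈ sat U ↔ ∃ a : A, a ≠ 0 ∧ a • x ∈ U := Iff.rfl

theorem le_sat (U : Submodule A N) : U ≤ sat U := fun x hx => ⟨1, one_ne_zero, by simpa using hx⟩

instance isTorsionFree_quot_sat (U : Submodule A N) : Module.IsTorsionFree A (N ⧸ sat U) := by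
  refine Module.IsTorsionFree.of_smul_eq_zero fun a x hax => ?_
  induction x using Submodule.Quotient.induction_on with
  | H x =>
    by_cases ha : a = 0
    · exact Or.inl ha
    · right
      rw [← Submodule.Quotient.mk_smul, Submodule.Quotient.mk_eq_zero] at hax
      obtain ⟨b, hb, hx⟩ := hax
      rw [Submodule.Quotient.mk_eq_zero]
      exact ⟨b * a, mul_ne_zero hb ha, by rwa [mul_smul]⟩

theorem exists_notMem_sat [Module.Finite A N] (U : Submodule A N)
    (h : ∀ a : A, a ≠ 0 → ∃ x : N, a • x ∉ U) : ∃ x : N, x ∉ sat U := by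
  classical
  by_contra hall
  push Not at hall
  obtain ⟨n, s, hs⟩ := Module.Finite.exists_fin (R := A) (M := N)
  choose a ha hk using fun k => hall (s k)
  have ha' : (∏ k, a k) ≠ 0 := Finset.prod_ne_zero_iff.mpr fun k _ => ha k
  have key : ∀ x : N, (∏ k, a k) • x ∈ U := by
    intro x
    have hxs : x ∈ Submodule.span A (Set.range s) := by rw [hs]; exact Submodule.mem_top
    induction hxs using Submodule.span_induction with
    | mem y hy =>
      obtain ⟨k, rfl⟩ := hy
      obtain ⟨b, hb⟩ := Finset.dvd_prod_of_mem a (Finset.mem_univ k)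
      rw [hb, mul_comm, mul_smul]
      exact U.smul_mem b (hk k)
    | zero => simp
    | add y z _ _ hy hz => rw [smul_add]; exact U.add_mem hy hz
    | smul c y _ hy => rw [smul_comm]; exact U.smul_mem c hy
  obtain ⟨x, hx⟩ := h _ ha'
  exact hx (key x)

/-- an endomorphism preserving `U` descends to `N ⧸ sat U` -/
noncomputable def descend (U : Submodule A N) (g : Module.End A N) (hg : ∀ x ∈ U, g x ∈ U) :
    Module.End A (N ⧸ sat U) :=
  (sat U).mapQ (sat U) g (by
    rintro x ⟨a, ha, hx⟩
    exact ⟨a, ha, by rw [← map_smul]; exact hg _ hx⟩)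

@[simp]
theorem descend_mk (U : Submodule A N) (g : Module.End A N) (hg : ∀ x ∈ U, g x ∈ U) (x : N) :
    descend U g hg (Submodule.Quotient.mk x) = Submodule.Quotient.mk (g x) := rfl

end PartC

/-! ## Part D: endomorphisms that are scalar modulo every power of `π` are scalar -/

section PartD

theorem exists_eq_smul_one_of_approx {O : Type*} [CommRing O] [IsDomain O] [IsLocalRing O]
    [IsNoetherianRing O] {Λ : Type*} [AddCommGroup Λ] [Module O Λ] [Module.Free O Λ]
    [Module.Finite O Λ] [Nontrivial Λ] (π : O) (hπ : π ∈ IsLocalRing.maximalIdeal O)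
    (s : Module.End O Λ)
    (h : ∀ n : ℕ, ∃ t : O, ∀ v : Λ, ∃ w : Λ, s v - t • v = π ^ n • w) :
    ∃ τ : O, s = τ • (1 : Module.End O Λ) := by
  classical
  let b := Module.Free.chooseBasis O Λ
  obtain ⟨i0⟩ : Nonempty (Module.Free.ChooseBasisIndex O Λ) := b.index_nonempty
  have hkrull : ∀ x : O, (∀ n : ℕ, ∃ y, x = π ^ n * y) → x = 0 := by
    intro x hx
    have hI : Ideal.span {π} ≠ ⊤ := by
      intro htop
      rw [Ideal.span_singleton_eq_top] at htop
      exact (IsLocalRing.mem_maximalIdeal π).mp hπ htop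
    have hbot := Ideal.iInf_pow_eq_bot_of_isLocalRing (Ideal.span {π}) hI
    have hmem : x ∈ ⨅ i, Ideal.span {π} ^ i := by
      rw [Ideal.mem_iInf]
      intro n
      rw [Ideal.span_singleton_pow, Ideal.mem_span_singleton]
      obtain ⟨y, hy⟩ := hx n
      exact ⟨y, hy⟩
    rw [hbot] at hmem
    exact hmem
  have hcoord : ∀ n : ℕ, ∃ t : O, ∀ i j,
      ∃ y : O, b.repr (s (b j)) i - (if i = j then t else 0) = π ^ n * y := by
    intro n
    obtain ⟨t, ht⟩ := h n
    refine ⟨t, fun i j => ?_⟩
    obtain ⟨w, hw⟩ := ht (b j)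
    refine ⟨b.repr w i, ?_⟩
    have h1 := congrArg (fun z => b.repr z i) hw
    simp only [map_sub, map_smul, Finsupp.sub_apply, Finsupp.smul_apply, Module.Basis.repr_self,
      smul_eq_mul, Finsupp.single_apply] at h1
    rw [← h1]
    by_cases hij : i = j
    · rw [if_pos hij, if_pos hij.symm, mul_one]
    · rw [if_neg hij, if_neg (Ne.symm hij), mul_zero]
  have hoff : ∀ i j, i ≠ j → b.repr (s (b j)) i = 0 := by
    intro i j hij
    apply hkrull
    intro n
    obtain ⟨t, ht⟩ := hcoord n
    obtain ⟨y, hy⟩ := ht i j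
    rw [if_neg hij, sub_zero] at hy
    exact ⟨y, hy⟩
  have hdiag : ∀ j, b.repr (s (b j)) j = b.repr (s (b i0)) i0 := by
    intro j
    rw [← sub_eq_zero]
    apply hkrull
    intro n
    obtain ⟨t, ht⟩ := hcoord n
    obtain ⟨y, hy⟩ := ht j j
    obtain ⟨y', hy'⟩ := ht i0 i0
    rw [if_pos rfl] at hy hy'
    exact ⟨y - y', by rw [mul_sub, ← hy, ← hy']; ring⟩
  refine ⟨b.repr (s (b i0)) i0, ?_⟩
  apply b.ext
  intro j
  apply b.repr.injective
  ext i
  rw [LinearMap.smul_apply, Module.End.one_apply, map_smul, Finsupp.smul_apply,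
    Module.Basis.repr_self, Finsupp.single_apply, smul_eq_mul]
  by_cases hij : j = i
  · subst hij
    rw [if_pos rfl, mul_one, hdiag]
  · rw [if_neg hij, mul_zero, hoff i j (Ne.symm hij)]

end PartD

/-! ## Part E: powers of a root of a quadratic are roots of quadratics -/

section PartE

open Polynomial in
theorem exists_dvd_pow_quadratic {A : Type*} [CommRing A] (a d : A) (k : ℕ) :
    ∃ t : A, (X ^ 2 - C a * X + C d : A[X]) ∣ X ^ k * X ^ k - C t * X ^ k + C (d ^ k) := by
  set f : A[X] := X ^ 2 - C a * X + C d with hf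
  let x : AdjoinRoot f := AdjoinRoot.root f
  let ψ : AdjoinRoot f := AdjoinRoot.of f a - x
  have hrel : x ^ 2 - AdjoinRoot.of f a * x + AdjoinRoot.of f d = 0 := by
    have h : AdjoinRoot.mk f (X ^ 2 - C a * X + C d) = 0 := AdjoinRoot.mk_self
    simp only [map_add, map_sub, map_mul, map_pow, AdjoinRoot.mk_X, AdjoinRoot.mk_C] at h
    exact h
  have hsum : x + ψ = AdjoinRoot.of f a := by simp [ψ]
  have hprod : x * ψ = AdjoinRoot.of f d := by
    simp only [ψ]
    linear_combination -hrel
  have key : ∀ k : ℕ, ∃ t t' : A, x ^ k + ψ ^ k = AdjoinRoot.of f t ∧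
      x ^ (k + 1) + ψ ^ (k + 1) = AdjoinRoot.of f t' := by
    intro k
    induction k with
    | zero =>
      refine ⟨2, a, ?_, ?_⟩
      · rw [pow_zero, pow_zero, map_ofNat]; norm_num
      · rw [zero_add, pow_one, pow_one, hsum]
    | succ k ih =>
      obtain ⟨t, t', ht, ht'⟩ := ih
      refine ⟨t', a * t' - d * t, ht', ?_⟩
      have h1 : x ^ (k + 1 + 1) + ψ ^ (k + 1 + 1)
          = (x + ψ) * (x ^ (k + 1) + ψ ^ (k + 1)) - x * ψ * (x ^ k + ψ ^ k) := by ring
      rw [h1, hsum, hprod, ht, ht', map_sub, map_mul, map_mul]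
  obtain ⟨t, -, ht, -⟩ := key k
  refine ⟨t, ?_⟩
  rw [← AdjoinRoot.mk_eq_zero]
  simp only [map_add, map_sub, map_mul, map_pow, AdjoinRoot.mk_X, AdjoinRoot.mk_C]
  change x ^ k * x ^ k - AdjoinRoot.of f t * x ^ k + AdjoinRoot.of f d ^ k = 0
  rw [← ht, ← hprod]
  ring_nf

theorem exists_pow_quadratic {A : Type*} [CommRing A] {E : Type*} [Ring E] [Algebra A E]
    (u : E) (a d : A) (h : u * u - a • u + d • (1 : E) = 0) (k : ℕ) :
    ∃ t : A, u ^ k * u ^ k - t • u ^ k + d ^ k • (1 : E) = 0 := by
  obtain ⟨t, q, hq⟩ := exists_dvd_pow_quadratic a d k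
  refine ⟨t, ?_⟩
  have h1 := congrArg (Polynomial.aeval u) hq
  have h2 : Polynomial.aeval u (Polynomial.X ^ 2 - Polynomial.C a * Polynomial.X
      + Polynomial.C d : Polynomial A) = 0 := by
    rw [← h]
    simp [Algebra.smul_def, pow_two]
  rw [map_mul, h2, zero_mul] at h1
  rw [← h1]
  simp [Algebra.smul_def]

theorem quad_identity {A : Type*} [CommRing A] {E : Type*} [Ring E] [Algebra A E]
    (y x : E) (t d e : A) :
    y * y - t • y + e • (1 : E)
      = y * (y - x) + (y - x) * x - t • (y - x) - (d - e) • (1 : E)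
        + (x * x - t • x + d • (1 : E)) := by
  simp only [mul_sub, sub_mul, smul_sub, sub_smul]
  abel

theorem inv_identity {A : Type*} [CommRing A] {E : Type*} [Ring E] [Algebra A E]
    (y yi : E) (hyi : yi * y = 1) (t e : A) :
    y + e • yi - t • (1 : E) = yi * (y * y - t • y + e • (1 : E)) := by
  rw [mul_add, mul_sub, ← mul_assoc, hyi, one_mul, mul_smul_comm, hyi, mul_smul_comm, mul_one]
  abel

end PartE

/-! ## Part F: the eigen-lattice -/

section PartF

section Transfer

variable {R : Type*} [CommRing R] {O : Type*} [CommRing O] [Algebra R O]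
  {H : Type*} [CommRing H] [Algebra R H]
  {M : Type*} [AddCommGroup M] [Module R M] [Module H M] [IsScalarTower R H M]

theorem baseChange_actHom_comm (g : Module.End R M)
    (hg : ∀ (P : H) (v : M), g (P • v) = P • g v) (P : H) (x : O ⊗[R] M) :
    g.baseChange O (actHom O P x) = actHom O P (g.baseChange O x) := by
  induction x using TensorProduct.induction_on with
  | zero => simp
  | tmul b v =>
    rw [actHom_tmul, LinearMap.baseChange_tmul, LinearMap.baseChange_tmul, actHom_tmul, hg]
  | add x y hx hy => simp only [map_add, hx, hy]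

theorem baseChange_tensorAct_comm (g : Module.End R M)
    (hg : ∀ (P : H) (v : M), g (P • v) = P • g v) (c : O ⊗[R] H) (x : O ⊗[R] M) :
    g.baseChange O (tensorAct O c x) = tensorAct O c (g.baseChange O x) := by
  induction c using TensorProduct.induction_on with
  | zero => simp
  | tmul a P => rw [tensorAct_tmul, tensorAct_tmul, map_smul, baseChange_actHom_comm g hg]
  | add c c' h h' => simp only [map_add, LinearMap.add_apply, h, h']

theorem baseChange_mem_relSub (g : Module.End R M)
    (hg : ∀ (P : H) (v : M), g (P • v) = P • g v) (χ : H →ₐ[R] O) {x : O ⊗[R] M}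
    (hx : x ∈ relSub (tensorAct (M := M) O) (tensorChar χ)) :
    g.baseChange O x ∈ relSub (tensorAct (M := M) O) (tensorChar χ) := by
  induction hx using Submodule.span_induction with
  | mem y hy =>
    obtain ⟨c, z, hc, rfl⟩ := hy
    rw [baseChange_tensorAct_comm g hg]
    exact mem_relSub _ _ hc _
  | zero => simp
  | add y z _ _ hy hz => rw [map_add]; exact Submodule.add_mem _ hy hz
  | smul a y _ hy => rw [map_smul]; exact Submodule.smul_mem _ a hy

theorem actHom_sub_smul_mem_relSub (χ : H →ₐ[R] O) (P : H) (x : O ⊗[R] M) :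
    actHom O P x - χ P • x ∈ relSub (tensorAct (M := M) O) (tensorChar χ) := by
  have h : actHom O P x - χ P • x
      = tensorAct O ((1 : O) ⊗ₜ[R] P - χ P ⊗ₜ[R] (1 : H)) x := by
    rw [map_sub, LinearMap.sub_apply, tensorAct_tmul, tensorAct_tmul, one_smul, map_one,
      Module.End.one_apply]
  rw [h]
  refine mem_relSub _ _ ?_ _
  rw [map_sub, tensorChar_tmul, tensorChar_tmul, one_mul, map_one, mul_one, sub_self]

theorem baseChange_dvd (g : Module.End R M) (ϖ : R) (n : ℕ)
    (hg : ∀ v : M, ∃ w : M, g v = ϖ ^ n • w) (x : O ⊗[R] M) :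
    ∃ y : O ⊗[R] M, g.baseChange O x = (algebraMap R O ϖ) ^ n • y := by
  induction x using TensorProduct.induction_on with
  | zero => exact ⟨0, by simp⟩
  | tmul b v =>
    obtain ⟨w, hw⟩ := hg v
    refine ⟨b ⊗ₜ[R] w, ?_⟩
    rw [LinearMap.baseChange_tmul, hw, TensorProduct.tmul_smul, ← map_pow, algebraMap_smul]
  | add x y hx hy =>
    obtain ⟨x', hx'⟩ := hx
    obtain ⟨y', hy'⟩ := hy
    exact ⟨x' + y', by rw [map_add, hx', hy', smul_add]⟩

end Transfer

section Dv

variable {O : Type*} [CommRing O] {Λ : Type*} [AddCommGroup Λ] [Module O Λ]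

/-- `g` is divisible by `π ^ n` -/
def Dv (π : O) (n : ℕ) (g : Module.End O Λ) : Prop := ∀ v : Λ, ∃ w : Λ, g v = π ^ n • w

theorem Dv.zero (π : O) (n : ℕ) : Dv π n (0 : Module.End O Λ) := fun _ => ⟨0, by simp⟩

theorem Dv.add {π : O} {n : ℕ} {g h : Module.End O Λ} (hg : Dv π n g) (hh : Dv π n h) :
    Dv π n (g + h) := fun v => by
  obtain ⟨w, hw⟩ := hg v
  obtain ⟨w', hw'⟩ := hh v
  exact ⟨w + w', by rw [LinearMap.add_apply, hw, hw', smul_add]⟩

theorem Dv.neg {π : O} {n : ℕ} {g : Module.End O Λ} (hg : Dv π n g) : Dv π n (-g) := fun v => by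
  obtain ⟨w, hw⟩ := hg v
  exact ⟨-w, by rw [LinearMap.neg_apply, hw, smul_neg]⟩

theorem Dv.sub {π : O} {n : ℕ} {g h : Module.End O Λ} (hg : Dv π n g) (hh : Dv π n h) :
    Dv π n (g - h) := by
  rw [sub_eq_add_neg]
  exact hg.add hh.neg

theorem Dv.mul_left {π : O} {n : ℕ} {g : Module.End O Λ} (hg : Dv π n g) (h : Module.End O Λ) :
    Dv π n (h * g) := fun v => by
  obtain ⟨w, hw⟩ := hg v
  exact ⟨h w, by rw [Module.End.mul_apply, hw, map_smul]⟩

theorem Dv.mul_right {π : O} {n : ℕ} {g : Module.End O Λ} (hg : Dv π n g) (h : Module.End O Λ) :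
    Dv π n (g * h) := fun v => by
  obtain ⟨w, hw⟩ := hg (h v)
  exact ⟨w, by rw [Module.End.mul_apply, hw]⟩

theorem Dv.smul {π : O} {n : ℕ} {g : Module.End O Λ} (hg : Dv π n g) (c : O) :
    Dv π n (c • g) := fun v => by
  obtain ⟨w, hw⟩ := hg v
  exact ⟨c • w, by rw [LinearMap.smul_apply, hw, smul_comm]⟩

theorem Dv.smul_one (π : O) (n : ℕ) (c : O) :
    Dv π n ((π ^ n * c) • (1 : Module.End O Λ)) := fun v =>
  ⟨c • v, by rw [LinearMap.smul_apply, Module.End.one_apply, mul_smul]⟩

end Dv

/-- **Eigen-lattice theorem.**  `M` a finite module over a PID `R` with a commutative algebra `H`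
of operators and a group `G` acting `H`-linearly; `χ : H → O` a character into a DVR over `R`
vanishing on the annihilator of `M`.  If every `σ ∈ G` is, modulo every power of `ϖ`, a power of
an element `φ` satisfying a quadratic relation `φ² - c φ + ε(φ) = 0` (`c ∈ H`), then the
torsion-free co-eigenquotient `Λ` of `O ⊗ M` is a nonzero finite free `O`-module on which
`σ² - τ(σ) σ + ε(σ) = 0` for all `σ`, with `τ(φ) = χ(c)`. -/
theorem exists_eigenLattice
    {R : Type} [CommRing R] [IsDomain R] [IsPrincipalIdealRing R] (ϖ : R)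
    {G : Type} [Group G]
    {H : Type} [CommRing H] [Algebra R H]
    {M : Type} [AddCommGroup M] [Module R M] [Module H M] [IsScalarTower R H M]
    [Module.Finite R M]
    (ρ : G →* Module.End R M) (hρ : ∀ (σ : G) (P : H) (v : M), ρ σ (P • v) = P • ρ σ v)
    (ε : G →* Rˣ)
    {O : Type} [CommRing O] [IsDomain O] [IsDiscreteValuationRing O] [Algebra R O]
    (hinj : Function.Injective (algebraMap R O))
    (hϖ : algebraMap R O ϖ ∈ IsLocalRing.maximalIdeal O)
    (χ : H →ₐ[R] O)
    (hann : ∀ P : H, (∀ v : M, P • v = 0) → χ P = 0)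
    (hdense : ∀ (σ : G) (n : ℕ), ∃ (φ : G) (k : ℕ) (c : H),
      (∀ v : M, ρ φ (ρ φ v) - c • ρ φ v + (ε φ : R) • v = 0) ∧
      (∀ v : M, ∃ w : M, ρ (φ ^ k) v - ρ σ v = ϖ ^ n • w) ∧
      (∃ w : R, ((ε φ : R)) ^ k - (ε σ : R) = ϖ ^ n * w)) :
    ∃ (Λ : Type) (_ : AddCommGroup Λ) (_ : Module O Λ) (_ : Module.Free O Λ)
      (_ : Module.Finite O Λ) (_ : Nontrivial Λ) (r : G →* Module.End O Λ) (τ : G → O),
      (∀ (σ : G) (v : Λ), r σ (r σ v) - τ σ • r σ v + algebraMap R O (ε σ) • v = 0) ∧
      (∀ (σ : G) (n : ℕ), (∀ v : M, ∃ w : M, ρ σ v - v = ϖ ^ n • w) →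
        ∀ v : Λ, ∃ w : Λ, r σ v - v = (algebraMap R O ϖ) ^ n • w) ∧
      (∀ σ : G, ρ σ = 1 → r σ = 1) ∧
      (∀ (φ : G) (c : H), (∀ v : M, ρ φ (ρ φ v) - c • ρ φ v + (ε φ : R) • v = 0) →
        τ φ = χ c) := by
  classical
  haveI : Module.Flat R O := by
    rw [Module.Flat.flat_iff_torsion_eq_bot_of_isBezout, ← Submodule.isTorsionFree_iff_torsion_eq_bot]
    refine Module.IsTorsionFree.of_smul_eq_zero fun a x hax => ?_
    rw [Algebra.smul_def, mul_eq_zero] at hax
    rcases hax with h | h
    · exact Or.inl (hinj (by rw [h, map_zero]))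
    · exact Or.inr h
  set U : Submodule O (O ⊗[R] M) := relSub (tensorAct (M := M) O) (tensorChar χ) with hU
  have hpres : ∀ σ : G, ∀ x ∈ U, (ρ σ).baseChange O x ∈ U :=
    fun σ x hx => baseChange_mem_relSub (ρ σ) (hρ σ) χ hx
  let Λ : Type := (O ⊗[R] M) ⧸ sat U
  let mk : (O ⊗[R] M) →ₗ[O] Λ := (sat U).mkQ
  have hmk_surj : ∀ v : Λ, ∃ x, mk x = v := fun v => Submodule.mkQ_surjective _ v
  have hmk_zero : ∀ x, x ∈ U → mk x = 0 := fun x hx =>
    (Submodule.Quotient.mk_eq_zero _).mpr (le_sat U hx)
  have hnt : Nontrivial Λ := by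
    obtain ⟨x, hx⟩ := exists_notMem_sat U (fun a ha =>
      exists_smul_notMem_relSub (tensorAct (M := M) O) (tensorChar χ)
        (tensorChar_eq_zero_of_tensorAct_eq_zero χ hann) ha)
    refine ⟨⟨mk x, 0, ?_⟩⟩
    intro h0
    exact hx ((Submodule.Quotient.mk_eq_zero _).mp h0)
  let r : G →* Module.End O Λ :=
    { toFun := fun σ => descend U ((ρ σ).baseChange O) (hpres σ)
      map_one' := by
        refine LinearMap.ext fun v => ?_
        obtain ⟨x, rfl⟩ := hmk_surj v
        show descend U ((ρ 1).baseChange O) (hpres 1) (Submodule.Quotient.mk x) = _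
        rw [descend_mk]
        simp only [map_one, LinearMap.baseChange_one, Module.End.one_apply]
        rfl
      map_mul' := fun σ σ' => by
        refine LinearMap.ext fun v => ?_
        obtain ⟨x, rfl⟩ := hmk_surj v
        show descend U ((ρ (σ * σ')).baseChange O) (hpres _) (Submodule.Quotient.mk x)
          = descend U ((ρ σ).baseChange O) (hpres σ)
              (descend U ((ρ σ').baseChange O) (hpres σ') (Submodule.Quotient.mk x))
        rw [descend_mk, descend_mk, descend_mk, map_mul, LinearMap.baseChange_mul,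
          Module.End.mul_apply] }
  have hr : ∀ (σ : G) (x : O ⊗[R] M), r σ (mk x) = mk ((ρ σ).baseChange O x) := fun σ x => rfl
  -- relation on `O ⊗ M`
  have hE : ∀ (φ : G) (c : H), (∀ v : M, ρ φ (ρ φ v) - c • ρ φ v + (ε φ : R) • v = 0) →
      (ρ φ).baseChange O * (ρ φ).baseChange O - actHom O c * (ρ φ).baseChange O
        + algebraMap R O (ε φ) • (1 : Module.End O (O ⊗[R] M)) = 0 := by
    intro φ c hrel
    apply TensorProduct.AlgebraTensorModule.ext
    intro b v
    simp only [LinearMap.add_apply, LinearMap.sub_apply, Module.End.mul_apply,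
      LinearMap.smul_apply, Module.End.one_apply, LinearMap.zero_apply,
      LinearMap.baseChange_tmul, actHom_tmul]
    rw [algebraMap_smul, ← TensorProduct.tmul_smul, ← TensorProduct.tmul_sub,
      ← TensorProduct.tmul_add, hrel, TensorProduct.tmul_zero]
  -- relation on `Λ`
  have hrelΛ : ∀ (φ : G) (c : H), (∀ v : M, ρ φ (ρ φ v) - c • ρ φ v + (ε φ : R) • v = 0) →
      r φ * r φ - χ c • r φ + algebraMap R O (ε φ) • (1 : Module.End O Λ) = 0 := by
    intro φ c hrel
    refine LinearMap.ext fun v => ?_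
    obtain ⟨x, rfl⟩ := hmk_surj v
    have h1 := congrArg (fun E : Module.End O (O ⊗[R] M) => mk (E x)) (hE φ c hrel)
    simp only [LinearMap.add_apply, LinearMap.sub_apply, Module.End.mul_apply,
      LinearMap.smul_apply, Module.End.one_apply, LinearMap.zero_apply, map_add, map_sub,
      map_smul, map_zero] at h1
    have h2 : mk (actHom O c ((ρ φ).baseChange O x)) = χ c • mk ((ρ φ).baseChange O x) := by
      rw [← map_smul, ← sub_eq_zero, ← map_sub]
      exact hmk_zero _ (actHom_sub_smul_mem_relSub χ c _)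
    simp only [LinearMap.add_apply, LinearMap.sub_apply, Module.End.mul_apply,
      LinearMap.smul_apply, Module.End.one_apply, LinearMap.zero_apply, hr]
    rw [← h2]
    exact h1
  -- divisibility transfer
  have hdivΛ : ∀ (σ σ' : G) (n : ℕ), (∀ v : M, ∃ w : M, ρ σ v - ρ σ' v = ϖ ^ n • w) →
      Dv (algebraMap R O ϖ) n (r σ - r σ') := by
    intro σ σ' n h v
    obtain ⟨x, rfl⟩ := hmk_surj v
    obtain ⟨y, hy⟩ := baseChange_dvd (O := O) (ρ σ - ρ σ') ϖ n
      (fun v => by simpa using h v) x
    refine ⟨mk y, ?_⟩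
    rw [LinearMap.sub_apply, hr, hr, ← map_sub, ← map_smul, ← hy, LinearMap.baseChange_sub,
      LinearMap.sub_apply]
  -- the key scalar statement
  have hscal : ∀ σ : G, ∃ τ : O,
      r σ + algebraMap R O (ε σ) • r σ⁻¹ = τ • (1 : Module.End O Λ) := by
    intro σ
    apply exists_eq_smul_one_of_approx (algebraMap R O ϖ) hϖ
    intro n
    obtain ⟨φ, k, c, hrel, hdiv, w, hw⟩ := hdense σ n
    obtain ⟨t, ht⟩ := exists_pow_quadratic (r φ) (χ c) (algebraMap R O (ε φ)) (hrelΛ φ c hrel) k
    refine ⟨t, ?_⟩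
    have hyi : r σ⁻¹ * r σ = 1 := by rw [← map_mul, inv_mul_cancel, map_one]
    have hx : Dv (algebraMap R O ϖ) n (r σ - r (φ ^ k)) := by
      have := (hdivΛ (φ ^ k) σ n hdiv).neg
      rwa [neg_sub] at this
    have he : (algebraMap R O (ε φ)) ^ k - algebraMap R O (ε σ)
        = (algebraMap R O ϖ) ^ n * algebraMap R O w := by
      rw [← map_pow, ← map_sub, hw, map_mul, map_pow]
    rw [← map_pow] at ht
    have hq := quad_identity (r σ) (r (φ ^ k)) t ((algebraMap R O (ε φ)) ^ k)
      (algebraMap R O (ε σ))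
    have hD : Dv (algebraMap R O ϖ) n
        (r σ * r σ - t • r σ + algebraMap R O (ε σ) • (1 : Module.End O Λ)) := by
      rw [hq, ht, add_zero, he]
      exact (((hx.mul_left _).add (hx.mul_right _)).sub (hx.smul t)).sub (Dv.smul_one _ _ _)
    have hmain := inv_identity (r σ) (r σ⁻¹) hyi t (algebraMap R O (ε σ))
    intro v
    obtain ⟨w', hw'⟩ := (hD.mul_left (r σ⁻¹)) v
    refine ⟨w', ?_⟩
    rw [← hw', ← hmain]
    simp only [LinearMap.sub_apply, LinearMap.smul_apply, Module.End.one_apply]
  choose τ hτ using hscal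
  have hquad : ∀ (σ : G) (v : Λ), r σ (r σ v) - τ σ • r σ v + algebraMap R O (ε σ) • v = 0 := by
    intro σ v
    have h1 := congrArg (fun E : Module.End O Λ => E (r σ v)) (hτ σ)
    simp only [LinearMap.add_apply, LinearMap.smul_apply, Module.End.one_apply] at h1
    have h2 : r σ⁻¹ (r σ v) = v := by
      rw [← Module.End.mul_apply, ← map_mul, inv_mul_cancel, map_one, Module.End.one_apply]
    rw [h2] at h1
    rw [← h1]
    abel
  refine ⟨Λ, inferInstance, inferInstance, inferInstance, inferInstance, hnt, r, τ, hquad,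
    ?_, ?_, ?_⟩
  · intro σ n h v
    have h1 : Dv (algebraMap R O ϖ) n (r σ - r 1) :=
      hdivΛ σ 1 n (fun v => by simpa using h v)
    obtain ⟨w, hw⟩ := h1 v
    exact ⟨w, by rw [← hw, map_one, LinearMap.sub_apply, Module.End.one_apply]⟩
  · intro σ hσ
    refine LinearMap.ext fun v => ?_
    obtain ⟨x, rfl⟩ := hmk_surj v
    rw [hr, hσ, LinearMap.baseChange_one, Module.End.one_apply, Module.End.one_apply]
  · intro φ c hrel
    obtain ⟨v, hv⟩ := exists_ne (0 : Λ)
    have h1 := hquad φ (r φ⁻¹ v)
    have h2 := congrArg (fun E : Module.End O Λ => E (r φ⁻¹ v)) (hrelΛ φ c hrel)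
    simp only [LinearMap.add_apply, LinearMap.sub_apply, Module.End.mul_apply,
      LinearMap.smul_apply, Module.End.one_apply, LinearMap.zero_apply] at h2
    have h3 : r φ (r φ⁻¹ v) = v := by
      rw [← Module.End.mul_apply, ← map_mul, mul_inv_cancel, map_one, Module.End.one_apply]
    rw [h3] at h1 h2
    have h4 : (τ φ - χ c) • v = 0 := by
      rw [sub_smul]
      have := h2.trans h1.symm
      -- r φ v - χ c • v + e • w = r φ v - τ φ • v + e • w
      have h5 : χ c • v = τ φ • v := by
        have h6 := congrArg (fun z => r φ v + algebraMap R O (ε φ) • (r φ⁻¹ v) - z) this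
        simpa using h6
      rw [h5, sub_self]
    rcases smul_eq_zero.mp h4 with h | h
    · exact sub_eq_zero.mp h
    · exact absurd h hv

end PartF

end Fermat.Agent.GalRep.EigLat8500
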