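/-
GALREP interface (helper5140): `TateDatum N p` = what the algebraic half of S29/S30/S31 needs to
know about the `p`-adic Tate module of `J_0(N)`.  The ONE geometric input `exists_tateDatum` is
stated in `Leaves5140.lean` (v2: moved there so that producers can import this file without a
cycle; all definitions unchanged).  The consumer form of faithfulness is proved here.
See notes/GALREP_S30_route_helper5140.md for the paper route.
-/
import Fermat.Statements.S29
import Fermat.Statements.S30
import Fermat.Statements.S31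
import Mathlib.NumberTheory.Padics.PadicIntegers

set_option autoImplicit false
open Polynomial

namespace Fermat.Agent.GalRep

/-- absolute Galois group of `ℚ` -/
abbrev GQ : Type := AlgebraicClosure ℚ ≃ₐ[ℚ] AlgebraicClosure ℚ

/-- primes not dividing `N * p` -/
abbrev GoodPrime (N p : ℕ) : Type := {ℓ : ℕ // ℓ.Prime ∧ ¬ ℓ ∣ N * p}

theorem GoodPrime.not_dvd {N p : ℕ} (ℓ : GoodPrime N p) : ¬ (ℓ : ℕ) ∣ N :=
  fun h => ℓ.2.2 (Dvd.dvd.mul_right h p)

/-- polynomial ring on the good Hecke variables, `ℤ`-coefficients -/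
abbrev HeckePolyZ (N p : ℕ) : Type := MvPolynomial (GoodPrime N p) ℤ

/-- polynomial ring on the good Hecke variables, `ℤ_p`-coefficients -/
abbrev HeckePoly (N p : ℕ) [Fact p.Prime] : Type := MvPolynomial (GoodPrime N p) ℤ_[p]

/-- good primes outside a set `S` -/
abbrev GoodPrimeOutside (N p : ℕ) (S : Set ℕ) : Type := {ℓ : GoodPrime N p // (ℓ : ℕ) ∉ S}

/-- the Hecke operator `T_ℓ ∈ heckeAlgebra N 2 S` of a good prime outside `S` -/
noncomputable def heckeT (N p : ℕ) [NeZero N] (S : Set ℕ) (ℓ : GoodPrimeOutside N p S) :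
    CuspForm.heckeAlgebra N 2 S :=
  CuspForm.heckeAlgebra.T ℓ.1.2.1 ℓ.1.not_dvd ℓ.2

/-- evaluation `X_ℓ ↦ T_ℓ` into the (commutative) Hecke algebra of `S_2(Γ_0(N))` away from `S` -/
noncomputable def evalS2 (N p : ℕ) [NeZero N] (S : Set ℕ) :
    MvPolynomial (GoodPrimeOutside N p S) ℤ →+* CuspForm.heckeAlgebra N 2 S :=
  MvPolynomial.eval₂Hom (Int.castRingHom _) (heckeT N p S)

/-- the ideal of integral polynomial relations among the `T_ℓ` (`ℓ ∤ N p`, `ℓ ∉ S`) on
`S_2(Γ_0(N))` -/
noncomputable def heckeRelations (N p : ℕ) [NeZero N] (S : Set ℕ) :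
    Ideal (MvPolynomial (GoodPrimeOutside N p S) ℤ) :=
  RingHom.ker (evalS2 N p S)

/-- **TateDatum**: everything the algebraic half of GALREP needs to know about `T_p J_0(N)`.
`M` is (a model of) the `p`-adic Tate module with its Hecke and Galois actions. -/
structure TateDatum (N p : ℕ) [NeZero N] [Fact p.Prime] : Type 1 where
  M : Type
  [instAddCommGroup : AddCommGroup M]
  [instModuleZp : Module ℤ_[p] M]
  [instModule : Module (HeckePoly N p) M]
  [instTower : IsScalarTower ℤ_[p] (HeckePoly N p) M]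
  [instFree : Module.Free ℤ_[p] M]
  [instFinite : Module.Finite ℤ_[p] M]
  /-- Galois acts Hecke-linearly -/
  ρ : GQ →* Module.End (HeckePoly N p) M
  /-- the action on `M / p^n M` factors through a finite Galois group (HK4 + finiteness of `J[p^n]`) -/
  continuous : ∀ n : ℕ, ∃ L : IntermediateField ℚ (AlgebraicClosure ℚ), FiniteDimensional ℚ L ∧
    ∀ σ : GQ, (∀ x ∈ L, σ x = x) → ∀ v : M, ∃ w : M, ρ σ v - v = ((p : ℤ_[p]) ^ n) • w
  /-- (U): inertia at good primes acts trivially (from S37, `UnramifiedOutside`) -/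
  unramified : ∀ ℓ : GoodPrime N p, ∀ A : ValuationSubring (AlgebraicClosure ℚ),
    A.LiesOverPrime ℓ → ∀ σ ∈ A.inertiaSubgroupIn ℚ, ρ σ = 1
  /-- (ES): Eichler–Shimura relation at good primes (from S37, `FrobeniusQuadratic`) -/
  frobenius : ∀ ℓ : GoodPrime N p, ∀ A : ValuationSubring (AlgebraicClosure ℚ),
    A.LiesOverPrime ℓ → ∀ σ : GQ, A.IsFrobeniusAt σ ℓ →
      ∀ v : M, ρ σ (ρ σ v) - (MvPolynomial.X ℓ : HeckePoly N p) • ρ σ v + ((ℓ : ℕ) : ℤ_[p]) • v = 0
  /-- (F): `M` is at least as big as `S_2`: for every `S`, a `ℤ_p`-polynomial in the good `T_ℓ`,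
  `ℓ ∉ S`, killing `M` is a `ℤ_p`-combination of integral relations valid on `S_2(Γ_0(N))`
  (ESUPP + E2 + S21; one flatness argument on the producer side) -/
  faithful : ∀ (S : Set ℕ) (P : MvPolynomial (GoodPrimeOutside N p S) ℤ_[p]),
    (∀ v : M, (MvPolynomial.rename Subtype.val P : HeckePoly N p) • v = 0) →
      P ∈ (heckeRelations N p S).map (MvPolynomial.map (Int.castRingHom ℤ_[p]))

attribute [instance] TateDatum.instAddCommGroup TateDatum.instModuleZp TateDatum.instModule
  TateDatum.instTower TateDatum.instFree TateDatum.instFinite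

/-- Consumer form of (F), PROVED: any ring hom `π` out of `heckeAlgebra N 2 S` into a `ℤ_p`-algebra
`T` kills (the evaluation of) every polynomial that annihilates `M`.  Hence `π` factors through the
image of `ℤ_p[X_ℓ : ℓ ∉ S]` in `End(M)`. -/
theorem TateDatum.eval₂_eq_zero_of_annihilates {N p : ℕ} [NeZero N] [Fact p.Prime]
    (D : TateDatum N p) (S : Set ℕ) {T : Type*} [CommRing T] (ι : ℤ_[p] →+* T)
    (π : CuspForm.heckeAlgebra N 2 S →+* T) (P : MvPolynomial (GoodPrimeOutside N p S) ℤ_[p])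
    (hP : ∀ v : D.M, (MvPolynomial.rename Subtype.val P : HeckePoly N p) • v = 0) :
    MvPolynomial.eval₂ ι (fun ℓ => π (heckeT N p S ℓ)) P = 0 := by
  have hmem := D.faithful S P hP
  have hle : (heckeRelations N p S).map (MvPolynomial.map (Int.castRingHom ℤ_[p])) ≤
      RingHom.ker (MvPolynomial.eval₂Hom ι (fun ℓ => π (heckeT N p S ℓ))) := by
    rw [Ideal.map_le_iff_le_comap]
    intro Q hQ
    rw [Ideal.mem_comap, RingHom.mem_ker, MvPolynomial.coe_eval₂Hom, MvPolynomial.eval₂_map]
    have hQ' : evalS2 N p S Q = 0 := hQ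
    have h1 : MvPolynomial.eval₂ (ι.comp (Int.castRingHom ℤ_[p])) (fun ℓ => π (heckeT N p S ℓ)) Q
        = π (evalS2 N p S Q) := by
      rw [evalS2, MvPolynomial.coe_eval₂Hom, MvPolynomial.hom_eval₂]
      congr 1
      exact RingHom.ext_int _ _
    rw [h1, hQ', map_zero]
  exact hle hmem

end Fermat.Agent.GalRep
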