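/-
GALREP: leaf `TateDatum.exists_eigenLattice` of helper5140's skeleton (Q3 + Q6), proved from the
generic eigen-lattice core `EigLat8500.exists_eigenLattice` and the weak Chebotarev bridge
`Fermat.Agent.Cheb.exists_frobenius_pow_eq` (helper1772).   (helper8500)

The cyclotomic hypotheses are unbundled (fields `continuous`, `frobenius` of
`IsCyclotomic p ε` in `Skeleton5140.lean`), so that this file only imports the interface.
-/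
import Fermat.Agent.GalRep.EigLat8500
import Fermat.Agent.GalRep.Interface5140
import Fermat.Agent.Cheb.Bridge

set_option autoImplicit false
set_option linter.style.haveILetI false

namespace Fermat.Agent.GalRep.EigLat8500

open Polynomial

/-- a ring hom `ℤ_p → 𝒪` for every ring `𝒪` complete with respect to an ideal containing `p` -/
theorem exists_padicInt_ringHom (p : ℕ) [Fact p.Prime] (𝒪 : Type*) [CommRing 𝒪] (I : Ideal 𝒪)
    [IsAdicComplete I 𝒪] (hp : (p : 𝒪) ∈ I) : Nonempty (ℤ_[p] →+* 𝒪) := by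
  have hdvd : ∀ n : ℕ, ringChar (𝒪 ⧸ I ^ n) ∣ p ^ n := by
    intro n
    apply ringChar.dvd
    have h1 : ((p ^ n : ℕ) : 𝒪 ⧸ I ^ n) = Ideal.Quotient.mk (I ^ n) ((p : 𝒪) ^ n) := by
      push_cast
      rfl
    rw [h1, Ideal.Quotient.eq_zero_iff_mem]
    exact Ideal.pow_mem_pow hp n
  let f : (n : ℕ) → ℤ_[p] →+* 𝒪 ⧸ I ^ n := fun n =>
    (ZMod.castHom (hdvd n) (𝒪 ⧸ I ^ n)).comp (PadicInt.toZModPow n)
  have hf : ∀ {m n : ℕ} (hle : m ≤ n), (Ideal.Quotient.factorPow I hle).comp (f n) = f m := by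
    intro m n hle
    show ((Ideal.Quotient.factorPow I hle).comp
        ((ZMod.castHom (hdvd n) (𝒪 ⧸ I ^ n)).comp (PadicInt.toZModPow n)))
      = (ZMod.castHom (hdvd m) (𝒪 ⧸ I ^ m)).comp (PadicInt.toZModPow m)
    rw [← PadicInt.zmod_cast_comp_toZModPow m n hle, ← RingHom.comp_assoc, ← RingHom.comp_assoc]
    congr 1
    exact RingHom.ext_zmod _ _
  exact ⟨IsAdicComplete.liftRingHom I f hf⟩

theorem padicInt_ringHom_injective {p : ℕ} [Fact p.Prime] {𝒪 : Type*} [CommRing 𝒪] [IsDomain 𝒪]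
    [CharZero 𝒪] (ι : ℤ_[p] →+* 𝒪) : Function.Injective ι := by
  rw [injective_iff_map_eq_zero]
  intro x hx
  by_contra hx0
  have h1 := PadicInt.unitCoeff_spec hx0
  rw [h1, map_mul, map_pow, map_natCast] at hx
  rcases mul_eq_zero.mp hx with h | h
  · exact ((PadicInt.unitCoeff hx0).isUnit.map ι).ne_zero h
  · have hp0 : (p : 𝒪) ≠ 0 := Nat.cast_ne_zero.mpr (Fact.out : p.Prime).ne_zero
    exact pow_ne_zero _ hp0 h

/-- **Leaf Q3 (adic eigen-lattice)** of helper5140's GALREP skeleton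
(`TateDatum.exists_eigenLattice`), with the two used fields of `IsCyclotomic p ε` as explicit
hypotheses. -/
theorem tateDatum_exists_eigenLattice {N p : ℕ} [NeZero N] [Fact p.Prime] (D : TateDatum N p)
    (ε : GQ →* ℤ_[p]ˣ)
    (hεcont : ∀ n : ℕ, ∃ L : IntermediateField ℚ (AlgebraicClosure ℚ), FiniteDimensional ℚ L ∧
      ∀ σ : GQ, (∀ x ∈ L, σ x = x) → ∃ w : ℤ_[p], ((ε σ : ℤ_[p]) - 1) = (p : ℤ_[p]) ^ n * w)
    (hεfrob : ∀ ℓ : ℕ, ℓ.Prime → ℓ ≠ p → ∀ A : ValuationSubring (AlgebraicClosure ℚ),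
      A.LiesOverPrime ℓ → ∀ σ : GQ, A.IsFrobeniusAt σ ℓ → ((ε σ : ℤ_[p])) = (ℓ : ℤ_[p]))
    (S : Finset ℕ) (hpS : p ∈ S) (hNS : ∀ q : ℕ, q.Prime → q ∣ N → q ∈ S)
    (𝒪' : Type) [CommRing 𝒪'] [IsDomain 𝒪'] [IsDiscreteValuationRing 𝒪']
    [IsAdicComplete (IsLocalRing.maximalIdeal 𝒪') 𝒪'] [Finite (IsLocalRing.ResidueField 𝒪')]
    [CharZero 𝒪'] (hp𝒪' : (p : 𝒪') ∈ IsLocalRing.maximalIdeal 𝒪')
    (χ : CuspForm.heckeAlgebra N 2 (↑S : Set ℕ) →+* 𝒪') :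
    ∃ (ι : ℤ_[p] →+* 𝒪') (Λ : Type) (_ : AddCommGroup Λ) (_ : Module 𝒪' Λ) (_ : Module.Free 𝒪' Λ)
      (_ : Module.Finite 𝒪' Λ) (_ : Nontrivial Λ) (ρ : GQ →* Module.End 𝒪' Λ) (τ : GQ → 𝒪'),
      (∀ (σ : GQ) (v : Λ), ρ σ (ρ σ v) - τ σ • ρ σ v + ι (ε σ) • v = 0) ∧
      GaloisActionIsAdicContinuous 𝒪' ρ ∧
      (∀ q : ℕ, q.Prime → ¬ q ∣ N → q ≠ p → ∀ A : ValuationSubring (AlgebraicClosure ℚ),
        A.LiesOverPrime q → ∀ σ ∈ A.inertiaSubgroupIn ℚ, ρ σ = 1) ∧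
      (∀ (ℓ : ℕ) (hℓ : ℓ.Prime) (hℓN : ¬ ℓ ∣ N) (hℓS : ℓ ∉ (↑S : Set ℕ)),
        ∀ A : ValuationSubring (AlgebraicClosure ℚ), A.LiesOverPrime ℓ →
          ∀ σ : GQ, A.IsFrobeniusAt σ ℓ → τ σ = χ (CuspForm.heckeAlgebra.T hℓ hℓN hℓS)) := by
  classical
  have hpprime : p.Prime := Fact.out
  obtain ⟨ι⟩ := exists_padicInt_ringHom p 𝒪' (IsLocalRing.maximalIdeal 𝒪') hp𝒪'
  letI : Algebra ℤ_[p] 𝒪' := ι.toAlgebra
  have hιalg : ∀ x : ℤ_[p], algebraMap ℤ_[p] 𝒪' x = ι x := fun _ => rfl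
  -- the polynomial ring on the good primes outside `S`
  let ren : MvPolynomial (GoodPrimeOutside N p (↑S : Set ℕ)) ℤ_[p] →ₐ[ℤ_[p]] HeckePoly N p :=
    MvPolynomial.rename Subtype.val
  letI : Module (MvPolynomial (GoodPrimeOutside N p (↑S : Set ℕ)) ℤ_[p]) D.M :=
    Module.compHom D.M (ren : MvPolynomial (GoodPrimeOutside N p (↑S : Set ℕ)) ℤ_[p] →+* HeckePoly N p)
  have hsmul : ∀ (P : MvPolynomial (GoodPrimeOutside N p (↑S : Set ℕ)) ℤ_[p]) (v : D.M),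
      P • v = (ren P) • v := fun _ _ => rfl
  haveI : IsScalarTower ℤ_[p] (MvPolynomial (GoodPrimeOutside N p (↑S : Set ℕ)) ℤ_[p]) D.M :=
    ⟨fun a P v => by rw [hsmul, hsmul, map_smul, smul_assoc]⟩
  -- the Galois action, `ℤ_p`-linearly
  let ρ' : GQ →* Module.End ℤ_[p] D.M :=
    { toFun := fun σ => (D.ρ σ).restrictScalars ℤ_[p]
      map_one' := by rw [map_one]; rfl
      map_mul' := fun σ σ' => by rw [map_mul]; rfl }
  have hρ'app : ∀ (σ : GQ) (v : D.M), ρ' σ v = D.ρ σ v := fun _ _ => rfl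
  have hρ' : ∀ (σ : GQ) (P : MvPolynomial (GoodPrimeOutside N p (↑S : Set ℕ)) ℤ_[p]) (v : D.M),
      ρ' σ (P • v) = P • ρ' σ v := by
    intro σ P v
    rw [hρ'app, hρ'app, hsmul, hsmul, map_smul]
  -- the character
  let χS : MvPolynomial (GoodPrimeOutside N p (↑S : Set ℕ)) ℤ_[p] →ₐ[ℤ_[p]] 𝒪' :=
    MvPolynomial.aeval (fun ℓ => χ (heckeT N p (↑S : Set ℕ) ℓ))
  have hann : ∀ P : MvPolynomial (GoodPrimeOutside N p (↑S : Set ℕ)) ℤ_[p],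
      (∀ v : D.M, P • v = 0) → χS P = 0 := by
    intro P hP
    have h := D.eval₂_eq_zero_of_annihilates (↑S : Set ℕ) ι χ P hP
    show MvPolynomial.aeval (fun ℓ => χ (heckeT N p (↑S : Set ℕ) ℓ)) P = 0
    rw [MvPolynomial.aeval_def]
    exact h
  have hinj : Function.Injective (algebraMap ℤ_[p] 𝒪') := padicInt_ringHom_injective ι
  have hϖ : algebraMap ℤ_[p] 𝒪' (p : ℤ_[p]) ∈ IsLocalRing.maximalIdeal 𝒪' := by
    rw [hιalg, map_natCast]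
    exact hp𝒪'
  -- good primes
  have hgood : ∀ ℓ : ℕ, ℓ.Prime → ℓ ∉ S → ¬ ℓ ∣ N ∧ ℓ ≠ p ∧ ¬ ℓ ∣ N * p := by
    intro ℓ hℓ hℓS
    have h1 : ¬ ℓ ∣ N := fun h => hℓS (hNS ℓ hℓ h)
    have h2 : ℓ ≠ p := fun h => hℓS (h ▸ hpS)
    refine ⟨h1, h2, fun h => ?_⟩
    rcases (Nat.Prime.dvd_mul hℓ).mp h with h | h
    · exact h1 h
    · exact h2 ((Nat.prime_dvd_prime_iff_eq hℓ hpprime).mp h)
  -- the Frobenius relation in the form of the core theorem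
  have hfrobrel : ∀ (ℓ : ℕ) (hℓ : ℓ.Prime) (hℓS : ℓ ∉ S)
      (A : ValuationSubring (AlgebraicClosure ℚ)), A.LiesOverPrime ℓ → ∀ φ : GQ,
      A.IsFrobeniusAt φ ℓ → ∀ v : D.M,
      ρ' φ (ρ' φ v) - (MvPolynomial.X (⟨⟨ℓ, hℓ, (hgood ℓ hℓ hℓS).2.2⟩, by simpa using hℓS⟩ :
          GoodPrimeOutside N p (↑S : Set ℕ)) :
            MvPolynomial (GoodPrimeOutside N p (↑S : Set ℕ)) ℤ_[p]) • ρ' φ v
        + (ε φ : ℤ_[p]) • v = 0 := by
    intro ℓ hℓ hℓS A hA φ hφ v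
    have h := D.frobenius ⟨ℓ, hℓ, (hgood ℓ hℓ hℓS).2.2⟩ A hA φ hφ v
    rw [hεfrob ℓ hℓ (hgood ℓ hℓ hℓS).2.1 A hA φ hφ, hsmul, hρ'app]
    show D.ρ φ (D.ρ φ v) - (MvPolynomial.rename Subtype.val (MvPolynomial.X _)) • D.ρ φ v + _ = 0
    rw [MvPolynomial.rename_X]
    exact h
  have hdense : ∀ (σ : GQ) (n : ℕ), ∃ (φ : GQ) (k : ℕ)
      (c : MvPolynomial (GoodPrimeOutside N p (↑S : Set ℕ)) ℤ_[p]),
      (∀ v : D.M, ρ' φ (ρ' φ v) - c • ρ' φ v + (ε φ : ℤ_[p]) • v = 0) ∧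
      (∀ v : D.M, ∃ w : D.M, ρ' (φ ^ k) v - ρ' σ v = (p : ℤ_[p]) ^ n • w) ∧
      (∃ w : ℤ_[p], ((ε φ : ℤ_[p])) ^ k - (ε σ : ℤ_[p]) = (p : ℤ_[p]) ^ n * w) := by
    intro σ n
    obtain ⟨L1, hL1, h1⟩ := D.continuous n
    obtain ⟨L2, hL2, h2⟩ := hεcont n
    haveI : FiniteDimensional ℚ (L1 ⊔ L2 : IntermediateField ℚ (AlgebraicClosure ℚ)) :=
      IntermediateField.finiteDimensional_sup L1 L2
    obtain ⟨ℓ, A, φ, k, hℓ, hℓS, hA, hφ, hk⟩ :=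
      Fermat.Agent.Cheb.exists_frobenius_pow_eq S (L1 ⊔ L2) σ
    refine ⟨φ, k, _, hfrobrel ℓ hℓ hℓS A hA φ hφ, ?_, ?_⟩
    · -- `g = σ⁻¹ φ^k` fixes `L1`
      have hg : ∀ x ∈ L1, (σ⁻¹ * φ ^ k) x = x := by
        intro x hx
        rw [AlgEquiv.mul_apply, hk x ((le_sup_left : L1 ≤ L1 ⊔ L2) hx)]
        exact σ.symm_apply_apply x
      intro v
      obtain ⟨w, hw⟩ := h1 (σ⁻¹ * φ ^ k) hg v
      refine ⟨D.ρ σ w, ?_⟩
      have h3 : φ ^ k = σ * (σ⁻¹ * φ ^ k) := by group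
      rw [hρ'app, hρ'app, h3, map_mul, Module.End.mul_apply, ← map_sub, hw]
      exact LinearMap.map_smul_of_tower (D.ρ σ) _ w
    · have hg : ∀ x ∈ L2, (σ⁻¹ * φ ^ k) x = x := by
        intro x hx
        rw [AlgEquiv.mul_apply, hk x ((le_sup_right : L2 ≤ L1 ⊔ L2) hx)]
        exact σ.symm_apply_apply x
      obtain ⟨w, hw⟩ := h2 (σ⁻¹ * φ ^ k) hg
      refine ⟨(ε σ : ℤ_[p]) * w, ?_⟩
      have h3 : φ ^ k = σ * (σ⁻¹ * φ ^ k) := by group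
      have h4 : ((ε φ : ℤ_[p])) ^ k = (ε σ : ℤ_[p]) * (ε (σ⁻¹ * φ ^ k) : ℤ_[p]) := by
        rw [← Units.val_pow_eq_pow_val, ← map_pow, h3, map_mul, Units.val_mul]
        congr 2
        group
      rw [h4]
      linear_combination (ε σ : ℤ_[p]) * hw
  obtain ⟨Λ, i1, i2, i3, i4, i5, r, τ, hquad, hcont, hunr, hτ⟩ :=
    exists_eigenLattice (p : ℤ_[p]) ρ' hρ' ε hinj hϖ χS hann hdense
  refine ⟨ι, Λ, i1, i2, i3, i4, i5, r, τ, hquad, ?_, ?_, ?_⟩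
  · -- adic continuity
    intro n
    obtain ⟨L1, hL1, h1⟩ := D.continuous n
    refine ⟨L1, hL1, fun σ hσ v => ?_⟩
    obtain ⟨w, hw⟩ := hcont σ n (fun v => h1 σ hσ v) v
    rw [hw]
    exact Submodule.smul_mem_smul (Ideal.pow_mem_pow hϖ n) Submodule.mem_top
  · -- unramified outside `N p`
    intro q hq hqN hqp A hA σ hσ
    have hqgood : ¬ q ∣ N * p := by
      intro h
      rcases (Nat.Prime.dvd_mul hq).mp h with h | h
      · exact hqN h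
      · exact hqp ((Nat.prime_dvd_prime_iff_eq hq hpprime).mp h)
    apply hunr
    have h := D.unramified ⟨q, hq, hqgood⟩ A hA σ hσ
    refine LinearMap.ext fun v => ?_
    rw [hρ'app, h]
    rfl
  · -- the trace at Frobenius
    intro ℓ hℓ hℓN hℓS A hA σ hσ
    have hℓS' : ℓ ∉ S := by simpa using hℓS
    have h := hτ σ _ (hfrobrel ℓ hℓ hℓS' A hA σ hσ)
    rw [h]
    show MvPolynomial.aeval (fun ℓ => χ (heckeT N p (↑S : Set ℕ) ℓ)) (MvPolynomial.X _) = _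
    rw [MvPolynomial.aeval_X]
    rfl

end Fermat.Agent.GalRep.EigLat8500
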