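/-
GALREP leaf QA-FIN (helper2694): `exists_residual_of_quadratic`, EXACT statement of the leaf of
helper5140's skeleton (`Fermat/Agent/GalRep/Skeleton5140.lean`), proved.

A nonzero finite-dimensional representation over a FINITE field whose elements satisfy
`g² - τ(g) g + d(g) = 0` (`d` a character) yields a 2-dimensional representation with
characteristic polynomials `X² - τ X + d` (any characteristic, including 2).

Proof: take a minimal nonzero stable subspace `W`; `dim W ≤ 2` by helper7614's quadratic-algebra
lemma `finrank_le_two_of_finite_range` (files `Fermat/Agent/S30/Quad*.lean`, vendored verbatim);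
`dim W = 2`: a non-scalar element exists and Cayley–Hamilton gives trace and determinant;
`dim W = 1`: `ψ ⊕ d ψ⁻¹`.
-/
import Mathlib
import Fermat.Agent.S30.QuadFinite

set_option autoImplicit false
open Polynomial

namespace Fermat.Agent.GalRep.QAFin2694

section MatrixLemmas

variable {F : Type} [Field F] {G : Type*} [Group G]

/-- 2×2 Cayley–Hamilton in expanded form. -/
theorem cayley_two (A : Matrix (Fin 2) (Fin 2) F) :
    A * A - A.trace • A + A.det • (1 : Matrix (Fin 2) (Fin 2) F) = 0 := by
  ext i j
  fin_cases i <;> fin_cases j <;>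
    simp [Matrix.mul_apply, Fin.sum_univ_two, Matrix.trace_fin_two, Matrix.det_fin_two] <;> ring

/-- Lemma A: quadratic relations plus one non-scalar element pin down trace and determinant. -/
theorem trace_det_of_nonscalar (M : G →* Matrix (Fin 2) (Fin 2) F) (τ : G → F) (d : G →* Fˣ)
    (hM : ∀ g, M g * M g - τ g • M g + (d g : F) • (1 : Matrix (Fin 2) (Fin 2) F) = 0)
    (g₀ : G) (hg₀ : ∀ a : F, M g₀ ≠ a • (1 : Matrix (Fin 2) (Fin 2) F)) :
    ∀ g, (M g).trace = τ g ∧ (M g).det = (d g : F) := by
  have key : ∀ g, (∀ a : F, M g ≠ a • (1 : Matrix (Fin 2) (Fin 2) F)) →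
      (M g).trace = τ g ∧ (M g).det = (d g : F) := by
    intro g hg
    have hCH := cayley_two (M g)
    have h1 : (τ g - (M g).trace) • M g =
        ((d g : F) - (M g).det) • (1 : Matrix (Fin 2) (Fin 2) F) := by
      have h2 := hM g
      have h3 : (τ g - (M g).trace) • M g -
          ((d g : F) - (M g).det) • (1 : Matrix (Fin 2) (Fin 2) F) =
          (M g * M g - (M g).trace • M g + (M g).det • (1 : Matrix (Fin 2) (Fin 2) F)) -
          (M g * M g - τ g • M g + (d g : F) • (1 : Matrix (Fin 2) (Fin 2) F)) := by
        rw [sub_smul, sub_smul]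
        abel
      rw [hCH, h2, sub_zero] at h3
      exact sub_eq_zero.mp h3
    by_cases hτ : τ g = (M g).trace
    · refine ⟨hτ.symm, ?_⟩
      rw [hτ, sub_self, zero_smul] at h1
      have h4 := congrFun (congrFun h1 0) 0
      simp only [Matrix.zero_apply, Matrix.smul_apply, Matrix.one_apply_eq, smul_eq_mul,
        mul_one] at h4
      exact (sub_eq_zero.mp h4.symm).symm
    · exfalso
      apply hg ((τ g - (M g).trace)⁻¹ * ((d g : F) - (M g).det))
      rw [mul_smul, ← h1, smul_smul, inv_mul_cancel₀ (sub_ne_zero.mpr hτ), one_smul]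
  intro g
  by_cases hg : ∀ a : F, M g ≠ a • (1 : Matrix (Fin 2) (Fin 2) F)
  · exact key g hg
  · push Not at hg
    obtain ⟨a, ha⟩ := hg
    have hprod : M (g * g₀) = a • M g₀ := by rw [map_mul, ha, smul_mul_assoc, one_mul]
    have ha0 : a ≠ 0 := by
      intro h0
      have h5 : M g * M g⁻¹ = 1 := by rw [← map_mul, mul_inv_cancel, map_one]
      rw [ha, h0, zero_smul, zero_mul] at h5
      exact zero_ne_one h5
    have hns : ∀ b : F, M (g * g₀) ≠ b • (1 : Matrix (Fin 2) (Fin 2) F) := by
      intro b hb
      apply hg₀ (a⁻¹ * b)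
      rw [hprod] at hb
      rw [mul_smul, ← hb, smul_smul, inv_mul_cancel₀ ha0, one_smul]
    obtain ⟨-, hdet⟩ := key (g * g₀) hns
    obtain ⟨-, hdet₀⟩ := key g₀ hg₀
    rw [hprod, Matrix.det_smul, Fintype.card_fin, hdet₀, map_mul, Units.val_mul] at hdet
    have hd0 : (d g₀ : F) ≠ 0 := (d g₀).ne_zero
    have hsq : a ^ 2 = (d g : F) := mul_right_cancel₀ hd0 hdet
    have h00 := congrFun (congrFun (hM g) 0) 0
    rw [ha] at h00
    simp only [Matrix.smul_mul, Matrix.one_mul, Matrix.add_apply, Matrix.sub_apply,
      Matrix.smul_apply, Matrix.one_apply_eq, smul_eq_mul, mul_one, Matrix.zero_apply] at h00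
    refine ⟨?_, ?_⟩
    · rw [ha, Matrix.trace_smul, Matrix.trace_one, Fintype.card_fin, smul_eq_mul]
      have h6 : a * (a * 2 - τ g) = 0 := by
        have : a * (a * 2 - τ g) = a * a - τ g * a + a ^ 2 := by ring
        rw [this, hsq]
        exact h00
      have h7 := (mul_eq_zero.mp h6).resolve_left ha0
      push_cast
      exact sub_eq_zero.mp h7
    · rw [ha, Matrix.det_smul, Matrix.det_one, Fintype.card_fin, mul_one, hsq]

/-- Lemma B: a matrix representation with the right traces and determinants gives the output. -/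
theorem exists_of_matrix (τ : G → F) (d : G →* Fˣ) (P : G → Prop)
    (M : G →* Matrix (Fin 2) (Fin 2) F)
    (hM : ∀ g, (M g).trace = τ g ∧ (M g).det = (d g : F))
    (hone : ∀ g, P g → M g = 1) :
    ∃ (V : Type) (_ : AddCommGroup V) (_ : Module F V) (_ : Module.Finite F V)
      (ρ' : G →* Module.End F V),
      Module.finrank F V = 2 ∧
      (∀ g : G, LinearMap.charpoly (ρ' g) = X ^ 2 - C (τ g) * X + C ((d g : F))) ∧
      (∀ g : G, P g → ρ' g = 1) := by
  refine ⟨Fin 2 → F, inferInstance, inferInstance, inferInstance,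
    (MonoidHomClass.toMonoidHom (Matrix.toLinAlgEquiv' (R := F) (n := Fin 2))).comp M,
    Module.finrank_fin_fun F, ?_, ?_⟩
  · intro g
    have h1 : ((MonoidHomClass.toMonoidHom (Matrix.toLinAlgEquiv' (R := F) (n := Fin 2))).comp M) g
        = Matrix.toLin' (M g) := rfl
    rw [h1, Matrix.charpoly_toLin', Matrix.charpoly_fin_two, (hM g).1, (hM g).2]
  · intro g hg
    have h1 : ((MonoidHomClass.toMonoidHom (Matrix.toLinAlgEquiv' (R := F) (n := Fin 2))).comp M) g
        = Matrix.toLinAlgEquiv' (M g) := rfl
    rw [h1, hone g hg, map_one]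

end MatrixLemmas

section Main

variable {F : Type*} [Field F] {G : Type*} [Group G]

/-- a minimal nonzero stable subspace -/
theorem exists_min_stable {U : Type*} [AddCommGroup U] [Module F U] [FiniteDimensional F U]
    [Nontrivial U] (ρ : G →* Module.End F U) :
    ∃ W : Submodule F U, W ≠ ⊥ ∧ (∀ g, ∀ u ∈ W, ρ g u ∈ W) ∧
      ∀ W' : Submodule F U, W' ≤ W → (∀ g, ∀ u ∈ W', ρ g u ∈ W') → W' = ⊥ ∨ W' = W := by
  have hwf : WellFounded ((· < ·) : Submodule F U → Submodule F U → Prop) := wellFounded_lt
  let S : Set (Submodule F U) := {W | W ≠ ⊥ ∧ ∀ g, ∀ u ∈ W, ρ g u ∈ W}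
  have hS : S.Nonempty := ⟨⊤, top_ne_bot, fun _ _ _ => Submodule.mem_top⟩
  obtain ⟨W, hW, hmin⟩ := hwf.has_min S hS
  refine ⟨W, hW.1, hW.2, fun W' hle hst => ?_⟩
  by_cases h0 : W' = ⊥
  · exact Or.inl h0
  · right
    rcases lt_or_eq_of_le hle with hlt | heq
    · exact absurd hlt (hmin W' ⟨h0, hst⟩)
    · exact heq

/-- restriction of a representation to a stable subspace -/
def restrictRep {U : Type*} [AddCommGroup U] [Module F U] (ρ : G →* Module.End F U)
    (W : Submodule F U) (hW : ∀ g, ∀ u ∈ W, ρ g u ∈ W) : G →* Module.End F W where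
  toFun g := (ρ g).restrict (hW g)
  map_one' := by
    ext u
    simp [LinearMap.restrict_apply]
  map_mul' g h := by
    ext u
    simp [LinearMap.restrict_apply, map_mul]

theorem restrictRep_apply {U : Type*} [AddCommGroup U] [Module F U] (ρ : G →* Module.End F U)
    (W : Submodule F U) (hW : ∀ g, ∀ u ∈ W, ρ g u ∈ W) (g : G) (u : W) :
    ((restrictRep ρ W hW g u : W) : U) = ρ g (u : U) := rfl

end Main

/-- **QA-FIN** (exact statement of the leaf `exists_residual_of_quadratic` of helper5140's
skeleton). -/
theorem exists_residual_of_quadratic (F : Type) [Field F] [Finite F] {G : Type} [Group G]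
    (U : Type) [AddCommGroup U] [Module F U] [FiniteDimensional F U] [Nontrivial U]
    (ρ : G →* Module.End F U) (τ : G → F) (d : G →* Fˣ)
    (hquad : ∀ (g : G) (v : U), ρ g (ρ g v) - τ g • ρ g v + (d g : F) • v = 0) :
    ∃ (V : Type) (_ : AddCommGroup V) (_ : Module F V) (_ : Module.Finite F V)
      (ρ' : G →* Module.End F V),
      Module.finrank F V = 2 ∧
      (∀ g : G, LinearMap.charpoly (ρ' g) = X ^ 2 - C (τ g) * X + C ((d g : F))) ∧
      (∀ g : G, ρ g = 1 → d g = 1 → ρ' g = 1) := by
  classical
  obtain ⟨W, hW0, hWst, hWmin⟩ := exists_min_stable ρ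
  set ρW := restrictRep ρ W hWst with hρW
  have : Nontrivial W := Submodule.nontrivial_iff_ne_bot.mpr hW0
  have hquadW : ∀ g, ρW g * ρW g - τ g • ρW g + (d g : F) • (1 : Module.End F W) = 0 := by
    intro g
    ext u
    have h := hquad g (u : U)
    simp only [LinearMap.add_apply, LinearMap.sub_apply, Module.End.mul_apply,
      LinearMap.smul_apply, Module.End.one_apply, LinearMap.zero_apply, Submodule.coe_add,
      Submodule.coe_sub, Submodule.coe_smul, Submodule.coe_zero, hρW, restrictRep_apply]
    exact h
  have hone : ∀ g, ρ g = 1 → ρW g = 1 := by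
    intro g hg
    ext u
    rw [hρW, restrictRep_apply, hg, Module.End.one_apply, Module.End.one_apply]
  have hirr : ∀ U' : Submodule F W, (∀ g, ∀ u ∈ U', ρW g u ∈ U') → U' = ⊥ ∨ U' = ⊤ := by
    intro U' hU'
    have hle : U'.map W.subtype ≤ W := Submodule.map_subtype_le W U'
    have hst : ∀ g, ∀ u ∈ U'.map W.subtype, ρ g u ∈ U'.map W.subtype := by
      rintro g _ ⟨u, hu, rfl⟩
      exact ⟨ρW g u, hU' g u hu, rfl⟩
    rcases hWmin _ hle hst with h | h
    · left
      apply Submodule.map_injective_of_injective W.injective_subtype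
      rw [h, Submodule.map_bot]
    · right
      apply Submodule.map_injective_of_injective W.injective_subtype
      rw [h, Submodule.map_subtype_top]
  obtain ⟨p, hp⟩ := CharP.exists F
  have := hp
  have : Fact p.Prime := ⟨CharP.char_is_prime F p⟩
  have : Finite W := Module.finite_of_finite F
  have : Finite (Module.End F W) :=
    Finite.of_injective (fun f : Module.End F W => (f : W → W)) DFunLike.coe_injective
  have hle2 : Module.finrank F W ≤ 2 :=
    Fermat.Agent.S30.QuadAlg.finrank_le_two_of_finite_range p ρW ((Units.coeHom F).comp d) τ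
      (fun g => by
        have h := hquadW g
        have h2 : ρW g * ρW g = τ g • ρW g - (d g : F) • (1 : Module.End F W) := by
          rw [← sub_eq_zero, ← h]
          abel
        exact h2) hirr (Set.toFinite _)
  have hpos : 0 < Module.finrank F W := Module.finrank_pos
  have hcases : Module.finrank F W = 1 ∨ Module.finrank F W = 2 := by omega
  have hfinal : ∃ (V : Type) (_ : AddCommGroup V) (_ : Module F V) (_ : Module.Finite F V)
      (ρ' : G →* Module.End F V),
      Module.finrank F V = 2 ∧
      (∀ g : G, LinearMap.charpoly (ρ' g) = X ^ 2 - C (τ g) * X + C ((d g : F))) ∧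
      (∀ g : G, (ρ g = 1 ∧ d g = 1) → ρ' g = 1) := by
    rcases hcases with h | h
    · -- dimension one
      let b : Module.Basis (Fin 1) F W := Module.finBasisOfFinrankEq F W h
      let M₁ : G →* Matrix (Fin 1) (Fin 1) F :=
        (MonoidHomClass.toMonoidHom (LinearMap.toMatrixAlgEquiv b)).comp ρW
      have hM₁ : ∀ g, M₁ g = LinearMap.toMatrixAlgEquiv b (ρW g) := fun g => rfl
      let ψ : G → F := fun g => M₁ g 0 0
      have hψmul : ∀ g h, ψ (g * h) = ψ g * ψ h := by
        intro g h
        simp [ψ, map_mul, Matrix.mul_apply]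
      have hψone : ψ 1 = 1 := by simp [ψ]
      have hψne : ∀ g, ψ g ≠ 0 := fun g h0 => by
        have h1 := hψmul g g⁻¹
        rw [mul_inv_cancel, hψone, h0, zero_mul] at h1
        exact one_ne_zero h1
      have hψq : ∀ g, ψ g * ψ g - τ g * ψ g + (d g : F) = 0 := by
        intro g
        have h1 := congrArg (LinearMap.toMatrixAlgEquiv b) (hquadW g)
        rw [map_add, map_sub, map_mul, map_smul, map_smul, map_one, map_zero, ← hM₁] at h1
        have h2 := congrFun (congrFun h1 0) 0
        simpa [ψ, Matrix.mul_apply] using h2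
      let M : G →* Matrix (Fin 2) (Fin 2) F :=
        { toFun := fun g => Matrix.diagonal ![ψ g, (d g : F) * (ψ g)⁻¹]
          map_one' := by
            rw [← Matrix.diagonal_one]
            congr 1
            ext i
            fin_cases i <;> simp [hψone]
          map_mul' := fun g h => by
            rw [Matrix.diagonal_mul_diagonal]
            congr 1
            ext i
            fin_cases i
            · simp [hψmul]
            · simp [hψmul]
              ring }
      have hMdef : ∀ g, M g = Matrix.diagonal ![ψ g, (d g : F) * (ψ g)⁻¹] := fun g => rfl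
      have hMtd : ∀ g, (M g).trace = τ g ∧ (M g).det = (d g : F) := by
        intro g
        have hne := hψne g
        constructor
        · rw [hMdef, Matrix.trace_diagonal, Fin.sum_univ_two]
          simp only [Matrix.cons_val_zero, Matrix.cons_val_one]
          field_simp
          linear_combination hψq g
        · rw [hMdef, Matrix.det_diagonal, Fin.prod_univ_two]
          simp only [Matrix.cons_val_zero, Matrix.cons_val_one]
          field_simp
      refine exists_of_matrix τ d (fun g => ρ g = 1 ∧ d g = 1) M hMtd ?_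
      intro g hg
      have h1 : ψ g = 1 := by
        show M₁ g 0 0 = 1
        rw [hM₁, hone g hg.1, map_one, Matrix.one_apply_eq]
      rw [hMdef, h1, hg.2, ← Matrix.diagonal_one]
      congr 1
      ext i
      fin_cases i <;> simp
    · -- dimension two
      let b : Module.Basis (Fin 2) F W := Module.finBasisOfFinrankEq F W h
      let M : G →* Matrix (Fin 2) (Fin 2) F :=
        (MonoidHomClass.toMonoidHom (LinearMap.toMatrixAlgEquiv b)).comp ρW
      have hMdef : ∀ g, M g = LinearMap.toMatrixAlgEquiv b (ρW g) := fun g => rfl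
      have hMq : ∀ g, M g * M g - τ g • M g + (d g : F) • (1 : Matrix (Fin 2) (Fin 2) F) = 0 := by
        intro g
        have h1 := congrArg (LinearMap.toMatrixAlgEquiv b) (hquadW g)
        rw [map_add, map_sub, map_mul, map_smul, map_smul, map_one, map_zero, ← hMdef] at h1
        exact h1
      have hns : ∃ g₀, ∀ a : F, M g₀ ≠ a • (1 : Matrix (Fin 2) (Fin 2) F) := by
        by_contra hcon
        push Not at hcon
        have hsc : ∀ g, ∃ a : F, ρW g = a • (1 : Module.End F W) := by
          intro g
          obtain ⟨a, ha⟩ := hcon g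
          refine ⟨a, (LinearMap.toMatrixAlgEquiv b).injective ?_⟩
          rw [map_smul, map_one, ← hMdef]
          exact ha
        obtain ⟨w, hw⟩ := exists_ne (0 : W)
        have h3 := hirr (Submodule.span F {w}) (by
          intro g u hu
          obtain ⟨a, ha⟩ := hsc g
          rw [ha, LinearMap.smul_apply, Module.End.one_apply]
          exact Submodule.smul_mem _ a hu)
        rcases h3 with h' | h'
        · exact hw (Submodule.span_singleton_eq_bot.mp h')
        · have h4 : Module.finrank F W ≤ 1 := by
            rw [← finrank_top F W, ← h', finrank_span_singleton hw]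
          omega
      obtain ⟨g₀, hg₀⟩ := hns
      refine exists_of_matrix τ d (fun g => ρ g = 1 ∧ d g = 1) M
        (trace_det_of_nonscalar M τ d hMq g₀ hg₀) ?_
      intro g hg
      rw [hMdef, hone g hg.1, map_one]
  obtain ⟨V, i1, i2, i3, ρ', h1, h2, h3⟩ := hfinal
  exact ⟨V, i1, i2, i3, ρ', h1, h2, fun g a b => h3 g ⟨a, b⟩⟩

end Fermat.Agent.GalRep.QAFin2694
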