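/-
GALREP algebraic half (helper5140), v2: this file is now SORRY-FREE.
Q1 CYCLO (`exists_cyclotomicCharacter`, from helper474 `S30/Cyclo474.lean`),
QA-ADIC (`exists_adic_of_quadratic`, from helper6834 `S30/OddLeaf.lean`),
QA-FIN (`exists_residual_of_quadratic`, from helper2694 `GalRep/QAFin2694.lean`).
The open leaves live in `Leaves5140.lean`; the assemblies are PROVED in `Assembly*5140.lean`.
-/
import Fermat.Agent.GalRep.Interface5140
import Fermat.Agent.S30.Cyclo474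
import Fermat.Agent.S30.OddLeaf
import Fermat.Agent.GalRep.QAFin2694

set_option autoImplicit false
open Polynomial

namespace Fermat.Agent.GalRep

/-- the defining properties of the `p`-adic cyclotomic character that the assemblies use -/
structure IsCyclotomic (p : ℕ) [Fact p.Prime] (ε : GQ →* ℤ_[p]ˣ) : Prop where
  continuous : ∀ n : ℕ, ∃ L : IntermediateField ℚ (AlgebraicClosure ℚ), FiniteDimensional ℚ L ∧
    ∀ σ : GQ, (∀ x ∈ L, σ x = x) → ∃ w : ℤ_[p], ((ε σ : ℤ_[p]) - 1) = (p : ℤ_[p]) ^ n * w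
  frobenius : ∀ ℓ : ℕ, ℓ.Prime → ℓ ≠ p → ∀ A : ValuationSubring (AlgebraicClosure ℚ),
    A.LiesOverPrime ℓ → ∀ σ : GQ, A.IsFrobeniusAt σ ℓ → ((ε σ : ℤ_[p])) = (ℓ : ℤ_[p])
  inertia : ∀ ℓ : ℕ, ℓ.Prime → ℓ ≠ p → ∀ A : ValuationSubring (AlgebraicClosure ℚ),
    A.LiesOverPrime ℓ → ∀ σ ∈ A.inertiaSubgroupIn ℚ, ε σ = 1
  conj : ∃ c : GQ, c * c = 1 ∧ ((ε c : ℤ_[p])) = -1

/-- **Q1 CYCLO.** -/
theorem exists_cyclotomicCharacter (p : ℕ) [Fact p.Prime] :
    ∃ ε : GQ →* ℤ_[p]ˣ, IsCyclotomic p ε := by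
  have hp : p.Prime := Fact.out
  refine ⟨Fermat.Agent.S30.Cyclo474.chi p, ?_, ?_, ?_, ?_⟩
  · intro n
    obtain ⟨ζ, hζ⟩ := HasEnoughRootsOfUnity.exists_primitiveRoot (AlgebraicClosure ℚ) (p ^ n)
    have hint : IsIntegral ℚ ζ :=
      IsIntegral.of_pow (pow_pos hp.pos n) (by rw [hζ.pow_eq_one]; exact isIntegral_one)
    refine ⟨IntermediateField.adjoin ℚ {ζ}, IntermediateField.adjoin.finiteDimensional hint, ?_⟩
    intro σ hσ
    exact Fermat.Agent.S30.Cyclo474.chi_sub_one_mem p σ n hζ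
      (hσ ζ (IntermediateField.mem_adjoin_simple_self ℚ ζ))
  · intro ℓ hℓ hℓp A hA σ hσ
    exact Fermat.Agent.S30.Cyclo474.chi_frobenius p hℓ hℓp A hA σ hσ
  · intro ℓ hℓ hℓp A hA σ hσ
    exact Fermat.Agent.S30.Cyclo474.chi_inertia p hℓ hℓp A hA σ hσ
  · refine ⟨complexConjugation, complexConjugation_mul_self, ?_⟩
    rw [Fermat.Agent.S30.Cyclo474.chi_complexConjugation p]
    simp

/-- **QA-ADIC** (pure algebra over a DVR of characteristic 0; packages Q2 + Q4).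
A nonzero lattice with a group action satisfying `g² - τ(g) g + d(g) = 0`, and an "odd" involution
`c`, has a rank-2 representation with characteristic polynomials `X² - τ X + d`, congruent to the
identity wherever the given action and `d` are. -/
theorem exists_adic_of_quadratic (𝒪 : Type) [CommRing 𝒪] [IsDomain 𝒪] [IsDiscreteValuationRing 𝒪]
    [CharZero 𝒪] {G : Type} [Group G]
    (Λ : Type) [AddCommGroup Λ] [Module 𝒪 Λ] [Module.Free 𝒪 Λ] [Module.Finite 𝒪 Λ] [Nontrivial Λ]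
    (ρ : G →* Module.End 𝒪 Λ) (τ : G → 𝒪) (d : G →* 𝒪ˣ)
    (hquad : ∀ (g : G) (v : Λ), ρ g (ρ g v) - τ g • ρ g v + (d g : 𝒪) • v = 0)
    (c : G) (hc : c * c = 1) (hdc : (d c : 𝒪) = -1) :
    ∃ (V : Type) (_ : AddCommGroup V) (_ : Module 𝒪 V) (_ : Module.Free 𝒪 V)
      (_ : Module.Finite 𝒪 V) (ρ' : G →* Module.End 𝒪 V),
      Module.finrank 𝒪 V = 2 ∧
      (∀ g : G, LinearMap.charpoly (ρ' g) = X ^ 2 - C (τ g) * X + C ((d g : 𝒪))) ∧
      (∀ (n : ℕ) (g : G),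
        (∀ v : Λ, ρ g v - v ∈ (IsLocalRing.maximalIdeal 𝒪 ^ n) • (⊤ : Submodule 𝒪 Λ)) →
        ((d g : 𝒪) - 1 ∈ IsLocalRing.maximalIdeal 𝒪 ^ n) →
        ∀ v : V, ρ' g v - v ∈ (IsLocalRing.maximalIdeal 𝒪 ^ n) • (⊤ : Submodule 𝒪 V)) ∧
      (∀ g : G, ρ g = 1 → d g = 1 → ρ' g = 1) := by
  exact Fermat.Agent.S30.OddQ.exists_adic_of_quadratic 𝒪 Λ ρ τ d hquad c hc hdc

/-- **QA-FIN** (pure algebra over a finite field; any characteristic, including 2). -/
theorem exists_residual_of_quadratic (F : Type) [Field F] [Finite F] {G : Type} [Group G]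
    (U : Type) [AddCommGroup U] [Module F U] [FiniteDimensional F U] [Nontrivial U]
    (ρ : G →* Module.End F U) (τ : G → F) (d : G →* Fˣ)
    (hquad : ∀ (g : G) (v : U), ρ g (ρ g v) - τ g • ρ g v + (d g : F) • v = 0) :
    ∃ (V : Type) (_ : AddCommGroup V) (_ : Module F V) (_ : Module.Finite F V)
      (ρ' : G →* Module.End F V),
      Module.finrank F V = 2 ∧
      (∀ g : G, LinearMap.charpoly (ρ' g) = X ^ 2 - C (τ g) * X + C ((d g : F))) ∧
      (∀ g : G, ρ g = 1 → d g = 1 → ρ' g = 1) := by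
  exact QAFin2694.exists_residual_of_quadratic F U ρ τ d hquad

end Fermat.Agent.GalRep
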