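-- GALREP leaf Q3-res (helper5860): `TateDatum.exists_eigenModule_residual` of helper5140's skeleton
-- (exact statement), from the TateDatum interface, LIB Cheb (`exists_frobenius_pow_eq`) and EIGCHAR.
import Fermat.Agent.GalRep.Skeleton5140
import Fermat.Agent.Cheb.Bridge
import Fermat.Agent.S29.EigChar5860

set_option autoImplicit false
set_option linter.style.haveILetI false

namespace Fermat.Agent.GalRep.Q3Res5860

open Polynomial

/-! ### Part A: the Dickson recursion — powers of a root of a quadratic satisfy a quadratic -/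

section Dickson

variable {F : Type*} [CommRing F]

/-- Commutative core: if `x² - a x + b = 0` then `x^(2m) - t x^m + b^m = 0` for a scalar `t`. -/
theorem comm_quad_pow {A : Type*} [CommRing A] (ι : F →+* A) (x : A) (a b : F)
    (h : x ^ 2 - ι a * x + ι b = 0) (m : ℕ) :
    ∃ t : F, x ^ (2 * m) - ι t * x ^ m + ι b ^ m = 0 := by
  obtain ⟨y, hy⟩ : ∃ y : A, y = ι a - x := ⟨_, rfl⟩
  have hxy : x * y = ι b := by rw [hy]; linear_combination -h
  have key : ∀ n : ℕ, (∃ t : F, x ^ n + y ^ n = ι t) ∧ (∃ t : F, x ^ (n + 1) + y ^ (n + 1) = ι t) := by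
    intro n
    induction n with
    | zero =>
      refine ⟨⟨2, ?_⟩, ⟨a, ?_⟩⟩
      · rw [pow_zero, pow_zero, map_ofNat]; norm_num
      · rw [hy]; ring
    | succ n ih =>
      obtain ⟨⟨t1, h1⟩, ⟨t2, h2⟩⟩ := ih
      refine ⟨⟨t2, h2⟩, ⟨a * t2 - b * t1, ?_⟩⟩
      have e : x ^ (n + 1 + 1) + y ^ (n + 1 + 1) =
          (x + y) * (x ^ (n + 1) + y ^ (n + 1)) - (x * y) * (x ^ n + y ^ n) := by ring
      rw [e, hxy, h2, h1, map_sub, map_mul, map_mul]
      rw [hy]; ring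
  obtain ⟨t, ht⟩ := (key m).1
  refine ⟨t, ?_⟩
  rw [← ht, ← hxy]
  ring

/-- Polynomial form of the Dickson recursion. -/
theorem quad_dvd_pow (a b : F) (m : ℕ) :
    ∃ t : F, (X ^ 2 - C a * X + C b : F[X]) ∣ X ^ m * X ^ m - C t * X ^ m + C (b ^ m) := by
  let mk := Ideal.Quotient.mk (Ideal.span {(X ^ 2 - C a * X + C b : F[X])})
  have h0 : mk X ^ 2 - (mk.comp C) a * mk X + (mk.comp C) b = 0 := by
    have : mk (X ^ 2 - C a * X + C b : F[X]) = 0 :=
      Ideal.Quotient.eq_zero_iff_mem.mpr (Ideal.mem_span_singleton_self _)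
    simpa using this
  obtain ⟨t, ht⟩ := comm_quad_pow (mk.comp C) (mk X) a b h0 m
  refine ⟨t, ?_⟩
  rw [← Ideal.mem_span_singleton, ← Ideal.Quotient.eq_zero_iff_mem]
  have e : (X ^ m * X ^ m - C t * X ^ m + C (b ^ m) : F[X]) =
      X ^ (2 * m) - C t * X ^ m + C b ^ m := by
    rw [map_pow]; ring
  rw [e]
  simpa using ht

variable {U : Type*} [AddCommGroup U] [Module F U]

/-- Operator form: if `x² - a x + b = 0` on `U` then `(x^m)² - t x^m + b^m = 0` for a scalar `t`. -/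
theorem exists_quad_pow (x : Module.End F U) (a b : F)
    (h : ∀ v : U, x (x v) - a • x v + b • v = 0) (m : ℕ) :
    ∃ t : F, ∀ v : U, (x ^ m) ((x ^ m) v) - t • (x ^ m) v + b ^ m • v = 0 := by
  obtain ⟨t, q', hq'⟩ := quad_dvd_pow a b m
  refine ⟨t, fun v => ?_⟩
  have hx : aeval x (X ^ 2 - C a * X + C b : F[X]) = 0 := by
    ext w
    simp only [map_add, map_sub, map_mul, aeval_X, aeval_C, LinearMap.add_apply,
      LinearMap.sub_apply, Module.End.mul_apply, LinearMap.zero_apply, Module.algebraMap_end_apply,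
      pow_two]
    exact h w
  have h2 := congrArg (aeval x) hq'
  rw [map_mul, hx, zero_mul] at h2
  have h3 := congrArg (fun f : Module.End F U => f v) h2
  simp only [map_add, map_sub, map_mul, map_pow, aeval_X, aeval_C, LinearMap.add_apply,
    LinearMap.sub_apply, Module.End.mul_apply, LinearMap.zero_apply, Module.algebraMap_end_apply]
    at h3
  rw [← map_pow, Module.algebraMap_end_apply] at h3
  exact h3

/-- Uniqueness of the middle coefficient for an injective operator on a nonzero space. -/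
theorem quad_unique (hF : IsField F) [Nontrivial U] (x : Module.End F U)
    (hx : Function.Injective x) (t t' b : F)
    (h : ∀ v : U, x (x v) - t • x v + b • v = 0) (h' : ∀ v : U, x (x v) - t' • x v + b • v = 0) :
    t = t' := by
  obtain ⟨v, hv⟩ := exists_ne (0 : U)
  have h1 := h v
  have h2 := h' v
  have h3 : t • x v = t' • x v := sub_right_inj.mp (add_right_cancel (h1.trans h2.symm))
  have h4 : (t - t') • x v = 0 := by rw [sub_smul, h3, sub_self]
  by_contra hne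
  obtain ⟨c, hc⟩ := hF.mul_inv_cancel (sub_ne_zero.mpr hne)
  have h5 : x v = 0 := by
    have : (c * (t - t')) • x v = 0 := by rw [mul_smul, h4, smul_zero]
    rwa [mul_comm, hc, one_smul] at this
  exact hv (hx (h5.trans (map_zero x).symm))

end Dickson

/-! ### Part B: the representation induced on `M / 𝔪 M` -/

section Quot

variable {R : Type*} [CommRing R] (𝔪 : Ideal R) {M : Type*} [AddCommGroup M] [Module R M]

theorem smul_top_le_comap (f : Module.End R M) :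
    (𝔪 • (⊤ : Submodule R M)) ≤ (𝔪 • (⊤ : Submodule R M)).comap f := by
  rw [← Submodule.map_le_iff_le_comap, Submodule.map_smul'']
  exact Submodule.smul_mono le_rfl le_top

/-- The endomorphism of `M / 𝔪 M` induced by an `R`-endomorphism of `M`, as an `R/𝔪`-linear map. -/
noncomputable def quotEnd (f : Module.End R M) :
    Module.End (R ⧸ 𝔪) (M ⧸ 𝔪 • (⊤ : Submodule R M)) where
  toFun := Submodule.mapQ _ _ f (smul_top_le_comap 𝔪 f)
  map_add' := map_add _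
  map_smul' r x := by
    obtain ⟨r, rfl⟩ := Ideal.Quotient.mk_surjective r
    obtain ⟨m, rfl⟩ := Submodule.Quotient.mk_surjective _ x
    rw [RingHom.id_apply, Module.Quotient.mk_smul_mk, Submodule.mapQ_apply, Submodule.mapQ_apply,
      Module.Quotient.mk_smul_mk, map_smul]

@[simp] theorem quotEnd_mk (f : Module.End R M) (v : M) :
    quotEnd 𝔪 f (Submodule.Quotient.mk v) = Submodule.Quotient.mk (f v) := rfl

/-- A quadratic relation on `M` descends to `M / 𝔪 M`. -/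
theorem quot_relation (x : Module.End R M) (a b : R)
    (h : ∀ v : M, x (x v) - a • x v + b • v = 0) (u : M ⧸ 𝔪 • (⊤ : Submodule R M)) :
    quotEnd 𝔪 x (quotEnd 𝔪 x u) - Ideal.Quotient.mk 𝔪 a • quotEnd 𝔪 x u +
      Ideal.Quotient.mk 𝔪 b • u = 0 := by
  obtain ⟨v, rfl⟩ := Submodule.Quotient.mk_surjective _ u
  rw [quotEnd_mk, quotEnd_mk, Module.Quotient.mk_smul_mk, Module.Quotient.mk_smul_mk,
    ← Submodule.Quotient.mk_sub, ← Submodule.Quotient.mk_add, h, Submodule.Quotient.mk_zero]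

theorem quotEnd_eq_one_of_sub_mem (x : Module.End R M)
    (h : ∀ v : M, x v - v ∈ 𝔪 • (⊤ : Submodule R M)) : quotEnd 𝔪 x = 1 := by
  refine LinearMap.ext fun u => ?_
  obtain ⟨v, rfl⟩ := Submodule.Quotient.mk_surjective _ u
  rw [quotEnd_mk, Module.End.one_apply]
  exact (Submodule.Quotient.eq _).mpr (h v)

variable {G : Type*} [Group G]

/-- The representation on `M / 𝔪 M` induced by an `R`-linear representation on `M`. -/
noncomputable def quotRep (ρ : G →* Module.End R M) :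
    G →* Module.End (R ⧸ 𝔪) (M ⧸ 𝔪 • (⊤ : Submodule R M)) where
  toFun g := quotEnd 𝔪 (ρ g)
  map_one' := by
    refine LinearMap.ext fun x => ?_
    obtain ⟨m, rfl⟩ := Submodule.Quotient.mk_surjective _ x
    rw [quotEnd_mk, map_one, Module.End.one_apply, Module.End.one_apply]
  map_mul' g h := by
    refine LinearMap.ext fun x => ?_
    obtain ⟨m, rfl⟩ := Submodule.Quotient.mk_surjective _ x
    rw [quotEnd_mk, map_mul, Module.End.mul_apply, Module.End.mul_apply, quotEnd_mk, quotEnd_mk]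

@[simp] theorem quotRep_mk (ρ : G →* Module.End R M) (g : G) (v : M) :
    quotRep 𝔪 ρ g (Submodule.Quotient.mk v) = Submodule.Quotient.mk (ρ g v) := rfl

end Quot

/-! ### Part C: the residual eigen-module of a `TateDatum` -/

section Concrete

open CuspForm

variable {N p : ℕ} [NeZero N] [Fact p.Prime] {k : Type} [Field k] [CharP k p]

/-- `ℤ_p → 𝔽_p → k`. -/
noncomputable def coeffHom (p : ℕ) [Fact p.Prime] (k : Type) [Field k] [CharP k p] : ℤ_[p] →+* k :=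
  (ZMod.castHom (dvd_refl p) k).comp PadicInt.toZMod

theorem coeffHom_p : coeffHom p k (p : ℤ_[p]) = 0 := by
  rw [map_natCast]; exact CharP.cast_eq_zero k p

/-- The eigenvalue point of the polynomial Hecke algebra attached to `lam` and `φ`. -/
noncomputable def chiBar (lam : heckeAlgebra N 2 (∅ : Set ℕ) →+* integralClosure ℤ ℂ)
    (φ : integralClosure ℤ ℂ →+* k) : HeckePoly N p →+* k :=
  MvPolynomial.eval₂Hom (coeffHom p k)
    (fun ℓ : GoodPrime N p => φ (lam (heckeAlgebra.T ℓ.2.1 ℓ.not_dvd (Set.notMem_empty _))))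

theorem chiBar_X (lam : heckeAlgebra N 2 (∅ : Set ℕ) →+* integralClosure ℤ ℂ)
    (φ : integralClosure ℤ ℂ →+* k) (ℓ : GoodPrime N p) :
    chiBar lam φ (MvPolynomial.X ℓ) =
      φ (lam (heckeAlgebra.T ℓ.2.1 ℓ.not_dvd (Set.notMem_empty _))) :=
  MvPolynomial.eval₂Hom_X' _ _ _

theorem chiBar_C (lam : heckeAlgebra N 2 (∅ : Set ℕ) →+* integralClosure ℤ ℂ)
    (φ : integralClosure ℤ ℂ →+* k) (c : ℤ_[p]) :
    chiBar (N := N) lam φ (MvPolynomial.C c) = coeffHom p k c :=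
  MvPolynomial.eval₂Hom_C _ _ _

/-- `chiBar` kills every polynomial annihilating the Tate module (consumer form of (F)). -/
theorem chiBar_eq_zero_of_annihilates (D : TateDatum N p)
    (lam : heckeAlgebra N 2 (∅ : Set ℕ) →+* integralClosure ℤ ℂ)
    (φ : integralClosure ℤ ℂ →+* k) (r : HeckePoly N p) (hr : ∀ v : D.M, r • v = 0) :
    chiBar lam φ r = 0 := by
  let e : GoodPrime N p → GoodPrimeOutside N p (∅ : Set ℕ) := fun ℓ => ⟨ℓ, Set.notMem_empty _⟩
  have hre : MvPolynomial.rename Subtype.val (MvPolynomial.rename e r) = r := by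
    rw [MvPolynomial.rename_rename]
    exact MvPolynomial.rename_id_apply r
  have h := D.eval₂_eq_zero_of_annihilates (∅ : Set ℕ) (coeffHom p k) (φ.comp lam)
    (MvPolynomial.rename e r) (fun v => by rw [hre]; exact hr v)
  rw [MvPolynomial.eval₂_rename] at h
  exact h

theorem chiBar_mem_range (lam : heckeAlgebra N 2 (∅ : Set ℕ) →+* integralClosure ℤ ℂ)
    (φ : integralClosure ℤ ℂ →+* k) (P : HeckePoly N p) :
    chiBar lam φ P ∈ (φ.comp lam).range := by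
  induction P using MvPolynomial.induction_on with
  | C c =>
    rw [chiBar_C, coeffHom, RingHom.comp_apply, ZMod.castHom_apply,
      ← ZMod.natCast_val (PadicInt.toZMod c)]
    exact natCast_mem _ _
  | add P Q hP hQ => rw [map_add]; exact add_mem hP hQ
  | mul_X P ℓ hP =>
    rw [map_mul, chiBar_X]
    exact mul_mem hP ⟨_, rfl⟩

theorem finite_range (lam : heckeAlgebra N 2 (∅ : Set ℕ) →+* integralClosure ℤ ℂ)
    (φ : integralClosure ℤ ℂ →+* k) (p : ℕ) [Fact p.Prime] [CharP k p] :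
    Finite (φ.comp lam).range := by
  have hS22 : Module.Finite ℤ (heckeAlgebra N 2 (∅ : Set ℕ)) := Fermat.Agent.S22.result N 2 ∅
  set f : heckeAlgebra N 2 (∅ : Set ℕ) →+* k := φ.comp lam with hf
  have hfin : Module.Finite ℤ (heckeAlgebra N 2 (∅ : Set ℕ) ⧸ RingHom.ker f) :=
    Module.Finite.of_surjective (Ideal.Quotient.mkₐ ℤ (RingHom.ker f)).toLinearMap
      (Ideal.Quotient.mkₐ_surjective ℤ _)
  have htors : Module.IsTorsion ℤ (heckeAlgebra N 2 (∅ : Set ℕ) ⧸ RingHom.ker f) := by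
    intro x
    have hp0 : (p : ℤ) ≠ 0 := by exact_mod_cast (Fact.out : p.Prime).ne_zero
    refine ⟨⟨(p : ℤ), mem_nonZeroDivisors_of_ne_zero hp0⟩, ?_⟩
    obtain ⟨t, rfl⟩ := Ideal.Quotient.mk_surjective x
    show (p : ℤ) • Ideal.Quotient.mk (RingHom.ker f) t = 0
    rw [← map_zsmul, Ideal.Quotient.eq_zero_iff_mem, RingHom.mem_ker, map_zsmul, zsmul_eq_mul,
      Int.cast_natCast, CharP.cast_eq_zero k p, zero_mul]
  have : Finite (heckeAlgebra N 2 (∅ : Set ℕ) ⧸ RingHom.ker f) :=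
    Module.finite_of_fg_torsion _ htors
  exact Finite.of_equiv _ (RingHom.quotientKerEquivRange f).toEquiv

theorem finite_quotient (lam : heckeAlgebra N 2 (∅ : Set ℕ) →+* integralClosure ℤ ℂ)
    (φ : integralClosure ℤ ℂ →+* k) :
    Finite (HeckePoly N p ⧸ RingHom.ker (chiBar (p := p) lam φ)) := by
  have h1 : Finite (φ.comp lam).range := finite_range lam φ p
  have h2 : Finite (chiBar (p := p) lam φ).range :=
    Finite.of_injective (fun x : (chiBar (p := p) lam φ).range =>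
      (⟨x.1, by obtain ⟨P, hP⟩ := x.2; rw [← hP]; exact chiBar_mem_range lam φ P⟩ :
        (φ.comp lam).range))
      (fun x y h => Subtype.ext (congrArg (fun z : (φ.comp lam).range => (z : k)) h))
  exact Finite.of_equiv _ (RingHom.quotientKerEquivRange (chiBar (p := p) lam φ)).toEquiv.symm

/-- The mod-`𝔪` cyclotomic character. -/
noncomputable def dChar (𝔪 : Ideal (HeckePoly N p)) (ε : GQ →* ℤ_[p]ˣ) :
    GQ →* (HeckePoly N p ⧸ 𝔪)ˣ :=
  (Units.map ((Ideal.Quotient.mk 𝔪).comp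
    (MvPolynomial.C : ℤ_[p] →+* HeckePoly N p)).toMonoidHom).comp ε

omit [NeZero N] in
theorem dChar_coe (𝔪 : Ideal (HeckePoly N p)) (ε : GQ →* ℤ_[p]ˣ) (σ : GQ) :
    ((dChar 𝔪 ε σ : (HeckePoly N p ⧸ 𝔪)ˣ) : HeckePoly N p ⧸ 𝔪) =
      Ideal.Quotient.mk 𝔪 (MvPolynomial.C ((ε σ : ℤ_[p]ˣ) : ℤ_[p])) := rfl

theorem natCast_smul_eq (D : TateDatum N p) (c : ℤ_[p]) (v : D.M) :
    (MvPolynomial.C c : HeckePoly N p) • v = c • v := by
  rw [← MvPolynomial.algebraMap_eq]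
  exact algebraMap_smul (HeckePoly N p) c v

/-- **Q3-res**: exact statement of the leaf `TateDatum.exists_eigenModule_residual` of
helper5140's skeleton. -/
theorem exists_eigenModule_residual (D : TateDatum N p) (ε : GQ →* ℤ_[p]ˣ) (hε : IsCyclotomic p ε)
    {g : CuspForm (CongruenceSubgroup.Gamma0 N) 2} (hg : g.IsNormalizedEigenform)
    (φ : integralClosure ℤ ℂ →+* k) :
    ∃ (F : Type) (_ : Field F) (_ : Finite F) (j : F →+* k)
      (U : Type) (_ : AddCommGroup U) (_ : Module F U) (_ : FiniteDimensional F U)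
      (_ : Nontrivial U) (ρ : GQ →* Module.End F U) (τ : GQ → F) (d : GQ →* Fˣ),
      (∀ (σ : GQ) (v : U), ρ σ (ρ σ v) - τ σ • ρ σ v + (d σ : F) • v = 0) ∧
      GaloisFactorsThroughFiniteLevel ρ ∧ GaloisFactorsThroughFiniteLevel d ∧
      (∀ q : ℕ, q.Prime → ¬ q ∣ N * p → ∀ A : ValuationSubring (AlgebraicClosure ℚ),
        A.LiesOverPrime q → ∀ σ ∈ A.inertiaSubgroupIn ℚ, ρ σ = 1 ∧ d σ = 1) ∧
      (∀ ℓ : ℕ, ℓ.Prime → ¬ ℓ ∣ N → (ℓ : k) ≠ 0 →
        ∀ A : ValuationSubring (AlgebraicClosure ℚ), A.LiesOverPrime ℓ →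
          ∀ σ : GQ, A.IsFrobeniusAt σ ℓ →
            ((d σ : Fˣ) : F) = (ℓ : F) ∧
            ∃ a : integralClosure ℤ ℂ, (a : ℂ) = ModularFormClass.qCoeff g ℓ ∧ j (τ σ) = φ a) := by
  classical
  have hp : p.Prime := Fact.out
  obtain ⟨lam, -, hlamT, -⟩ := Fermat.Agent.S29.EigChar5860.exists_eigenCharacter hg (∅ : Set ℕ)
  -- the point and its kernel
  obtain ⟨χ, hχ⟩ : ∃ χ : HeckePoly N p →+* k, χ = chiBar lam φ := ⟨_, rfl⟩
  obtain ⟨𝔪, h𝔪⟩ : ∃ 𝔪 : Ideal (HeckePoly N p), 𝔪 = RingHom.ker χ := ⟨_, rfl⟩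
  have hfinF : Finite (HeckePoly N p ⧸ 𝔪) := by rw [h𝔪, hχ]; exact finite_quotient lam φ
  have hprime : 𝔪.IsPrime := by rw [h𝔪]; exact RingHom.ker_isPrime χ
  have hfield : IsField (HeckePoly N p ⧸ 𝔪) := Finite.isField_of_domain _
  have hmax : 𝔪.IsMaximal := Ideal.Quotient.maximal_of_isField 𝔪 hfield
  have hpm : (MvPolynomial.C (p : ℤ_[p]) : HeckePoly N p) ∈ 𝔪 := by
    rw [h𝔪, RingHom.mem_ker, hχ, chiBar_C, coeffHom_p]
  have hmk_natCast : ∀ n : ℕ, Ideal.Quotient.mk 𝔪 (MvPolynomial.C ((n : ℕ) : ℤ_[p])) =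
      ((n : ℕ) : HeckePoly N p ⧸ 𝔪) := fun n => by
    rw [map_natCast, map_natCast]
  -- nonvanishing of the quotient
  have hMfin : Module.Finite (HeckePoly N p) D.M := Module.Finite.of_restrictScalars_finite ℤ_[p] _ _
  have hne : 𝔪 • (⊤ : Submodule (HeckePoly N p) D.M) < ⊤ := by
    refine lt_of_le_of_ne le_top fun htop => ?_
    obtain ⟨r, hr1, hr0⟩ := Submodule.exists_sub_one_mem_and_smul_eq_zero_of_fg_of_le_smul 𝔪
      (⊤ : Submodule (HeckePoly N p) D.M) Module.Finite.fg_top (le_of_eq htop.symm)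
    have h0 : χ r = 0 := by
      rw [hχ]
      exact chiBar_eq_zero_of_annihilates D lam φ r fun v => hr0 v Submodule.mem_top
    rw [h𝔪, RingHom.mem_ker, map_sub, map_one, h0, zero_sub, neg_eq_zero] at hr1
    exact one_ne_zero hr1
  have hnontriv : Nontrivial (D.M ⧸ 𝔪 • (⊤ : Submodule (HeckePoly N p) D.M)) :=
    Submodule.Quotient.nontrivial_iff.mpr hne.ne
  have hUfin : Module.Finite (HeckePoly N p ⧸ 𝔪) (D.M ⧸ 𝔪 • (⊤ : Submodule (HeckePoly N p) D.M)) :=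
    Module.Finite.of_restrictScalars_finite (HeckePoly N p) _ _
  -- the objects
  obtain ⟨ρU, hρU⟩ : ∃ ρU : GQ →* Module.End (HeckePoly N p ⧸ 𝔪)
      (D.M ⧸ 𝔪 • (⊤ : Submodule (HeckePoly N p) D.M)), ρU = quotRep 𝔪 D.ρ := ⟨_, rfl⟩
  obtain ⟨d, hd⟩ : ∃ d : GQ →* (HeckePoly N p ⧸ 𝔪)ˣ, d = dChar 𝔪 ε := ⟨_, rfl⟩
  have hρU_apply : ∀ σ : GQ, ρU σ = quotEnd 𝔪 (D.ρ σ) := fun σ => by rw [hρU]; rfl
  -- finite level
  obtain ⟨L1, hL1fin, hL1⟩ := D.continuous 1
  obtain ⟨L2, hL2fin, hL2⟩ := hε.continuous 1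
  have hρL1 : ∀ σ : GQ, (∀ x ∈ L1, σ x = x) → ρU σ = 1 := by
    intro σ hσ
    rw [hρU_apply]
    refine quotEnd_eq_one_of_sub_mem 𝔪 _ fun v => ?_
    obtain ⟨w, hw⟩ := hL1 σ hσ v
    rw [hw, pow_one, ← natCast_smul_eq D]
    exact Submodule.smul_mem_smul hpm Submodule.mem_top
  have hdL2 : ∀ σ : GQ, (∀ x ∈ L2, σ x = x) → d σ = 1 := by
    intro σ hσ
    obtain ⟨w, hw⟩ := hL2 σ hσ
    apply Units.ext
    rw [hd, dChar_coe, Units.val_one]
    have e : ((ε σ : ℤ_[p]ˣ) : ℤ_[p]) = 1 + (p : ℤ_[p]) ^ 1 * w := by rw [← hw]; ring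
    rw [e, pow_one, map_add, map_mul, map_add, map_mul, map_one, map_one,
      Ideal.Quotient.eq_zero_iff_mem.mpr hpm, zero_mul, add_zero]
  -- Frobenius elements at good primes
  have hgood : ∀ ℓ : ℕ, ℓ.Prime → ¬ ℓ ∣ N → ℓ ≠ p → ¬ ℓ ∣ N * p := by
    intro ℓ hℓ hℓN hℓp h
    rcases (Nat.Prime.dvd_mul hℓ).mp h with h1 | h1
    · exact hℓN h1
    · exact hℓp ((Nat.prime_dvd_prime_iff_eq hℓ hp).mp h1)
  have hfrob : ∀ (ℓ : ℕ) (hℓ : ℓ.Prime) (hℓN : ¬ ℓ ∣ N) (hℓp : ℓ ≠ p)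
      (A : ValuationSubring (AlgebraicClosure ℚ)), A.LiesOverPrime ℓ → ∀ σ : GQ,
      A.IsFrobeniusAt σ ℓ →
      ((d σ : (HeckePoly N p ⧸ 𝔪)ˣ) : HeckePoly N p ⧸ 𝔪) = ((ℓ : ℕ) : HeckePoly N p ⧸ 𝔪) ∧
      ∀ u : D.M ⧸ 𝔪 • (⊤ : Submodule (HeckePoly N p) D.M),
        ρU σ (ρU σ u) - Ideal.Quotient.mk 𝔪 (MvPolynomial.X
          (⟨ℓ, hℓ, hgood ℓ hℓ hℓN hℓp⟩ : GoodPrime N p)) • ρU σ u +
          ((ℓ : ℕ) : HeckePoly N p ⧸ 𝔪) • u = 0 := by
    intro ℓ hℓ hℓN hℓp A hA σ hσ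
    constructor
    · rw [hd, dChar_coe, hε.frobenius ℓ hℓ hℓp A hA σ hσ, hmk_natCast]
    · intro u
      have h1 := D.frobenius ⟨ℓ, hℓ, hgood ℓ hℓ hℓN hℓp⟩ A hA σ hσ
      have h2 := quot_relation 𝔪 (D.ρ σ) (MvPolynomial.X
        (⟨ℓ, hℓ, hgood ℓ hℓ hℓN hℓp⟩ : GoodPrime N p)) (MvPolynomial.C ((ℓ : ℕ) : ℤ_[p]))
        (fun v => by rw [natCast_smul_eq D]; exact h1 v) u
      rw [hmk_natCast] at h2
      rw [hρU_apply]
      exact h2
  -- the quadratic relation for every element, by Frobenius density and the Dickson recursion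
  have hL : FiniteDimensional ℚ (L1 ⊔ L2 : IntermediateField ℚ (AlgebraicClosure ℚ)) :=
    IntermediateField.finiteDimensional_sup L1 L2
  have hex : ∀ σ : GQ, ∃ t : HeckePoly N p ⧸ 𝔪,
      ∀ u : D.M ⧸ 𝔪 • (⊤ : Submodule (HeckePoly N p) D.M),
        ρU σ (ρU σ u) - t • ρU σ u + ((d σ : (HeckePoly N p ⧸ 𝔪)ˣ) : HeckePoly N p ⧸ 𝔪) • u = 0 := by
    intro σ
    obtain ⟨ℓ, A, φ', m, hℓ, hℓS, hA, hFr, hpow⟩ :=
      Fermat.Agent.Cheb.exists_frobenius_pow_eq (N.primeFactors ∪ {p}) (L1 ⊔ L2) σ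
    have hℓN : ¬ ℓ ∣ N := fun h => hℓS (Finset.mem_union_left _
      (Nat.mem_primeFactors.mpr ⟨hℓ, h, NeZero.ne N⟩))
    have hℓp : ℓ ≠ p := fun h => hℓS (Finset.mem_union_right _ (Finset.mem_singleton.mpr h))
    obtain ⟨hdφ, hrel⟩ := hfrob ℓ hℓ hℓN hℓp A hA φ' hFr
    obtain ⟨t, ht⟩ := exists_quad_pow (ρU φ') _ _ hrel m
    -- `σ = φ'^m * η` with `η` trivial on `L1 ⊔ L2`
    have hη : ∀ x ∈ (L1 ⊔ L2 : IntermediateField ℚ (AlgebraicClosure ℚ)),
        ((φ' ^ m)⁻¹ * σ) x = x := by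
      intro x hx
      rw [AlgEquiv.mul_apply, ← hpow x hx, ← AlgEquiv.mul_apply, inv_mul_cancel, AlgEquiv.one_apply]
    have hσ : σ = φ' ^ m * ((φ' ^ m)⁻¹ * σ) := by rw [mul_inv_cancel_left]
    have h1 : ρU σ = ρU φ' ^ m := by
      rw [hσ, map_mul, hρL1 _ fun x hx => hη x (le_sup_left (a := L1) hx), mul_one, map_pow]
    have h2 : d σ = d φ' ^ m := by
      rw [hσ, map_mul, hdL2 _ fun x hx => hη x (le_sup_right (b := L2) hx), mul_one, map_pow]
    refine ⟨t, fun u => ?_⟩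
    rw [h1, h2, Units.val_pow_eq_pow_val, hdφ]
    exact ht u
  choose τ hτ using hex
  have hinj : ∀ σ : GQ, Function.Injective (ρU σ) := by
    intro σ
    have h : Function.LeftInverse (ρU σ⁻¹) (ρU σ) := fun u => by
      rw [← Module.End.mul_apply, ← map_mul, inv_mul_cancel, map_one, Module.End.one_apply]
    exact h.injective
  -- assemble
  refine ⟨HeckePoly N p ⧸ 𝔪, Ideal.Quotient.field 𝔪, hfinF, (RingHom.kerLift χ).comp
      (Ideal.quotEquivOfEq h𝔪).toRingHom, D.M ⧸ 𝔪 • (⊤ : Submodule (HeckePoly N p) D.M),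
    inferInstance, inferInstance, hUfin, hnontriv, ρU, τ, d, hτ, ⟨L1, hL1fin, hρL1⟩,
    ⟨L2, hL2fin, hdL2⟩, ?_, ?_⟩
  · intro q hq hqNp A hA σ hσ
    have hqp : q ≠ p := fun h => hqNp (h ▸ Dvd.intro_left N rfl)
    refine ⟨?_, ?_⟩
    · rw [hρU_apply, D.unramified ⟨q, hq, hqNp⟩ A hA σ hσ]
      exact quotEnd_eq_one_of_sub_mem 𝔪 _ fun v => by
        rw [Module.End.one_apply, sub_self]; exact Submodule.zero_mem _
    · rw [hd, dChar, MonoidHom.comp_apply, hε.inertia q hq hqp A hA σ hσ, map_one]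
  · intro ℓ hℓ hℓN hℓk A hA σ hσ
    have hℓp : ℓ ≠ p := fun h => hℓk (h ▸ CharP.cast_eq_zero k p)
    obtain ⟨hdσ, hrel⟩ := hfrob ℓ hℓ hℓN hℓp A hA σ hσ
    refine ⟨hdσ, lam (heckeAlgebra.T hℓ hℓN (Set.notMem_empty ℓ)),
      hlamT ℓ hℓ hℓN (Set.notMem_empty ℓ), ?_⟩
    have hτσ : τ σ = Ideal.Quotient.mk 𝔪 (MvPolynomial.X
        (⟨ℓ, hℓ, hgood ℓ hℓ hℓN hℓp⟩ : GoodPrime N p)) :=
      quad_unique hfield (ρU σ) (hinj σ) _ _ _ (hτ σ) (fun u => by rw [hdσ]; exact hrel u)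
    rw [hτσ]
    subst h𝔪
    show χ (MvPolynomial.X (⟨ℓ, hℓ, hgood ℓ hℓ hℓN hℓp⟩ : GoodPrime N p)) = _
    rw [hχ, chiBar_X]

end Concrete

end Fermat.Agent.GalRep.Q3Res5860
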