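/-
GALREP algebraic half (helper5140), v2: this file is now SORRY-FREE.
`eq_one_of_trace_mul_eq` (Burnside in dimension 2 + Nakayama + trace pairing; from helper6206
`Cheb/TraceRigid.lean`).  The open leaves live in `Leaves5140.lean`.
-/
import Fermat.Agent.GalRep.Skeleton5140
import Fermat.Agent.Cheb.TraceRigid

set_option autoImplicit false
open Polynomial

namespace Fermat.Agent.GalRep

/-- **Burnside (dim 2) + Nakayama + perfect trace pairing**: over a local ring, a residually
absolutely irreducible rank-2 representation sends `x` to `1` as soon as `tr ρ(σ x) = tr ρ(σ)`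
for all `σ`. -/
theorem eq_one_of_trace_mul_eq {T : Type} [CommRing T] [IsLocalRing T] (ρ : GaloisRepAdic T)
    (habs : ρ.residual.IsAbsolutelyIrreducible) (x : GQ)
    (hx : ∀ σ : GQ, LinearMap.trace T ρ.V (ρ.ρ (σ * x)) = LinearMap.trace T ρ.V (ρ.ρ σ)) :
    ρ.ρ x = 1 := by
  exact Fermat.Agent.Cheb.eq_one_of_trace_mul_eq ρ habs x hx

end Fermat.Agent.GalRep
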