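/-
GALREP Q3 UTRACE (helper4121): universal trace on a `TateDatum` (helper5140 interface).

For `D : TateDatum N p`, a cyclotomic character `ε` and `σ ∈ G_ℚ`, the endomorphism
`t(σ) = ρ(σ) + ε(σ) ρ(σ)⁻¹` of `D.M` is, modulo `p^n`, the Lucas/Dickson polynomial
`luc (X_ℓ) ℓ m` of a single good Hecke operator (weak Chebotarev, division form, LIB Cheb).
Consequences: `trace_mul_inertia_of_cyclo` (the S31 leaf `TateDatum.trace_mul_inertia` of
helper5140's skeleton, with the cyclotomic character as an explicit input).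
-/
import Mathlib
import Fermat.Agent.GalRep.Interface5140
import Fermat.Agent.Cheb.Bridge
import Fermat.Agent.S30.Cyclo1060

set_option autoImplicit false
open Polynomial

namespace Fermat.Agent.GalRep.UTrace4121

open Fermat.Agent.GalRep

/-! ### Lucas / Dickson sequences -/

/-- Lucas sequence `V_m(a, d)`: `2, a, a² - 2d, …` (`V_{m+2} = a V_{m+1} - d V_m`). -/
def luc {R : Type*} [CommRing R] (a d : R) : ℕ → R
  | 0 => 2
  | 1 => a
  | (m + 2) => a * luc a d (m + 1) - d * luc a d m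

@[simp] theorem luc_zero {R : Type*} [CommRing R] (a d : R) : luc a d 0 = 2 := rfl
@[simp] theorem luc_one {R : Type*} [CommRing R] (a d : R) : luc a d 1 = a := rfl
theorem luc_add_two {R : Type*} [CommRing R] (a d : R) (m : ℕ) :
    luc a d (m + 2) = a * luc a d (m + 1) - d * luc a d m := rfl

theorem map_luc {R R' F : Type*} [CommRing R] [CommRing R'] [FunLike F R R'] [RingHomClass F R R']
    (f : F) (a d : R) :
    ∀ m : ℕ, f (luc a d m) = luc (f a) (f d) m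
  | 0 => by rw [luc_zero, luc_zero, map_ofNat]
  | 1 => by rw [luc_one, luc_one]
  | (m + 2) => by
    rw [luc_add_two, luc_add_two, map_sub, map_mul, map_mul, map_luc f a d (m + 1),
      map_luc f a d m]

/-- In an algebra, if `x`, `y` commute, `x + y = a` and `x * y = d`, then
`x ^ m + y ^ m = V_m(a, d)`. -/
theorem pow_add_pow_eq_luc {R E : Type*} [CommRing R] [Ring E] [Algebra R E] (a d : R) (x y : E)
    (hcomm : x * y = y * x) (hadd : x + y = algebraMap R E a) (hmul : x * y = algebraMap R E d) :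
    ∀ m : ℕ, x ^ m + y ^ m = algebraMap R E (luc a d m)
  | 0 => by
    rw [pow_zero, pow_zero, luc_zero, map_ofNat]; norm_num
  | 1 => by rw [pow_one, pow_one, luc_one, hadd]
  | (m + 2) => by
    have h1 := pow_add_pow_eq_luc a d x y hcomm hadd hmul (m + 1)
    have h0 := pow_add_pow_eq_luc a d x y hcomm hadd hmul m
    have hxy : ∀ k : ℕ, x * y ^ k = y ^ k * x := fun k => (Commute.pow_right hcomm k)
    have hyx : ∀ k : ℕ, y * x ^ k = x ^ k * y := fun k => (Commute.pow_right hcomm.symm k)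
    rw [luc_add_two, map_sub, map_mul, map_mul, ← h1, ← h0, ← hadd, ← hmul]
    have e1 : x ^ (m + 2) = x * x ^ (m + 1) := by rw [pow_succ' x (m + 1)]
    have e2 : y ^ (m + 2) = y * y ^ (m + 1) := by rw [pow_succ' y (m + 1)]
    have e3 : x * y ^ (m + 1) = x * y * y ^ m := by rw [pow_succ' y m, mul_assoc]
    have e4 : y * x ^ (m + 1) = x * y * x ^ m := by
      rw [pow_succ' x m, ← mul_assoc, hcomm]
    rw [e1, e2, add_mul, mul_add, mul_add, e3, e4, mul_add]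
    abel


/-! ### The Lucas identity at Frobenius elements of a `TateDatum` -/

section Frob

variable {N p : ℕ} [NeZero N] [Fact p.Prime] (D : TateDatum N p)

/-- `ρ(φ^m) + ℓ^m ρ(φ^{-m}) = V_m(X_ℓ, ℓ)` on `D.M`, for a Frobenius element `φ` at a good
prime `ℓ`. -/
theorem frobenius_pow_add (ℓ : GoodPrime N p) (A : ValuationSubring (AlgebraicClosure ℚ))
    (hA : A.LiesOverPrime ℓ) (φ : GQ) (hφ : A.IsFrobeniusAt φ ℓ) (m : ℕ) (v : D.M) :
    D.ρ (φ ^ m) v + (((ℓ : ℕ) : ℤ_[p]) ^ m) • D.ρ (φ ^ m)⁻¹ v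
      = (luc (MvPolynomial.X ℓ : HeckePoly N p) (MvPolynomial.C (((ℓ : ℕ) : ℤ_[p]))) m) • v := by
  set a : HeckePoly N p := MvPolynomial.X ℓ with ha
  set d : HeckePoly N p := MvPolynomial.C (((ℓ : ℕ) : ℤ_[p])) with hd
  set x : Module.End (HeckePoly N p) D.M := D.ρ φ with hx
  set y : Module.End (HeckePoly N p) D.M := algebraMap _ _ a - x with hy
  have hquad : x * x - algebraMap _ _ a * x + algebraMap _ _ d = 0 := by
    refine LinearMap.ext fun w => ?_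
    have h := D.frobenius ℓ A hA φ hφ w
    simp only [LinearMap.sub_apply, LinearMap.add_apply, Module.End.mul_apply,
      Module.algebraMap_end_apply, LinearMap.zero_apply]
    rw [hd, ← MvPolynomial.algebraMap_eq, algebraMap_smul]
    exact h
  have hadd : x + y = algebraMap _ _ a := by rw [hy]; abel
  have hcx : algebraMap (HeckePoly N p) (Module.End (HeckePoly N p) D.M) a * x
      = x * algebraMap _ _ a := Algebra.commutes a x
  have hmul : x * y = algebraMap _ _ d := by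
    rw [hy, mul_sub, ← hcx]
    have := hquad
    rw [sub_add_eq_add_sub, sub_eq_zero] at this
    rw [← this]; abel
  have hcomm : x * y = y * x := by
    rw [hy, mul_sub, sub_mul, hcx]
  have hluc := pow_add_pow_eq_luc a d x y hcomm hadd hmul m
  -- identify `y` with `ℓ ρ(φ⁻¹)`
  have hinv : D.ρ φ⁻¹ * x = 1 := by rw [hx, ← map_mul, inv_mul_cancel, map_one]
  have hy' : y = D.ρ φ⁻¹ * algebraMap _ _ d := by
    rw [← hmul, ← mul_assoc, hinv, one_mul]
  have hcd : Commute (D.ρ φ⁻¹) (algebraMap (HeckePoly N p) (Module.End (HeckePoly N p) D.M) d) :=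
    (Algebra.commutes d (D.ρ φ⁻¹)).symm
  have hym : y ^ m = D.ρ (φ ^ m)⁻¹ * algebraMap _ _ (d ^ m) := by
    rw [hy', hcd.mul_pow, ← map_pow, ← map_pow, inv_pow]
  have h1 := congrArg (fun f : Module.End (HeckePoly N p) D.M => f v) hluc
  simp only [LinearMap.add_apply] at h1
  rw [hym, hx, ← map_pow] at h1
  simp only [Module.End.mul_apply, Module.algebraMap_end_apply] at h1
  rw [← h1]
  congr 1
  rw [map_smul, hd, ← map_pow, ← MvPolynomial.algebraMap_eq, algebraMap_smul]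

end Frob


/-! ### Approximation of the universal trace by Lucas polynomials (weak Chebotarev) -/

section Approx

variable {N p : ℕ} [NeZero N] [Fact p.Prime] (D : TateDatum N p)

/-- polynomial ring in the good Hecke variables outside `S`, `ℤ_p`-coefficients -/
abbrev HeckePolyS (N p : ℕ) [Fact p.Prime] (S : Set ℕ) : Type :=
  MvPolynomial (GoodPrimeOutside N p S) ℤ_[p]

/-- the Lucas polynomial `V_m(X_ℓ, ℓ)` -/
noncomputable def lucPoly {S : Set ℕ} (ℓ : GoodPrimeOutside N p S) (m : ℕ) : HeckePolyS N p S :=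
  luc (MvPolynomial.X ℓ) (MvPolynomial.C (((ℓ.1 : ℕ) : ℤ_[p]))) m

theorem rename_lucPoly {S : Set ℕ} (ℓ : GoodPrimeOutside N p S) (m : ℕ) :
    (MvPolynomial.rename Subtype.val (lucPoly ℓ m) : HeckePoly N p)
      = luc (MvPolynomial.X ℓ.1) (MvPolynomial.C (((ℓ.1 : ℕ) : ℤ_[p]))) m := by
  unfold lucPoly
  rw [map_luc, MvPolynomial.rename_X, MvPolynomial.rename_C]

theorem rho_smul (g : GQ) (z : ℤ_[p]) (v : D.M) : D.ρ g (z • v) = z • D.ρ g v := by
  rw [← algebraMap_smul (HeckePoly N p) z v, map_smul, algebraMap_smul]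

/-- **UTRACE (approximation).**  For every `σ` and `n` there is a Frobenius element `φ` at a good
prime `ℓ ∉ S` and `m` with `φ^m = σ` on a prescribed finite extension `L'`, such that
`ρ(σ) + ε(σ) ρ(σ)⁻¹ ≡ V_m(X_ℓ, ℓ)` modulo `p^n` on `D.M`. -/
theorem exists_frobenius_approx (ε : GQ →* ℤ_[p]ˣ)
    (hεc : ∀ n : ℕ, ∃ L : IntermediateField ℚ (AlgebraicClosure ℚ), FiniteDimensional ℚ L ∧
      ∀ σ : GQ, (∀ x ∈ L, σ x = x) → ∃ w : ℤ_[p], ((ε σ : ℤ_[p]) - 1) = (p : ℤ_[p]) ^ n * w)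
    (hεf : ∀ ℓ : ℕ, ℓ.Prime → ℓ ≠ p → ∀ A : ValuationSubring (AlgebraicClosure ℚ),
      A.LiesOverPrime ℓ → ∀ σ : GQ, A.IsFrobeniusAt σ ℓ → ((ε σ : ℤ_[p])) = (ℓ : ℤ_[p]))
    (S : Finset ℕ) (hpS : p ∈ S) (hNS : ∀ q : ℕ, q.Prime → q ∣ N → q ∈ S)
    (L' : IntermediateField ℚ (AlgebraicClosure ℚ)) [FiniteDimensional ℚ L'] (n : ℕ) (σ : GQ) :
    ∃ (ℓ : GoodPrimeOutside N p (↑S : Set ℕ)) (A : ValuationSubring (AlgebraicClosure ℚ))
      (φ : GQ) (m : ℕ),
      A.LiesOverPrime (ℓ.1 : ℕ) ∧ A.IsFrobeniusAt φ (ℓ.1 : ℕ) ∧ (∀ x ∈ L', (φ ^ m) x = σ x) ∧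
      ∀ v : D.M, ∃ w : D.M,
        D.ρ σ v + (ε σ : ℤ_[p]) • D.ρ σ⁻¹ v
          - (MvPolynomial.rename Subtype.val (lucPoly ℓ m) : HeckePoly N p) • v
          = (p : ℤ_[p]) ^ n • w := by
  obtain ⟨LM, hLMf, hLM⟩ := D.continuous n
  obtain ⟨Lε, hLεf, hLε⟩ := hεc n
  have := hLMf
  have := hLεf
  obtain ⟨ℓ, A, φ, k, hℓ, hℓS, hA, hφ, hk⟩ :=
    Fermat.Agent.Cheb.exists_frobenius_pow_eq S (LM ⊔ Lε ⊔ L') σ
  have hℓp : ℓ ≠ p := fun h => hℓS (h ▸ hpS)
  have hgood : ¬ ℓ ∣ N * p := by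
    intro h
    rcases (Nat.Prime.dvd_mul hℓ).mp h with h | h
    · exact hℓS (hNS ℓ hℓ h)
    · exact hℓp ((Nat.prime_dvd_prime_iff_eq hℓ Fact.out).mp h)
  let ℓ' : GoodPrimeOutside N p (↑S : Set ℕ) := ⟨⟨ℓ, hℓ, hgood⟩, hℓS⟩
  refine ⟨ℓ', A, φ, k, hA, hφ, fun x hx => hk x (le_sup_right (a := LM ⊔ Lε) hx), fun v => ?_⟩
  set τ : GQ := (φ ^ k)⁻¹ * σ with hτdef
  have hτ : ∀ x ∈ LM ⊔ Lε ⊔ L', τ x = x := by
    intro x hx
    have h1 : τ x = (φ ^ k)⁻¹ (σ x) := rfl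
    rw [h1, ← hk x hx]
    exact (φ ^ k).symm_apply_apply x
  have hτ' : ∀ x ∈ LM ⊔ Lε ⊔ L', τ⁻¹ x = x := by
    intro x hx
    have h1 := hτ x hx
    exact (AlgEquiv.symm_apply_eq τ).mpr h1.symm
  have hσ : σ = φ ^ k * τ := by rw [hτdef]; group
  have hσi : σ⁻¹ = τ⁻¹ * (φ ^ k)⁻¹ := by rw [hτdef]; group
  have hLM_le : LM ≤ LM ⊔ Lε ⊔ L' := le_sup_of_le_left le_sup_left
  have hLε_le : Lε ≤ LM ⊔ Lε ⊔ L' := le_sup_of_le_left le_sup_right
  obtain ⟨w1, hw1⟩ := hLM τ (fun x hx => hτ x (hLM_le hx)) v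
  obtain ⟨w2, hw2⟩ := hLM τ⁻¹ (fun x hx => hτ' x (hLM_le hx)) (D.ρ (φ ^ k)⁻¹ v)
  obtain ⟨z, hz⟩ := hLε τ (fun x hx => hτ x (hLε_le hx))
  have hεφ : ((ε (φ ^ k) : ℤ_[p]ˣ) : ℤ_[p]) = ((ℓ : ℕ) : ℤ_[p]) ^ k := by
    rw [map_pow, Units.val_pow_eq_pow_val, hεf ℓ hℓ hℓp A hA φ hφ]
  have hεσ : ((ε σ : ℤ_[p]ˣ) : ℤ_[p]) = ((ℓ : ℕ) : ℤ_[p]) ^ k * (1 + (p : ℤ_[p]) ^ n * z) := by
    rw [hσ, map_mul, Units.val_mul, hεφ, ← hz]; ring
  have hF := frobenius_pow_add D ℓ'.1 A hA φ hφ k v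
  have e1 : D.ρ σ v = D.ρ (φ ^ k) v + (p : ℤ_[p]) ^ n • D.ρ (φ ^ k) w1 := by
    rw [hσ, map_mul, Module.End.mul_apply, eq_add_of_sub_eq' hw1, map_add, rho_smul]
  have e2 : D.ρ σ⁻¹ v = D.ρ (φ ^ k)⁻¹ v + (p : ℤ_[p]) ^ n • w2 := by
    rw [hσi, map_mul, Module.End.mul_apply, eq_add_of_sub_eq' hw2]
  refine ⟨D.ρ (φ ^ k) w1 + (((ℓ : ℕ) : ℤ_[p]) ^ k) • w2
    + ((((ℓ : ℕ) : ℤ_[p]) ^ k) * z) • (D.ρ (φ ^ k)⁻¹ v + (p : ℤ_[p]) ^ n • w2), ?_⟩
  rw [rename_lucPoly, ← hF, e1, e2, hεσ]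
  module

end Approx


/-! ### Artin–Rees: polynomials acting by `0` modulo a high power of `p` -/

section ArtinRees

variable {N p : ℕ} [NeZero N] [Fact p.Prime] (D : TateDatum N p)

/-- evaluation of the Hecke action on a `ℤ_p`-basis of `D.M` -/
noncomputable def evBasis (S : Set ℕ) :
    HeckePolyS N p S →ₗ[ℤ_[p]] (Module.Free.ChooseBasisIndex ℤ_[p] D.M → D.M) where
  toFun P j := (MvPolynomial.rename Subtype.val P : HeckePoly N p) •
    (Module.Free.chooseBasis ℤ_[p] D.M j)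
  map_add' P Q := by
    funext j
    simp only [map_add, add_smul, Pi.add_apply]
  map_smul' z P := by
    funext j
    simp only [map_smul, smul_assoc, RingHom.id_apply, Pi.smul_apply]

theorem smul_eq_zero_of_evBasis_eq_zero (S : Set ℕ) (P : HeckePolyS N p S)
    (h : evBasis D S P = 0) (v : D.M) :
    (MvPolynomial.rename Subtype.val P : HeckePoly N p) • v = 0 := by
  have hlin : ((LinearMap.lsmul (HeckePoly N p) D.M
      (MvPolynomial.rename Subtype.val P : HeckePoly N p)).restrictScalars ℤ_[p]) = 0 := by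
    refine (Module.Free.chooseBasis ℤ_[p] D.M).ext fun j => ?_
    have := congrFun h j
    simpa [evBasis] using this
  have := LinearMap.congr_fun hlin v
  simpa using this

/-- **Artin–Rees for the Hecke action**: there is `c` such that a polynomial acting by `0` modulo
`p^(n+c)` on `D.M` agrees modulo `Ann(D.M)` with `p^n` times a polynomial. -/
theorem exists_shift (S : Set ℕ) : ∃ c : ℕ, ∀ (n : ℕ) (P : HeckePolyS N p S),
    (∀ v : D.M, ∃ w : D.M, (MvPolynomial.rename Subtype.val P : HeckePoly N p) • v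
      = (p : ℤ_[p]) ^ (n + c) • w) →
    ∃ Q : HeckePolyS N p S, ∀ v : D.M,
      (MvPolynomial.rename Subtype.val (P - (p : ℤ_[p]) ^ n • Q) : HeckePoly N p) • v = 0 := by
  obtain ⟨c, hc⟩ := Ideal.exists_pow_inf_eq_pow_smul (Ideal.span {(p : ℤ_[p])})
    (LinearMap.range (evBasis D S))
  refine ⟨c, fun n P hP => ?_⟩
  choose w hw using fun j => hP (Module.Free.chooseBasis ℤ_[p] D.M j)
  have h1 : evBasis D S P ∈ (Ideal.span {(p : ℤ_[p])}) ^ (n + c) •
      (⊤ : Submodule ℤ_[p] (Module.Free.ChooseBasisIndex ℤ_[p] D.M → D.M)) := by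
    have : evBasis D S P = (p : ℤ_[p]) ^ (n + c) • w := by
      funext j
      exact hw j
    rw [this, Ideal.span_singleton_pow]
    exact Submodule.smul_mem_smul (Ideal.mem_span_singleton_self _) Submodule.mem_top
  have h2 : evBasis D S P ∈ (Ideal.span {(p : ℤ_[p])}) ^ (n + c) •
      (⊤ : Submodule ℤ_[p] (Module.Free.ChooseBasisIndex ℤ_[p] D.M → D.M)) ⊓
        LinearMap.range (evBasis D S) := ⟨h1, LinearMap.mem_range_self _ P⟩
  rw [hc (n + c) (Nat.le_add_left c n), Nat.add_sub_cancel] at h2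
  have h3 : evBasis D S P ∈ (Ideal.span {(p : ℤ_[p])}) ^ n • LinearMap.range (evBasis D S) :=
    Submodule.smul_mono le_rfl inf_le_right h2
  rw [Ideal.span_singleton_pow, Submodule.ideal_span_singleton_smul,
    Submodule.mem_smul_pointwise_iff_exists] at h3
  obtain ⟨_, ⟨Q, rfl⟩, hQ⟩ := h3
  refine ⟨Q, smul_eq_zero_of_evBasis_eq_zero D S _ ?_⟩
  rw [map_sub, map_smul, hQ, sub_self]

end ArtinRees

/-! ### Traces in rank two -/

section Trace

variable {T : Type*} [CommRing T] {V : Type*} [AddCommGroup V] [Module T V]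

theorem repr_mem_of_mem_smul_top {ι : Type*} (b : Module.Basis ι T V) (I : Ideal T) {x : V}
    (hx : x ∈ I • (⊤ : Submodule T V)) (i : ι) : b.repr x i ∈ I := by
  refine Submodule.smul_induction_on hx (fun r hr m _ => ?_) (fun x y hx hy => ?_)
  · rw [map_smul, Finsupp.smul_apply, smul_eq_mul]
    exact I.mul_mem_right _ hr
  · rw [map_add, Finsupp.add_apply]
    exact I.add_mem hx hy

theorem map_mem_smul_top' (I : Ideal T) (g : V →ₗ[T] V) {x : V}
    (hx : x ∈ I • (⊤ : Submodule T V)) : g x ∈ I • (⊤ : Submodule T V) := by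
  refine Submodule.smul_induction_on hx (fun r hr m _ => ?_) (fun x y hx hy => ?_)
  · rw [map_smul]
    exact Submodule.smul_mem_smul hr Submodule.mem_top
  · rw [map_add]
    exact Submodule.add_mem _ hx hy

/-- an endomorphism with image in `I V` has trace in `I` -/
theorem trace_mem_of_forall_mem [Module.Free T V] [Module.Finite T V] (I : Ideal T)
    (f : Module.End T V) (hf : ∀ v, f v ∈ I • (⊤ : Submodule T V)) :
    LinearMap.trace T V f ∈ I := by
  classical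
  let b := Module.Free.chooseBasis T V
  rw [LinearMap.trace_eq_matrix_trace T b f, Matrix.trace]
  refine Ideal.sum_mem _ fun j _ => ?_
  rw [Matrix.diag_apply, LinearMap.toMatrix_apply]
  exact repr_mem_of_mem_smul_top b I (hf (b j)) j

/-- traces of powers in rank two are Lucas sequences of the characteristic polynomial -/
theorem trace_pow_eq_luc [Nontrivial T] [Module.Free T V] [Module.Finite T V]
    (h2 : Module.finrank T V = 2) (f : Module.End T V) (a d : T)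
    (hchar : f.charpoly = X ^ 2 - C a * X + C d) :
    ∀ m : ℕ, LinearMap.trace T V (f ^ m) = luc a d m
  | 0 => by
    rw [pow_zero, LinearMap.trace_one, h2, luc_zero]; norm_num
  | 1 => by
    classical
    let b := Module.finBasisOfFinrankEq T V h2
    rw [pow_one, luc_one, LinearMap.trace_eq_matrix_trace T b f,
      Matrix.trace_eq_neg_charpoly_coeff, LinearMap.charpoly_toMatrix, hchar]
    simp [coeff_C, coeff_X_pow]
  | (m + 2) => by
    have hCH : f ^ 2 - a • f + d • (1 : Module.End T V) = 0 := by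
      have h := LinearMap.aeval_self_charpoly f
      rw [hchar] at h
      rw [map_add, map_sub, map_mul, map_pow, aeval_X, aeval_C, aeval_C] at h
      have e1 : algebraMap T (Module.End T V) a * f = a • f := by
        refine LinearMap.ext fun v => ?_
        rw [LinearMap.smul_apply, Module.End.mul_apply, Module.algebraMap_end_apply]
      have e2 : algebraMap T (Module.End T V) d = d • (1 : Module.End T V) := by
        refine LinearMap.ext fun v => ?_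
        rw [LinearMap.smul_apply, Module.End.one_apply, Module.algebraMap_end_apply]
      rw [e1, e2] at h
      exact h
    have hrec : f ^ (m + 2) = a • f ^ (m + 1) - d • f ^ m := by
      have h1 : f ^ 2 = a • f - d • (1 : Module.End T V) := by
        rw [eq_sub_iff_add_eq, ← sub_eq_zero]
        rw [← hCH]; abel
      calc f ^ (m + 2) = f ^ 2 * f ^ m := by rw [← pow_add, add_comm]
        _ = (a • f - d • (1 : Module.End T V)) * f ^ m := by rw [h1]
        _ = a • f ^ (m + 1) - d • f ^ m := by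
          rw [sub_mul, smul_mul_assoc, smul_mul_assoc, one_mul, pow_succ' f m]
    rw [hrec, map_sub, map_smul, map_smul, trace_pow_eq_luc h2 f a d hchar (m + 1),
      trace_pow_eq_luc h2 f a d hchar m, luc_add_two, smul_eq_mul, smul_eq_mul]

end Trace


/-! ### Trace of an adic representation versus Lucas values at a Frobenius power -/

section AdicTrace

/-- If `φ^m = σ` on a level field of `ρ` modulo `𝔪^n` and `ρ(φ)` has characteristic polynomial
`X² - aX + d`, then `tr ρ(σ) ≡ V_m(a, d)` modulo `𝔪^n`. -/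
theorem trace_sub_luc_mem {T : Type} [CommRing T] [IsLocalRing T] (ρ : GaloisRepAdic T)
    (n : ℕ) (LH : IntermediateField ℚ (AlgebraicClosure ℚ))
    (hLH : ∀ σ : GQ, (∀ x ∈ LH, σ x = x) → ∀ v : ρ.V,
      ρ.ρ σ v - v ∈ (IsLocalRing.maximalIdeal T ^ n) • (⊤ : Submodule T ρ.V))
    (φ σ : GQ) (m : ℕ) (hφσ : ∀ x ∈ LH, (φ ^ m) x = σ x) (a d : T)
    (hchar : (ρ.ρ φ).charpoly = X ^ 2 - C a * X + C d) :
    LinearMap.trace T ρ.V (ρ.ρ σ) - luc a d m ∈ IsLocalRing.maximalIdeal T ^ n := by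
  set τ : GQ := (φ ^ m)⁻¹ * σ with hτdef
  have hτ : ∀ x ∈ LH, τ x = x := by
    intro x hx
    have h1 : τ x = (φ ^ m)⁻¹ (σ x) := rfl
    rw [h1, ← hφσ x hx]
    exact (φ ^ m).symm_apply_apply x
  have hσ : σ = φ ^ m * τ := by rw [hτdef]; group
  have h1 : LinearMap.trace T ρ.V (ρ.ρ σ) - luc a d m
      = LinearMap.trace T ρ.V (ρ.ρ (φ ^ m) * (ρ.ρ τ - 1)) := by
    rw [← trace_pow_eq_luc ρ.finrank_eq (ρ.ρ φ) a d hchar m, ← map_pow, ← map_sub, hσ, map_mul,
      mul_sub, mul_one]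
  rw [h1]
  refine trace_mem_of_forall_mem _ _ fun v => ?_
  rw [Module.End.mul_apply]
  refine map_mem_smul_top' _ _ ?_
  have := hLH τ hτ v
  simpa using this

end AdicTrace

/-! ### The core theorem: the trace of a Hecke–Galois representation is blind to good inertia -/

section Core

variable {N p : ℕ} [NeZero N] [Fact p.Prime]

/-- evaluation of Hecke polynomials in a ring receiving `ℤ_p` and the Hecke algebra -/
noncomputable def evalT (S : Set ℕ) {T : Type} [CommRing T] (ι : ℤ_[p] →+* T)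
    (π : CuspForm.heckeAlgebra N 2 S →+* T) : HeckePolyS N p S →+* T :=
  MvPolynomial.eval₂Hom ι (fun ℓ => π (heckeT N p S ℓ))

theorem evalT_lucPoly (S : Set ℕ) {T : Type} [CommRing T] (ι : ℤ_[p] →+* T)
    (π : CuspForm.heckeAlgebra N 2 S →+* T) (ℓ : GoodPrimeOutside N p S) (m : ℕ) :
    evalT S ι π (lucPoly ℓ m) = luc (π (heckeT N p S ℓ)) (((ℓ.1 : ℕ) : T)) m := by
  unfold lucPoly evalT
  rw [map_luc, MvPolynomial.coe_eval₂Hom, MvPolynomial.eval₂_X, MvPolynomial.eval₂_C,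
    map_natCast]

/-- **UTRACE core.**  Let `D` be a `TateDatum`, `ε` a cyclotomic character (continuous, `ε(Frob_ℓ)
= ℓ`, trivial on inertia away from `p`).  Let `T` be a noetherian local ring with `p ∈ 𝔪_T`
receiving `ℤ_p` and the Hecke algebra away from `S`, and `ρ` a rank-2 adic representation over `T`
whose Frobenius characteristic polynomials are `X² - π(T_ℓ) X + ℓ` for `ℓ ∉ S`.  Then `tr ρ` is
invariant under multiplication by inertia elements at primes `q ∉ S`. -/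
theorem trace_mul_inertia_core (D : TateDatum N p) (ε : GQ →* ℤ_[p]ˣ)
    (hεc : ∀ n : ℕ, ∃ L : IntermediateField ℚ (AlgebraicClosure ℚ), FiniteDimensional ℚ L ∧
      ∀ σ : GQ, (∀ x ∈ L, σ x = x) → ∃ w : ℤ_[p], ((ε σ : ℤ_[p]) - 1) = (p : ℤ_[p]) ^ n * w)
    (hεf : ∀ ℓ : ℕ, ℓ.Prime → ℓ ≠ p → ∀ A : ValuationSubring (AlgebraicClosure ℚ),
      A.LiesOverPrime ℓ → ∀ σ : GQ, A.IsFrobeniusAt σ ℓ → ((ε σ : ℤ_[p])) = (ℓ : ℤ_[p]))
    (hεi : ∀ ℓ : ℕ, ℓ.Prime → ℓ ≠ p → ∀ A : ValuationSubring (AlgebraicClosure ℚ),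
      A.LiesOverPrime ℓ → ∀ σ ∈ A.inertiaSubgroupIn ℚ, ε σ = 1)
    (S : Finset ℕ) (hpS : p ∈ S) (hNS : ∀ q : ℕ, q.Prime → q ∣ N → q ∈ S)
    {T : Type} [CommRing T] [IsLocalRing T] [IsNoetherianRing T]
    (ι : ℤ_[p] →+* T) (hpT : (p : T) ∈ IsLocalRing.maximalIdeal T)
    (π : CuspForm.heckeAlgebra N 2 (↑S : Set ℕ) →+* T) (ρ : GaloisRepAdic T)
    (hρ : ∀ (ℓ : ℕ) (hℓ : ℓ.Prime) (hℓN : ¬ ℓ ∣ N) (hℓS : ℓ ∉ (↑S : Set ℕ)),
      ∀ A : ValuationSubring (AlgebraicClosure ℚ), A.LiesOverPrime ℓ →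
        ∀ σ : GQ, A.IsFrobeniusAt σ ℓ →
          LinearMap.charpoly (ρ.ρ σ)
            = X ^ 2 - C (π (CuspForm.heckeAlgebra.T hℓ hℓN hℓS)) * X + C ((ℓ : T)))
    (q : ℕ) (hq : q.Prime) (hqS : q ∉ S)
    (A : ValuationSubring (AlgebraicClosure ℚ)) (hA : A.LiesOverPrime q)
    (i : GQ) (hi : i ∈ A.inertiaSubgroupIn ℚ) (σ : GQ) :
    LinearMap.trace T ρ.V (ρ.ρ (σ * i)) = LinearMap.trace T ρ.V (ρ.ρ σ) := by
  obtain ⟨c, hc⟩ := exists_shift D (↑S : Set ℕ)
  -- the inertia element acts trivially on `D.M` and on `ε`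
  have hqp : q ≠ p := fun h => hqS (h ▸ hpS)
  have hqgood : ¬ q ∣ N * p := by
    intro h
    rcases (Nat.Prime.dvd_mul hq).mp h with h | h
    · exact hqS (hNS q hq h)
    · exact hqp ((Nat.prime_dvd_prime_iff_eq hq Fact.out).mp h)
  have hρi : D.ρ i = 1 := D.unramified ⟨q, hq, hqgood⟩ A hA i hi
  have hρi' : D.ρ i⁻¹ = 1 := D.unramified ⟨q, hq, hqgood⟩ A hA i⁻¹ (inv_mem hi)
  have hεi1 : ε i = 1 := hεi q hq hqp A hA i hi
  have ht : ∀ v : D.M, D.ρ (σ * i) v + (ε (σ * i) : ℤ_[p]) • D.ρ (σ * i)⁻¹ v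
      = D.ρ σ v + (ε σ : ℤ_[p]) • D.ρ σ⁻¹ v := by
    intro v
    rw [mul_inv_rev, map_mul, map_mul, map_mul, hρi, hρi', hεi1, mul_one, mul_one, one_mul]
  -- it suffices to prove the congruence modulo every power of the maximal ideal
  have hmem : ∀ n : ℕ, LinearMap.trace T ρ.V (ρ.ρ (σ * i)) - LinearMap.trace T ρ.V (ρ.ρ σ)
      ∈ IsLocalRing.maximalIdeal T ^ n := by
    intro n
    obtain ⟨LH, hLHf, hLH⟩ := ρ.isAdicContinuous n
    have := hLHf
    obtain ⟨ℓ1, A1, φ1, m1, hA1, hφ1, hk1, happ1⟩ :=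
      exists_frobenius_approx D ε hεc hεf S hpS hNS LH (n + c) σ
    obtain ⟨ℓ2, A2, φ2, m2, hA2, hφ2, hk2, happ2⟩ :=
      exists_frobenius_approx D ε hεc hεf S hpS hNS LH (n + c) (σ * i)
    -- the difference of the two Lucas polynomials acts by `0` modulo `p^(n+c)`
    have hP : ∀ v : D.M, ∃ w : D.M,
        (MvPolynomial.rename Subtype.val (lucPoly ℓ1 m1 - lucPoly ℓ2 m2) : HeckePoly N p) • v
          = (p : ℤ_[p]) ^ (n + c) • w := by
      intro v
      obtain ⟨w1, hw1⟩ := happ1 v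
      obtain ⟨w2, hw2⟩ := happ2 v
      rw [ht v] at hw2
      refine ⟨w2 - w1, ?_⟩
      rw [map_sub, sub_smul, smul_sub, ← hw1, ← hw2]
      abel
    obtain ⟨Q, hQ⟩ := hc n (lucPoly ℓ1 m1 - lucPoly ℓ2 m2) hP
    have hev := D.eval₂_eq_zero_of_annihilates (↑S : Set ℕ) ι π _ hQ
    have hev' : evalT (↑S : Set ℕ) ι π (lucPoly ℓ1 m1 - lucPoly ℓ2 m2 - (p : ℤ_[p]) ^ n • Q) = 0 :=
      hev
    rw [map_sub, map_sub, evalT_lucPoly, evalT_lucPoly, MvPolynomial.smul_eq_C_mul, map_mul,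
      sub_eq_zero] at hev'
    have hCp : evalT (↑S : Set ℕ) ι π (MvPolynomial.C ((p : ℤ_[p]) ^ n)) = (p : T) ^ n := by
      unfold evalT
      rw [MvPolynomial.coe_eval₂Hom, MvPolynomial.eval₂_C, map_pow, map_natCast]
    rw [hCp] at hev'
    have hdiff : luc (π (heckeT N p (↑S : Set ℕ) ℓ1)) (((ℓ1.1 : ℕ) : T)) m1
        - luc (π (heckeT N p (↑S : Set ℕ) ℓ2)) (((ℓ2.1 : ℕ) : T)) m2
          ∈ IsLocalRing.maximalIdeal T ^ n := by
      rw [hev']
      exact Ideal.mul_mem_right _ _ (Ideal.pow_mem_pow hpT n)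
    have h1 := trace_sub_luc_mem ρ n LH hLH φ1 σ m1 hk1 _ _
      (hρ (ℓ1.1 : ℕ) ℓ1.1.2.1 ℓ1.1.not_dvd ℓ1.2 A1 hA1 φ1 hφ1)
    have h2 := trace_sub_luc_mem ρ n LH hLH φ2 (σ * i) m2 hk2 _ _
      (hρ (ℓ2.1 : ℕ) ℓ2.1.2.1 ℓ2.1.not_dvd ℓ2.2 A2 hA2 φ2 hφ2)
    have h3 := Ideal.sub_mem _ (Ideal.sub_mem _ h2 h1) hdiff
    have e : LinearMap.trace T ρ.V (ρ.ρ (σ * i)) - LinearMap.trace T ρ.V (ρ.ρ σ)
        = LinearMap.trace T ρ.V (ρ.ρ (σ * i))
            - luc (π (CuspForm.heckeAlgebra.T ℓ2.1.2.1 ℓ2.1.not_dvd ℓ2.2)) (((ℓ2.1 : ℕ) : T)) m2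
          - (LinearMap.trace T ρ.V (ρ.ρ σ)
            - luc (π (CuspForm.heckeAlgebra.T ℓ1.1.2.1 ℓ1.1.not_dvd ℓ1.2)) (((ℓ1.1 : ℕ) : T)) m1)
          - (luc (π (heckeT N p (↑S : Set ℕ) ℓ1)) (((ℓ1.1 : ℕ) : T)) m1
            - luc (π (heckeT N p (↑S : Set ℕ) ℓ2)) (((ℓ2.1 : ℕ) : T)) m2) := by
      unfold heckeT
      ring
    rw [e]
    exact h3
  have hbot : (⨅ n : ℕ, IsLocalRing.maximalIdeal T ^ n) = ⊥ :=
    Ideal.iInf_pow_eq_bot_of_isLocalRing _ (IsLocalRing.maximalIdeal.isMaximal T).ne_top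
  have hz : LinearMap.trace T ρ.V (ρ.ρ (σ * i)) - LinearMap.trace T ρ.V (ρ.ρ σ)
      ∈ (⨅ n : ℕ, IsLocalRing.maximalIdeal T ^ n) := (Ideal.mem_iInf).mpr hmem
  rw [hbot, Ideal.mem_bot] at hz
  exact sub_eq_zero.mp hz

end Core


/-! ### The leaf `TateDatum.trace_mul_inertia` of helper5140's skeleton (S31) -/

section Leaf

open Fermat.Agent.S30

/-- continuity of the `p`-adic cyclotomic character (helper1060's `padicCyclo`) -/
theorem padicCyclo_continuous (p : ℕ) [Fact p.Prime] (n : ℕ) :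
    ∃ L : IntermediateField ℚ (AlgebraicClosure ℚ), FiniteDimensional ℚ L ∧
      ∀ σ : GQ, (∀ x ∈ L, σ x = x) →
        ∃ w : ℤ_[p], ((Cyclo1060.padicCyclo p σ : ℤ_[p]) - 1) = (p : ℤ_[p]) ^ n * w := by
  obtain ⟨ζ, hζ⟩ := HasEnoughRootsOfUnity.exists_primitiveRoot (AlgebraicClosure ℚ) (p ^ n)
  refine ⟨IntermediateField.adjoin ℚ {ζ}, ?_, ?_⟩
  · have : Algebra.IsAlgebraic ℚ (AlgebraicClosure ℚ) := AlgebraicClosure.isAlgebraic ℚ
    exact IntermediateField.adjoin.finiteDimensional (Algebra.IsIntegral.isIntegral ζ)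
  · intro σ hσ
    have hfix : ∀ μ : AlgebraicClosure ℚ, μ ^ p ^ n = 1 → σ μ = μ ^ 1 := by
      intro μ hμ
      obtain ⟨i, -, rfl⟩ := hζ.eq_pow_of_pow_eq_one hμ
      rw [pow_one, map_pow, hσ ζ (IntermediateField.mem_adjoin_simple_self ℚ ζ)]
    have h1 : ((Cyclo1060.padicCyclo p σ : ℤ_[p]ˣ) : ℤ_[p]) - ((1 : ℕ) : ℤ_[p]) ∈
        Ideal.span {(p : ℤ_[p]) ^ n} := by
      rw [← PadicInt.ker_toZModPow, RingHom.mem_ker, map_sub,
        Cyclo1060.padicCyclo_toZModPow p n σ 1 hfix, map_natCast, sub_self]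
    rw [Nat.cast_one] at h1
    obtain ⟨y, hy⟩ := Ideal.mem_span_singleton.mp h1
    exact ⟨y, hy⟩

/-- **Q3-S31 (trace is blind to inertia at good primes)** — the exact statement of the leaf
`TateDatum.trace_mul_inertia` of helper5140's skeleton (`SkeletonRes5140.lean`): for a
`HeckeGaloisRepDatum`, `tr ρ(σ i) = tr ρ(σ)` for `i` in an inertia group at a prime outside `S`. -/
theorem trace_mul_inertia {p : ℕ} [Fact p.Prime] {N : ℕ} [NeZero N] (D : TateDatum N p)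
    {S : Finset ℕ}
    {𝒪 : Type} [CommRing 𝒪] [IsDomain 𝒪] [IsDiscreteValuationRing 𝒪]
    [IsAdicComplete (IsLocalRing.maximalIdeal 𝒪) 𝒪]
    {θ : CuspForm.heckeAlgebra N 2 (↑S : Set ℕ) →+* IsLocalRing.ResidueField 𝒪}
    {T : Type} [CommRing T] [IsLocalRing T] [IsNoetherianRing T]
    [IsAdicComplete (IsLocalRing.maximalIdeal T) T] [Algebra 𝒪 T] [IsLocalHom (algebraMap 𝒪 T)]
    [Module.Finite 𝒪 T] [Module.Free 𝒪 T]
    (hp𝒪 : (p : 𝒪) ∈ IsLocalRing.maximalIdeal 𝒪) (hpS : p ∈ S)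
    (hNS : ∀ q : ℕ, q.Prime → q ∣ N → q ∈ S)
    (H : CuspForm.HeckeGaloisRepDatum N (↑S : Set ℕ) 𝒪 θ T)
    (q : ℕ) (hq : q.Prime) (hqS : q ∉ S)
    (A : ValuationSubring (AlgebraicClosure ℚ)) (hA : A.LiesOverPrime q)
    (i : GQ) (hi : i ∈ A.inertiaSubgroupIn ℚ) (σ : GQ) :
    LinearMap.trace T H.ρ.V (H.ρ.ρ (σ * i)) = LinearMap.trace T H.ρ.V (H.ρ.ρ σ) := by
  have hpT : (p : T) ∈ IsLocalRing.maximalIdeal T := by
    rw [IsLocalRing.mem_maximalIdeal, mem_nonunits_iff]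
    intro hu
    have h1 : IsUnit (algebraMap 𝒪 T (p : 𝒪)) := by rwa [map_natCast]
    have h2 : IsUnit (p : 𝒪) := isUnit_of_map_unit (algebraMap 𝒪 T) _ h1
    exact (IsLocalRing.mem_maximalIdeal _).mp hp𝒪 h2
  refine trace_mul_inertia_core D (Cyclo1060.padicCyclo p) (padicCyclo_continuous p) ?_ ?_ S hpS
    hNS (Cyclo1060.padicIntHom p (IsLocalRing.maximalIdeal T) hpT) hpT H.π H.ρ H.charpoly_frob
    q hq hqS A hA i hi σ
  · intro ℓ hℓ hℓp A' hA' τ hτ
    exact Cyclo1060.padicCyclo_eq_natCast p τ ℓ (fun n μ hμ =>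
      Cyclo1060.frobenius_apply_rootOfUnity (Fact.out : p.Prime) hℓ hℓp A' hA' τ hτ n μ hμ)
  · intro ℓ hℓ hℓp A' hA' τ hτ
    refine Units.ext ?_
    have h := Cyclo1060.padicCyclo_eq_natCast p τ 1 (fun n μ hμ => by
      rw [pow_one]
      exact Cyclo1060.inertia_apply_rootOfUnity (Fact.out : p.Prime) hℓ hℓp A' hA' τ hτ n μ hμ)
    rw [Nat.cast_one] at h
    rw [h, Units.val_one]

end Leaf

end Fermat.Agent.GalRep.UTrace4121
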