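/-
GALREP (helper5140), v4: leaves L5, L6, L7 of the skeleton, CLOSED by harvest (sorry-free file).
L5 `TateDatum.exists_eigenLattice`          = helper8500 `GalRep/EigLatLeaf8500.lean` (+ EigLat8500)
L6 `TateDatum.exists_eigenModule_residual`  = helper5860 `GalRep/Q3Res5860.lean`
   (other proofs: helper8636 `GalRep/EigResFinal8636.lean`, helper1780 `GalRep/EigRes1780.lean`),
L7 `TateDatum.trace_mul_inertia`            = helper4121 `GalRep/UTrace4121.lean`.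
All use LIB Cheb (helper1772, `Fermat/Agent/Cheb/*`).
-/
import Fermat.Agent.GalRep.Skeleton5140
import Fermat.Agent.GalRep.SkeletonRes5140
import Fermat.Agent.GalRep.Q3Res5860
import Fermat.Agent.GalRep.UTrace4121
import Fermat.Agent.GalRep.EigLatLeaf8500

set_option autoImplicit false
open Polynomial

namespace Fermat.Agent.GalRep

/-- **Q3-res (residual eigen-module).**  From a `TateDatum` and a normalized eigenform `g`
(level `N ≠ 0`) with a reduction `φ : ℤ̄ → k`: a nonzero finite-dimensional module over a FINITE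
subfield `F` of `k` (via `j`), with Galois action, on which `σ + d(σ)σ⁻¹` is the scalar `τ(σ)`;
`d` is the mod `p` cyclotomic character and `τ(Frob_ℓ) = φ(a_ℓ(g))`. -/
theorem TateDatum.exists_eigenModule_residual {N p : ℕ} [NeZero N] [Fact p.Prime]
    (D : TateDatum N p) (ε : GQ →* ℤ_[p]ˣ) (hε : IsCyclotomic p ε)
    {g : CuspForm (CongruenceSubgroup.Gamma0 N) 2} (hg : g.IsNormalizedEigenform)
    {k : Type} [Field k] [CharP k p] (φ : integralClosure ℤ ℂ →+* k) :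
    ∃ (F : Type) (_ : Field F) (_ : Finite F) (j : F →+* k)
      (U : Type) (_ : AddCommGroup U) (_ : Module F U) (_ : FiniteDimensional F U)
      (_ : Nontrivial U) (ρ : GQ →* Module.End F U) (τ : GQ → F) (d : GQ →* Fˣ),
      (∀ (σ : GQ) (v : U), ρ σ (ρ σ v) - τ σ • ρ σ v + (d σ : F) • v = 0) ∧
      GaloisFactorsThroughFiniteLevel ρ ∧ GaloisFactorsThroughFiniteLevel d ∧
      (∀ q : ℕ, q.Prime → ¬ q ∣ N * p → ∀ A : ValuationSubring (AlgebraicClosure ℚ),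
        A.LiesOverPrime q → ∀ σ ∈ A.inertiaSubgroupIn ℚ, ρ σ = 1 ∧ d σ = 1) ∧
      (∀ ℓ : ℕ, ℓ.Prime → ¬ ℓ ∣ N → (ℓ : k) ≠ 0 →
        ∀ A : ValuationSubring (AlgebraicClosure ℚ), A.LiesOverPrime ℓ →
          ∀ σ : GQ, A.IsFrobeniusAt σ ℓ →
            ((d σ : Fˣ) : F) = (ℓ : F) ∧
            ∃ a : integralClosure ℤ ℂ, (a : ℂ) = ModularFormClass.qCoeff g ℓ ∧ j (τ σ) = φ a) := by
  exact Q3Res5860.exists_eigenModule_residual D ε hε hg φ

/-- **Q3-S31 (trace is blind to inertia at good primes).**  Universal trace + (F) + weak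
Chebotarev: for a `HeckeGaloisRepDatum`, `tr ρ(σ i) = tr ρ(σ)` for `i` in an inertia group at a
prime outside `S`. -/
theorem TateDatum.trace_mul_inertia {p : ℕ} [Fact p.Prime] {N : ℕ} [NeZero N] (D : TateDatum N p)
    {S : Finset ℕ}
    {𝒪 : Type} [CommRing 𝒪] [IsDomain 𝒪] [IsDiscreteValuationRing 𝒪]
    [IsAdicComplete (IsLocalRing.maximalIdeal 𝒪) 𝒪]
    {θ : CuspForm.heckeAlgebra N 2 (↑S : Set ℕ) →+* IsLocalRing.ResidueField 𝒪}
    {T : Type} [CommRing T] [IsLocalRing T] [IsNoetherianRing T]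
    [IsAdicComplete (IsLocalRing.maximalIdeal T) T] [Algebra 𝒪 T] [IsLocalHom (algebraMap 𝒪 T)]
    [Module.Finite 𝒪 T] [Module.Free 𝒪 T]
    (hp𝒪 : (p : 𝒪) ∈ IsLocalRing.maximalIdeal 𝒪) (hpS : p ∈ S)
    (hNS : ∀ q : ℕ, q.Prime → q ∣ N → q ∈ S)
    (H : CuspForm.HeckeGaloisRepDatum N (↑S : Set ℕ) 𝒪 θ T)
    (q : ℕ) (hq : q.Prime) (hqS : q ∉ S)
    (A : ValuationSubring (AlgebraicClosure ℚ)) (hA : A.LiesOverPrime q)
    (i : GQ) (hi : i ∈ A.inertiaSubgroupIn ℚ) (σ : GQ) :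
    LinearMap.trace T H.ρ.V (H.ρ.ρ (σ * i)) = LinearMap.trace T H.ρ.V (H.ρ.ρ σ) := by
  exact UTrace4121.trace_mul_inertia D hp𝒪 hpS hNS H q hq hqS A hA i hi σ

/-- **Q3 (adic eigen-lattice).**  From a `TateDatum`, the cyclotomic character and a point `χ` of
the Hecke algebra: a nonzero `𝒪'`-lattice with Galois action on which `T_ℓ = χ(T_ℓ)` and
`σ + ε(σ)σ⁻¹` is the scalar `τ(σ)` (universal trace, via weak Chebotarev). -/
theorem TateDatum.exists_eigenLattice {N p : ℕ} [NeZero N] [Fact p.Prime] (D : TateDatum N p)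
    (ε : GQ →* ℤ_[p]ˣ) (hε : IsCyclotomic p ε)
    (S : Finset ℕ) (hpS : p ∈ S) (hNS : ∀ q : ℕ, q.Prime → q ∣ N → q ∈ S)
    (𝒪' : Type) [CommRing 𝒪'] [IsDomain 𝒪'] [IsDiscreteValuationRing 𝒪']
    [IsAdicComplete (IsLocalRing.maximalIdeal 𝒪') 𝒪'] [Finite (IsLocalRing.ResidueField 𝒪')]
    [CharZero 𝒪'] (hp𝒪' : (p : 𝒪') ∈ IsLocalRing.maximalIdeal 𝒪')
    (χ : CuspForm.heckeAlgebra N 2 (↑S : Set ℕ) →+* 𝒪') :
    ∃ (ι : ℤ_[p] →+* 𝒪') (Λ : Type) (_ : AddCommGroup Λ) (_ : Module 𝒪' Λ) (_ : Module.Free 𝒪' Λ)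
      (_ : Module.Finite 𝒪' Λ) (_ : Nontrivial Λ) (ρ : GQ →* Module.End 𝒪' Λ) (τ : GQ → 𝒪'),
      (∀ (σ : GQ) (v : Λ), ρ σ (ρ σ v) - τ σ • ρ σ v + ι (ε σ) • v = 0) ∧
      GaloisActionIsAdicContinuous 𝒪' ρ ∧
      (∀ q : ℕ, q.Prime → ¬ q ∣ N → q ≠ p → ∀ A : ValuationSubring (AlgebraicClosure ℚ),
        A.LiesOverPrime q → ∀ σ ∈ A.inertiaSubgroupIn ℚ, ρ σ = 1) ∧
      (∀ (ℓ : ℕ) (hℓ : ℓ.Prime) (hℓN : ¬ ℓ ∣ N) (hℓS : ℓ ∉ (↑S : Set ℕ)),
        ∀ A : ValuationSubring (AlgebraicClosure ℚ), A.LiesOverPrime ℓ →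
          ∀ σ : GQ, A.IsFrobeniusAt σ ℓ → τ σ = χ (CuspForm.heckeAlgebra.T hℓ hℓN hℓS)) := by
  exact EigLat8500.tateDatum_exists_eigenLattice D ε hε.continuous hε.frobenius S hpS hNS 𝒪' hp𝒪' χ

end Fermat.Agent.GalRep
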