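/-
GALREP: S29 and S31 assemblies (helper5140).  PROVED; closure is sorry-free (v3).
-/
import Fermat.Agent.GalRep.Closed5140

set_option autoImplicit false
open Polynomial

namespace Fermat.Agent.GalRep

theorem isUnramifiedAt_of_tateDatum_of_leaves {p : ℕ} [Fact p.Prime] {N : ℕ} [NeZero N]
    (D : TateDatum N p) {S : Finset ℕ}
    {𝒪 : Type} [CommRing 𝒪] [IsDomain 𝒪] [IsDiscreteValuationRing 𝒪]
    [IsAdicComplete (IsLocalRing.maximalIdeal 𝒪) 𝒪]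
    {θ : CuspForm.heckeAlgebra N 2 (↑S : Set ℕ) →+* IsLocalRing.ResidueField 𝒪}
    {T : Type} [CommRing T] [IsLocalRing T] [IsNoetherianRing T]
    [IsAdicComplete (IsLocalRing.maximalIdeal T) T] [Algebra 𝒪 T] [IsLocalHom (algebraMap 𝒪 T)]
    [Module.Finite 𝒪 T] [Module.Free 𝒪 T]
    (hp𝒪 : (p : 𝒪) ∈ IsLocalRing.maximalIdeal 𝒪) (hpS : p ∈ S)
    (hNS : ∀ q : ℕ, q.Prime → q ∣ N → q ∈ S)
    (H : CuspForm.HeckeGaloisRepDatum N (↑S : Set ℕ) 𝒪 θ T)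
    (q : ℕ) (hq : q.Prime) (hqS : q ∉ S) :
    H.ρ.IsUnramifiedAt q := by
  intro A hA i hi
  exact eq_one_of_trace_mul_eq H.ρ H.residual_absIrr i
    (fun σ => D.trace_mul_inertia hp𝒪 hpS hNS H q hq hqS A hA i hi σ)

theorem residualRep_of_tateDatum_of_leaves {N : ℕ} [NeZero N] {p : ℕ} [Fact p.Prime]
    (D : TateDatum N p)
    {g : CuspForm (CongruenceSubgroup.Gamma0 N) 2} (hg : g.IsNormalizedEigenform)
    {k : Type} [Field k] [CharP k p] (φ : integralClosure ℤ ℂ →+* k) :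
    ∃ ρ : ResidualGaloisRep k, ρ.IsAttachedTo g φ ∧
      ∀ ℓ : ℕ, ℓ.Prime → ¬ ℓ ∣ N * p → ρ.IsUnramifiedAt ℓ := by
  obtain ⟨ε, hε⟩ := exists_cyclotomicCharacter p
  obtain ⟨F, _, _, j, U, _, _, _, _, ρ, τ, d, hquad, hfinρ, hfind, hunr, hfrob⟩ :=
    D.exists_eigenModule_residual ε hε hg φ
  obtain ⟨V, _, _, _, ρ', hrank, hchar, htriv⟩ := exists_residual_of_quadratic F U ρ τ d hquad
  have hfin : GaloisFactorsThroughFiniteLevel ρ' := by
    obtain ⟨L₁, hL₁, h₁⟩ := hfinρ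
    obtain ⟨L₂, hL₂, h₂⟩ := hfind
    exact ⟨L₁ ⊔ L₂, inferInstance, fun σ hσ =>
      htriv σ (h₁ σ fun x hx => hσ x ((le_sup_left : L₁ ≤ L₁ ⊔ L₂) hx))
        (h₂ σ fun x hx => hσ x ((le_sup_right : L₂ ≤ L₁ ⊔ L₂) hx))⟩
  let R : ResidualGaloisRep F :=
    { V := V
      finrank_eq := hrank
      ρ := ρ'
      factorsThroughFiniteLevel := hfin }
  let _ : Algebra F k := j.toAlgebra
  refine ⟨R.baseChangeAlong j, ?_, ?_⟩
  · intro ℓ hℓ hℓN hℓk A hA σ hσ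
    obtain ⟨hdℓ, a, ha, hja⟩ := hfrob ℓ hℓ hℓN hℓk A hA σ hσ
    refine ⟨a, ha, ?_⟩
    have h1 : LinearMap.charpoly ((R.baseChangeAlong j).ρ σ)
        = (LinearMap.charpoly (ρ' σ)).map (algebraMap F k) :=
      LinearMap.charpoly_baseChange (A := k) (ρ' σ)
    rw [h1, hchar σ, hdℓ]
    have hj : ∀ x : F, algebraMap F k x = j x := fun _ => rfl
    simp only [Polynomial.map_add, Polynomial.map_sub, Polynomial.map_mul, Polynomial.map_pow,
      Polynomial.map_X, Polynomial.map_C, Polynomial.map_natCast, hj, hja, map_natCast]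
  · intro ℓ hℓ hℓNp A hA σ hσ
    have h1 : ρ' σ = 1 := htriv σ (hunr ℓ hℓ hℓNp A hA σ hσ).1 (hunr ℓ hℓ hℓNp A hA σ hσ).2
    show (ρ' σ).baseChange k = 1
    rw [h1, LinearMap.baseChange_one]

end Fermat.Agent.GalRep
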