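/-
GALREP: S30 assembly (helper5140).  PROVED (closure sorry-free, v4) from the three leaves
(`exists_cyclotomicCharacter`, `TateDatum.exists_eigenLattice`, `exists_adic_of_quadratic`):
for every `TateDatum N p` the conclusion of the frozen S30 holds, with `𝒪'' := 𝒪'`.
-/
import Fermat.Agent.GalRep.Closed5140

set_option autoImplicit false
open Polynomial

namespace Fermat.Agent.GalRep

theorem galoisRep_of_tateDatum_of_leaves (p : ℕ) [Fact p.Prime] (N : ℕ) [NeZero N]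
    (D : TateDatum N p)
    (S : Finset ℕ) (hpS : p ∈ S) (hNS : ∀ q : ℕ, q.Prime → q ∣ N → q ∈ S)
    (𝒪' : Type) [CommRing 𝒪'] [IsDomain 𝒪'] [IsDiscreteValuationRing 𝒪']
    [IsAdicComplete (IsLocalRing.maximalIdeal 𝒪') 𝒪'] [Finite (IsLocalRing.ResidueField 𝒪')]
    [CharZero 𝒪'] (hp𝒪' : (p : 𝒪') ∈ IsLocalRing.maximalIdeal 𝒪')
    (χ : CuspForm.heckeAlgebra N 2 (↑S : Set ℕ) →+* 𝒪') :
    ∃ (𝒪'' : Type) (_ : CommRing 𝒪'') (_ : IsDomain 𝒪'') (_ : IsDiscreteValuationRing 𝒪'')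
      (_ : IsAdicComplete (IsLocalRing.maximalIdeal 𝒪'') 𝒪'')
      (_ : Finite (IsLocalRing.ResidueField 𝒪'')) (_ : CharZero 𝒪'')
      (_ : Algebra 𝒪' 𝒪'') (_ : Module.Finite 𝒪' 𝒪'') (_ : IsLocalHom (algebraMap 𝒪' 𝒪'')),
    Function.Injective (algebraMap 𝒪' 𝒪'') ∧
    ∃ ρ : GaloisRepAdic 𝒪'',
      (∀ (ℓ : ℕ) (hℓ : ℓ.Prime) (hℓN : ¬ ℓ ∣ N) (hℓS : ℓ ∉ (↑S : Set ℕ)),
        ∀ A : ValuationSubring (AlgebraicClosure ℚ), A.LiesOverPrime ℓ →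
          ∀ σ : AlgebraicClosure ℚ ≃ₐ[ℚ] AlgebraicClosure ℚ, A.IsFrobeniusAt σ ℓ →
            LinearMap.charpoly (ρ.ρ σ) =
              X ^ 2 - C (algebraMap 𝒪' 𝒪'' (χ (CuspForm.heckeAlgebra.T hℓ hℓN hℓS))) * X
                + C ((ℓ : 𝒪''))) ∧
      (∀ q : ℕ, q.Prime → ¬ q ∣ N → q ≠ p → ρ.IsUnramifiedAt q) := by
  obtain ⟨ε, hε⟩ := exists_cyclotomicCharacter p
  obtain ⟨ι, Λ, _, _, _, _, _, ρ, τ, hquad, hcont, hunr, hfrob⟩ :=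
    D.exists_eigenLattice ε hε S hpS hNS 𝒪' hp𝒪' χ
  obtain ⟨c, hc, hεc⟩ := hε.conj
  let d : GQ →* 𝒪'ˣ := (Units.map (ι : ℤ_[p] →* 𝒪')).comp ε
  have hd : ∀ σ : GQ, ((d σ : 𝒪'ˣ) : 𝒪') = ι ((ε σ : ℤ_[p]ˣ) : ℤ_[p]) := fun σ => rfl
  obtain ⟨V, _, _, _, _, ρ', hrank, hchar, hcong, htriv⟩ :=
    exists_adic_of_quadratic 𝒪' Λ ρ τ d (fun g v => by rw [hd]; exact hquad g v) c hc
      (by rw [hd, hεc, map_neg, map_one])
  -- the representation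
  have hadic : GaloisActionIsAdicContinuous 𝒪' ρ' := by
    intro n
    obtain ⟨L₁, hL₁, h₁⟩ := hcont n
    obtain ⟨L₂, hL₂, h₂⟩ := hε.continuous n
    refine ⟨L₁ ⊔ L₂, inferInstance, fun σ hσ => ?_⟩
    refine hcong n σ (h₁ σ fun x hx => hσ x ((le_sup_left : L₁ ≤ L₁ ⊔ L₂) hx)) ?_
    obtain ⟨w, hw⟩ := h₂ σ fun x hx => hσ x ((le_sup_right : L₂ ≤ L₁ ⊔ L₂) hx)
    have : ((d σ : 𝒪'ˣ) : 𝒪') - 1 = (p : 𝒪') ^ n * ι w := by
      rw [hd, ← map_one ι, ← map_sub, hw, map_mul, map_pow, map_natCast]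
    rw [this]
    exact Ideal.mul_mem_right _ _ (Ideal.pow_mem_pow hp𝒪' n)
  let R : GaloisRepAdic 𝒪' :=
    { V := V
      finrank_eq := hrank
      ρ := ρ'
      isAdicContinuous := hadic }
  refine ⟨𝒪', inferInstance, inferInstance, inferInstance, inferInstance, inferInstance,
    inferInstance, Algebra.id 𝒪', Module.Finite.self 𝒪', ⟨fun a h => h⟩, fun a b h => h, R, ?_, ?_⟩
  · intro ℓ hℓ hℓN hℓS A hA σ hσ
    have hℓp : ℓ ≠ p := fun h => hℓS (h ▸ Finset.mem_coe.mpr hpS)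
    have h1 : LinearMap.charpoly (R.ρ σ) = X ^ 2 - C (τ σ) * X + C ((d σ : 𝒪')) := hchar σ
    rw [h1, hfrob ℓ hℓ hℓN hℓS A hA σ hσ, hd, hε.frobenius ℓ hℓ hℓp A hA σ hσ, map_natCast]
    rfl
  · intro q hq hqN hqp P hP σ hσ
    refine htriv σ (hunr q hq hqN hqp P hP σ hσ) ?_
    show (Units.map (ι : ℤ_[p] →* 𝒪')) (ε σ) = 1
    rw [hε.inertia q hq hqp P hP σ hσ, map_one]

end Fermat.Agent.GalRep
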