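/-
GALREP (helper5140), v3.  SORRY-FREE, standard axioms only:
the EXACT frozen statements S31 and S29 follow from the existence of a `TateDatum N p`
(`Interface5140.lean`) for all `N ≠ 0` and primes `p`.  Nothing else is needed.
-/
import Fermat.Agent.GalRep.AssemblyRes5140

set_option autoImplicit false
open Polynomial
open CuspForm

namespace Fermat.Agent.GalRep

/-- The geometric input, as a hypothesis: a `TateDatum` exists for every level and prime. -/
def TateDatumExists : Prop :=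
  ∀ (N p : ℕ) [NeZero N] [Fact p.Prime], Nonempty (TateDatum N p)

/-- **frozen S31** from `TateDatumExists` (sorry-free). -/
theorem s31_of_tateDatumExists (hT : TateDatumExists) {p : ℕ} {N : ℕ} [NeZero N] {S : Finset ℕ}
    {𝒪 : Type} [CommRing 𝒪] [IsDomain 𝒪] [IsDiscreteValuationRing 𝒪]
    [IsAdicComplete (IsLocalRing.maximalIdeal 𝒪) 𝒪]
    {θ : CuspForm.heckeAlgebra N 2 (↑S : Set ℕ) →+* IsLocalRing.ResidueField 𝒪}
    {T : Type} [CommRing T] [IsLocalRing T] [IsNoetherianRing T]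
    [IsAdicComplete (IsLocalRing.maximalIdeal T) T] [Algebra 𝒪 T] [IsLocalHom (algebraMap 𝒪 T)]
    [Module.Finite 𝒪 T] [Module.Free 𝒪 T]
    (hp : p.Prime)
    (hp𝒪 : (p : 𝒪) ∈ IsLocalRing.maximalIdeal 𝒪) (hpS : p ∈ S)
    (hNS : ∀ q : ℕ, q.Prime → q ∣ N → q ∈ S)
    (H : CuspForm.HeckeGaloisRepDatum N (↑S : Set ℕ) 𝒪 θ T)
    (q : ℕ) (hq : q.Prime) (hqS : q ∉ S) :
    H.ρ.IsUnramifiedAt q := by
  have : Fact p.Prime := ⟨hp⟩
  obtain ⟨D⟩ := hT N p
  exact isUnramifiedAt_of_tateDatum_of_leaves D hp𝒪 hpS hNS H q hq hqS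

/-- the trivial two-dimensional residual representation (used for `N = 0`, where S29 is vacuous) -/
noncomputable def trivialResidualRep (k : Type) [Field k] : ResidualGaloisRep k :=
  { V := Fin 2 → k
    finrank_eq := by simp
    ρ := 1
    factorsThroughFiniteLevel := ⟨⊥, inferInstance, fun _ _ => rfl⟩ }

/-- **frozen S29** from `TateDatumExists` (sorry-free). -/
theorem s29_of_tateDatumExists (hT : TateDatumExists)
    {N : ℕ} {g : CuspForm (CongruenceSubgroup.Gamma0 N) 2} (hg : g.IsNormalizedEigenform)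
    {p : ℕ} (hp : p.Prime) {k : Type} [Field k] [CharP k p]
    (φ : integralClosure ℤ ℂ →+* k) :
    ∃ ρ : ResidualGaloisRep k, ρ.IsAttachedTo g φ ∧
      ∀ ℓ : ℕ, ℓ.Prime → ¬ ℓ ∣ N * p → ρ.IsUnramifiedAt ℓ := by
  have : Fact p.Prime := ⟨hp⟩
  rcases eq_or_ne N 0 with rfl | hN
  · refine ⟨trivialResidualRep k, fun ℓ _ hℓ => absurd (dvd_zero ℓ) hℓ, fun ℓ _ hℓ => ?_⟩
    exact absurd (by simp) hℓ
  · have : NeZero N := ⟨hN⟩
    obtain ⟨D⟩ := hT N p
    exact residualRep_of_tateDatum_of_leaves D hg φ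

end Fermat.Agent.GalRep
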