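/-
GALREP (helper5140): frozen S30, S31 and S29 from the finite-level geometric leaves of helper100's
tree (`Fermat/Agent/S30/GeoDefs.lean`) + faithfulness of the Betti lattice.  SORRY-FREE.

  GeoLeaves  :=  ∀ N p,  HK4 ∧ HK3 ∧ U ∧ ES ∧ FIN ∧ ∃ B : BettiKummer N p, BettiFaithful B
  s30_of_geoLeaves : GeoLeaves → (frozen S30)
  s31_of_geoLeaves : GeoLeaves → (frozen S31)
  s29_of_geoLeaves : GeoLeaves → (frozen S29)
-/
import Fermat.Agent.GalRep.GeoBridge5140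
import Fermat.Agent.GalRep.Final5140

set_option autoImplicit false
open Polynomial
open CuspForm

namespace Fermat.Agent.GalRep

/-- the finite-level geometric input, for all levels `N ≠ 0` and primes `p` -/
def GeoLeaves : Prop :=
  ∀ (N p : ℕ) [NeZero N] [Fact p.Prime],
    S30.OpenStabilizers N ∧ S30.GaloisHeckeCommute N p ∧ S30.UnramifiedTorsion N p ∧
      S30.FrobeniusRelation N p ∧ S30.TorsionFinite N p ∧
      ∃ B : S30.BettiKummer N p, BettiFaithful B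

theorem tateDatumExists_of_geoLeaves (h : GeoLeaves) : TateDatumExists := by
  intro N p _ _
  obtain ⟨hOS, hGH, hU, hES, hFin, B, hB⟩ := h N p
  exact tateDatum_of_geo N p hOS hGH hU hES hFin B hB

/-- **frozen S31** from the geometric leaves (sorry-free). -/
theorem s31_of_geoLeaves (hG : GeoLeaves) {p : ℕ} {N : ℕ} [NeZero N] {S : Finset ℕ}
    {𝒪 : Type} [CommRing 𝒪] [IsDomain 𝒪] [IsDiscreteValuationRing 𝒪]
    [IsAdicComplete (IsLocalRing.maximalIdeal 𝒪) 𝒪]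
    {θ : CuspForm.heckeAlgebra N 2 (↑S : Set ℕ) →+* IsLocalRing.ResidueField 𝒪}
    {T : Type} [CommRing T] [IsLocalRing T] [IsNoetherianRing T]
    [IsAdicComplete (IsLocalRing.maximalIdeal T) T] [Algebra 𝒪 T] [IsLocalHom (algebraMap 𝒪 T)]
    [Module.Finite 𝒪 T] [Module.Free 𝒪 T]
    (hp : p.Prime)
    (hp𝒪 : (p : 𝒪) ∈ IsLocalRing.maximalIdeal 𝒪) (hpS : p ∈ S)
    (hNS : ∀ q : ℕ, q.Prime → q ∣ N → q ∈ S)
    (H : CuspForm.HeckeGaloisRepDatum N (↑S : Set ℕ) 𝒪 θ T)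
    (q : ℕ) (hq : q.Prime) (hqS : q ∉ S) :
    H.ρ.IsUnramifiedAt q :=
  s31_of_tateDatumExists (tateDatumExists_of_geoLeaves hG) hp hp𝒪 hpS hNS H q hq hqS

/-- **frozen S29** from the geometric leaves (sorry-free). -/
theorem s29_of_geoLeaves (hG : GeoLeaves)
    {N : ℕ} {g : CuspForm (CongruenceSubgroup.Gamma0 N) 2} (hg : g.IsNormalizedEigenform)
    {p : ℕ} (hp : p.Prime) {k : Type} [Field k] [CharP k p]
    (φ : integralClosure ℤ ℂ →+* k) :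
    ∃ ρ : ResidualGaloisRep k, ρ.IsAttachedTo g φ ∧
      ∀ ℓ : ℕ, ℓ.Prime → ¬ ℓ ∣ N * p → ρ.IsUnramifiedAt ℓ :=
  s29_of_tateDatumExists (tateDatumExists_of_geoLeaves hG) hg hp φ

/-- **frozen S30** from the geometric leaves (sorry-free). -/
theorem s30_of_geoLeaves (hG : GeoLeaves) :
    ∀ (p : ℕ) [Fact p.Prime] (N : ℕ) [NeZero N] (S : Finset ℕ)
      (_hpS : p ∈ S) (_hNS : ∀ q : ℕ, q.Prime → q ∣ N → q ∈ S)
      (𝒪' : Type) [CommRing 𝒪'] [IsDomain 𝒪'] [IsDiscreteValuationRing 𝒪']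
      [IsAdicComplete (IsLocalRing.maximalIdeal 𝒪') 𝒪'] [Finite (IsLocalRing.ResidueField 𝒪')]
      [CharZero 𝒪'] (_hp𝒪' : (p : 𝒪') ∈ IsLocalRing.maximalIdeal 𝒪')
      (χ : CuspForm.heckeAlgebra N 2 (↑S : Set ℕ) →+* 𝒪'),
      ∃ (𝒪'' : Type) (_ : CommRing 𝒪'') (_ : IsDomain 𝒪'') (_ : IsDiscreteValuationRing 𝒪'')
        (_ : IsAdicComplete (IsLocalRing.maximalIdeal 𝒪'') 𝒪'')
        (_ : Finite (IsLocalRing.ResidueField 𝒪'')) (_ : CharZero 𝒪'')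
        (_ : Algebra 𝒪' 𝒪'') (_ : Module.Finite 𝒪' 𝒪'') (_ : IsLocalHom (algebraMap 𝒪' 𝒪'')),
      Function.Injective (algebraMap 𝒪' 𝒪'') ∧
      ∃ ρ : GaloisRepAdic 𝒪'',
        (∀ (ℓ : ℕ) (hℓ : ℓ.Prime) (hℓN : ¬ ℓ ∣ N) (hℓS : ℓ ∉ (↑S : Set ℕ)),
          ∀ A : ValuationSubring (AlgebraicClosure ℚ), A.LiesOverPrime ℓ →
            ∀ σ : AlgebraicClosure ℚ ≃ₐ[ℚ] AlgebraicClosure ℚ, A.IsFrobeniusAt σ ℓ →
              LinearMap.charpoly (ρ.ρ σ) =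
                X ^ 2 - C (algebraMap 𝒪' 𝒪'' (χ (CuspForm.heckeAlgebra.T hℓ hℓN hℓS))) * X
                  + C ((ℓ : 𝒪''))) ∧
        (∀ q : ℕ, q.Prime → ¬ q ∣ N → q ≠ p → ρ.IsUnramifiedAt q) :=
  s30_of_tateDatumExists (tateDatumExists_of_geoLeaves hG)

end Fermat.Agent.GalRep
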