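/-
GALREP, package KES (architect helper7734, after helper4960 `S30/Kes4960.lean`): the leaves
U `UnramifiedTorsion` and ES `FrobeniusRelation` of `S30/GeoDefs.lean` from ONE interface Prop,
`GoodSpec N p` = "at every prime `ℓ ∤ N p` and every place `A` over `ℓ` there is an additive map out
of `J₀(N)(ℚ̄)` which is inertia-invariant, kills the Eichler–Shimura expression of every Frobenius
element, and is injective on `p`-power torsion".  This is literally the hypothesis of
`Fermat.Agent.S37.result_of_map` (S37 tree), so whatever specialisation map the S37 project lands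
(`reductionModL A N`, or a level-raised variant) plugs in here without touching anything else.
This file does not import the S37 tree.
-/
import Fermat.Agent.S30.GeoDefs

set_option autoImplicit false

namespace Fermat.Agent.GalRep.Kes7734

open ModularCurve Fermat.Agent.S30

/-- A good-reduction specialisation of `J₀(N)` at every prime `ℓ ∤ N p` (hypothesis of
`S37.result_of_map`). -/
def GoodSpec (N p : ℕ) [NeZero N] : Prop :=
  ∀ ℓ : ℕ, (hℓ : ℓ.Prime) → ¬ ℓ ∣ N * p →
    ∀ A : ValuationSubring (AlgebraicClosure ℚ), A.LiesOverPrime ℓ →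
    ∃ (G : Type) (_ : AddCommGroup G) (φ : JZero N →+ G),
      (∀ σ ∈ A.inertiaSubgroupIn ℚ, ∀ x : JZero N, φ (σ • x) = φ x) ∧
      (∀ σ : AlgebraicClosure ℚ ≃ₐ[ℚ] AlgebraicClosure ℚ, A.IsFrobeniusAt σ ℓ → ∀ x : JZero N,
        φ (σ • σ • x - heckeOperatorBar N ⟨ℓ, hℓ⟩ (σ • x) + ℓ • x) = 0) ∧
      (∀ x : JZero N, (∃ n : ℕ, p ^ n • x = 0) → φ x = 0 → x = 0)

/-- Galois acts additively on `J₀(N)`. -/
theorem galois_smul_zero (N : ℕ) (σ : GQ) : σ • (0 : JZero N) = 0 := by
  have h := map_zero (DistribSMul.toAddMonoidHom (JZero N) σ)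
  exact h

/-- Galois preserves `m`-torsion of `J₀(N)`. -/
theorem nsmul_galois_smul (N : ℕ) (m : ℕ) (σ : GQ) (x : JZero N) :
    m • (σ • x) = σ • (m • x) := by
  have h := map_nsmul (DistribSMul.toAddMonoidHom (JZero N) σ) m x
  exact h.symm

/-- The Eichler–Shimura expression of an `m`-torsion point is `m`-torsion. -/
theorem nsmul_relation_eq_zero (N : ℕ) (T : JZero N →+ JZero N) (σ : GQ) (x : JZero N) (m ℓ : ℕ)
    (hm : m • x = 0) : m • (σ • σ • x - T (σ • x) + ℓ • x) = 0 := by
  rw [nsmul_add, nsmul_sub, nsmul_galois_smul, nsmul_galois_smul, ← map_nsmul,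
    nsmul_galois_smul, hm, galois_smul_zero, galois_smul_zero, map_zero, sub_zero, zero_add,
    nsmul_left_comm, hm, nsmul_zero]

/-- **U** from a good specialisation. -/
theorem unramifiedTorsion_of_goodSpec (N p : ℕ) [NeZero N] (h : GoodSpec N p) :
    UnramifiedTorsion N p := by
  intro ℓ hℓ hNp A hA σ hσ x hx
  obtain ⟨n, hn⟩ := hx
  obtain ⟨G, _, φ, h1, -, h3⟩ := h ℓ hℓ hNp A hA
  have key : σ • x - x = 0 := by
    refine h3 (σ • x - x) ⟨n, ?_⟩ ?_
    · rw [nsmul_sub, nsmul_galois_smul, hn, galois_smul_zero, sub_zero]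
    · rw [map_sub, h1 σ hσ x, sub_self]
  exact sub_eq_zero.mp key

/-- **ES** from a good specialisation. -/
theorem frobeniusRelation_of_goodSpec (N p : ℕ) [NeZero N] (h : GoodSpec N p) :
    FrobeniusRelation N p := by
  intro ℓ hℓ hNp A hA σ hσ x hx
  obtain ⟨n, hn⟩ := hx
  obtain ⟨G, _, φ, -, h2, h3⟩ := h ℓ hℓ hNp A hA
  exact h3 _ ⟨n, nsmul_relation_eq_zero N _ σ x (p ^ n) ℓ hn⟩ (h2 σ hσ x)

end Fermat.Agent.GalRep.Kes7734
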