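/-
GALREP, package KES: `GoodSpec N p` from the S37 tree.  THE ONLY GALREP FILE THAT IMPORTS THE
S37 / S18 TREES.  Body = the body of `Fermat.Agent.S37.result` (S37 tree v2 of helper42):
`φ := reductionModL A N`, with `S37.reductionInputsModL` (RI-R + RI-G), `S37.red_inertia`,
`S37.red_frobenius_relation` (GAL + ES) and the frozen S18 (`S37.s18`).
-/
import Fermat.Agent.S37
import Fermat.Agent.GalRep.Kes7734

set_option autoImplicit false

namespace Fermat.Agent.GalRep.Kes7734

open ModularCurve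

/-- The good-reduction specialisation of `J₀(N)` at every `ℓ ∤ N p`: reduction modulo `ℓ`. -/
theorem goodSpec (N p : ℕ) [NeZero N] : GoodSpec N p := by
  intro ℓ hℓ hNp A hA
  have hℓN : ¬ ℓ ∣ N := fun hd => hNp (Dvd.dvd.mul_right hd p)
  have hℓp : ¬ ℓ ∣ p := fun hd => hNp (Dvd.dvd.mul_left hd N)
  have h : ReductionInputsModL A N := Fermat.Agent.S37.reductionInputsModL N ℓ hℓ hℓN A hA
  refine ⟨JZeroC (IsLocalRing.ResidueField A) N, inferInstance, reductionModL A N, ?_, ?_, ?_⟩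
  · intro σ hσ x
    exact Fermat.Agent.S37.red_inertia N A h σ hσ x
  · intro σ hσ x
    exact Fermat.Agent.S37.red_frobenius_relation N ℓ hℓ hℓN A hA h σ hσ x
  · rintro x ⟨n, hn⟩ hx
    have : Fact ℓ.Prime := ⟨hℓ⟩
    exact Fermat.Agent.S37.s18 N hℓN A hA h (p ^ n) (fun hd => hℓp (hℓ.dvd_of_dvd_pow hd)) x hn hx

end Fermat.Agent.GalRep.Kes7734
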