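/-
GALREP final assembly (architect helper7734): the geometric leaves `GeoLeaves` of
`GeoFinal5140.lean`, from the delivered packages

* HK4, HK3     — helper1300 / helper9234 via helper4780 (`S30/Rev4780/HK.lean`);
* U, ES        — `GalRep/Kes7734.lean` (after helper4960) from `GoodSpec`, itself from the S37 tree
                 (`GalRep/KesS37_7734.lean`: the only file importing S37 / S18);
* FIN, BK      — helper5154 (`S30/BK5154.lean`: Kummer family + landed S27 + GEN) with the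
                 assembly of helper8261 (`S30/BK8261`), here re-run so that the Betti lattice is
                 exported together with its faithfulness (helper2381 `Betti.betti_injective`).
-/
import Fermat.Agent.GalRep.GeoFinal5140
import Fermat.Agent.S30.BK5154
import Fermat.Agent.GalRep.KesS37_7734
import Fermat.Agent.S30.Rev4780.HK

set_option autoImplicit false

open CongruenceSubgroup ModularCurve ModularCurve.Period
open scoped MatrixGroups TensorProduct

namespace Fermat.Agent.GalRep.Geo7734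

open Fermat.Agent.S30 Fermat.Agent.S30.BK8261

variable (N : ℕ) [NeZero N]

/-- `heckeEnd N` is the faithful Betti realisation of the Hecke algebra, for every `S`. -/
theorem betti_eq_heckeEnd (S : Set ℕ) (ℓ : ℕ) (hℓ : ℓ.Prime) (hℓN : ¬ ℓ ∣ N) (hℓS : ℓ ∉ S) :
    Betti.betti N S (CuspForm.heckeAlgebra.T hℓ hℓN hℓS) = heckeEnd N ⟨ℓ, hℓ⟩ := by
  have : Fact ℓ.Prime := ⟨hℓ⟩
  refine LinearMap.ext fun h => Subtype.ext ?_
  rw [heckeEnd_apply N hℓ hℓN h]
  exact Betti.betti_T N _ hℓN hℓS h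

/-- The BK assembly of helper8261 (`BK8261.nonempty_bettiKummer_of_kummer'`), exporting in
addition that the Betti lattice is a faithful module over every Hecke algebra. -/
theorem exists_bettiKummer_faithful_of_kummer' (p : ℕ) (hp : p.Prime)
    (κ : (k : ℕ) → JZero N → (Additive (Gamma0 N) →+ ZMod (p ^ k)))
    (hκ_add : ∀ k x y, p ^ k • x = 0 → p ^ k • y = 0 → κ k (x + y) = κ k x + κ k y)
    (hκ_inj : ∀ k x, p ^ k • x = 0 → κ k x = 0 → x = 0)
    (hκ_par : ∀ k x, p ^ k • x = 0 → IsParabolicHom (Gamma0 N) (κ k x))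
    (hκ_compat : ∀ k x, p ^ (k + 1) • x = 0 → ∀ γ : Additive (Gamma0 N),
      κ k (p • x) γ = ((κ (k + 1) x γ : ZMod (p ^ (k + 1))).cast : ZMod (p ^ k)))
    (tk : (ℓ : ℕ) → (k : ℕ) →
      (Additive (Gamma0 N) →+ ZMod (p ^ k)) →+ (Additive (Gamma0 N) →+ ZMod (p ^ k)))
    (htk : ∀ (ℓ : ℕ) [Fact ℓ.Prime] (hℓN : ¬ ℓ ∣ N), ¬ ℓ ∣ p →
      ∀ (k : ℕ) (h : Additive (Gamma0 N) →+ ℤ), IsParabolicHom (Gamma0 N) h →
        tk ℓ k ((Int.castAddHom (ZMod (p ^ k))).comp h) =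
          (Int.castAddHom (ZMod (p ^ k))).comp (Betti.heckeHom N hℓN ℤ h))
    (hκ_hecke : ∀ (ℓ : ℕ) (hℓ : ℓ.Prime), ¬ ℓ ∣ N → ¬ ℓ ∣ p → ∀ k x, p ^ k • x = 0 →
      κ k (heckeOperatorBar N ⟨ℓ, hℓ⟩ x) = tk ℓ k (κ k x))
    (g : ℕ) (hg : Module.finrank ℂ (CuspForm (Gamma0 N) 2) ≤ g)
    (hcard : ∀ k, p ^ (2 * g * k) ≤ Nat.card {x : JZero N // p ^ k • x = 0}) :
    ∃ B : BettiKummer N p, BettiFaithful B := by
  have : Fact p.Prime := ⟨hp⟩
  have hκ0 : ∀ k, κ k 0 = 0 := by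
    intro k
    have h := hκ_add k 0 0 (smul_zero _) (smul_zero _)
    rw [add_zero] at h
    exact left_eq_add.mp h
  have hκneg : ∀ k y, p ^ k • y = 0 → κ k (-y) = -κ k y := by
    intro k y hy
    have h := hκ_add k y (-y) hy (by rw [neg_nsmul, hy, neg_zero])
    rw [add_neg_cancel, hκ0] at h
    exact eq_neg_of_add_eq_zero_right h.symm
  have hκ : KummerData (parSet N) p κ :=
    { add := hκ_add
      inj := by
        intro k x y hx hy hxy
        have hxy' : p ^ k • (x + -y) = 0 := by rw [nsmul_add, neg_nsmul, hx, hy, neg_zero, add_zero]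
        have h1 : κ k (x + -y) = 0 := by
          rw [hκ_add k x (-y) hx (by rw [neg_nsmul, hy, neg_zero]), hκneg k y hy, hxy,
            add_neg_cancel]
        have h2 := hκ_inj k _ hxy' h1
        exact add_neg_eq_zero.mp h2
      par := hκ_par
      compat := by
        intro k x hx γ
        rw [hκ_compat k x hx γ, ZMod.castHom_apply] }
  have hr₀ : Module.finrank ℤ (homP (parSet N) ℤ) ≤ 2 * g := by
    rw [finrank_homP]
    exact Nat.mul_le_mul_left 2 hg
  obtain ⟨m, θ, hθ⟩ := exists_theta hκ (2 * g) hr₀ hcard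
  refine ⟨{
    H := parabolicHoms ℤ (Gamma0 N) ℤ
    hecke := heckeEnd N
    θ := fun k => (θ k).comp (parEquiv N).toAddMonoidHom
    θ_compat := fun k x => theta_compat hκ hθ k (parEquiv N x)
    θ_zero := fun x => theta_zero hθ (parEquiv N x)
    θ_ker := ⟨m, fun k x hx => ?_⟩
    θ_hecke := fun ℓ hℓNp k x => ?_
    support := fun S _ R _ _ χ => support_heckeEnd N S R χ }, ?_⟩
  · obtain ⟨y, hy⟩ := theta_ker hκ hθ k (parEquiv N x) hx
    refine ⟨(parEquiv N).symm y, ?_⟩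
    have h1 : x = (parEquiv N).symm ((p ^ k : ℤ) • y) := by
      rw [← hy, AddEquiv.symm_apply_apply]
    rw [h1, map_zsmul]
  · have hℓ : (ℓ : ℕ).Prime := ℓ.2
    have : Fact (ℓ : ℕ).Prime := ⟨hℓ⟩
    have hℓN : ¬ (ℓ : ℕ) ∣ N := fun h => hℓNp (Dvd.dvd.mul_right h p)
    have hℓp : ¬ (ℓ : ℕ) ∣ p := fun h => hℓNp (Dvd.dvd.mul_left h N)
    let tH : homP (parSet N) ℤ →+ homP (parSet N) ℤ :=
      ((parEquiv N).toAddMonoidHom.comp (heckeEnd N ℓ).toAddMonoidHom).comp
        (parEquiv N).symm.toAddMonoidHom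
    have hnat : ∀ (k : ℕ) (h : homP (parSet N) ℤ),
        tk ℓ k (redHom (p ^ k) (h : Additive (Gamma0 N) →+ ℤ)) =
          redHom (p ^ k) (tH h : Additive (Gamma0 N) →+ ℤ) := by
      intro k h
      have e1 : (tH h : Additive (Gamma0 N) →+ ℤ) =
          Betti.heckeHom N hℓN ℤ (h : Additive (Gamma0 N) →+ ℤ) :=
        heckeEnd_apply N hℓ hℓN ((parEquiv N).symm h)
      rw [e1]
      exact htk ℓ hℓN hℓp k _ h.2
    have key := theta_equivariant hκ hθ (heckeOperatorBar N ℓ).toAddMonoidHom tH (tk ℓ) hnat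
      (fun k x hx => hκ_hecke ℓ hℓ hℓN hℓp k x hx) k (parEquiv N x)
    have e2 : tH (parEquiv N x) = parEquiv N (heckeEnd N ℓ x) := by
      show parEquiv N (heckeEnd N ℓ ((parEquiv N).symm (parEquiv N x))) = _
      rw [AddEquiv.symm_apply_apply]
    rw [e2] at key
    exact key
  · intro S
    exact ⟨Betti.betti N S, Betti.betti_injective N S,
      fun ℓ hℓ hℓN hℓS => betti_eq_heckeEnd N S ℓ hℓ hℓN hℓS⟩

/-- The same with helper2381's coset-formula Hecke operators on `Hom(Γ₀(N), ℤ/p^k)` and the count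
in the shape of the frozen S27. -/
theorem exists_bettiKummer_faithful_of_kummer_of_card (p : ℕ) (hp : p.Prime)
    (κ : (k : ℕ) → JZero N → (Additive (Gamma0 N) →+ ZMod (p ^ k)))
    (hκ_add : ∀ k x y, p ^ k • x = 0 → p ^ k • y = 0 → κ k (x + y) = κ k x + κ k y)
    (hκ_inj : ∀ k x, p ^ k • x = 0 → κ k x = 0 → x = 0)
    (hκ_par : ∀ k x, p ^ k • x = 0 → IsParabolicHom (Gamma0 N) (κ k x))
    (hκ_compat : ∀ k x, p ^ (k + 1) • x = 0 → ∀ γ : Additive (Gamma0 N),
      κ k (p • x) γ = ((κ (k + 1) x γ : ZMod (p ^ (k + 1))).cast : ZMod (p ^ k)))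
    (hκ_hecke : ∀ (ℓ : ℕ) [Fact ℓ.Prime] (hℓ : ℓ.Prime) (hℓN : ¬ ℓ ∣ N), ¬ ℓ ∣ p →
      ∀ k x, p ^ k • x = 0 →
        κ k (heckeOperatorBar N ⟨ℓ, hℓ⟩ x) = Betti.heckeHom N hℓN (ZMod (p ^ k)) (κ k x))
    (g : ℕ) (hg : Module.finrank ℂ (CuspForm (Gamma0 N) 2) ≤ g)
    (hS27 : ∀ k, Nat.card (AlgebraicCurve.Pic0.torsion (AlgebraicClosure ℚ)
      (modularFunctionFieldBar N) (p ^ k)) = p ^ (2 * g * k)) :
    ∃ B : BettiKummer N p, BettiFaithful B := by
  classical
  let tk : (ℓ : ℕ) → (k : ℕ) →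
      (Additive (Gamma0 N) →+ ZMod (p ^ k)) →+ (Additive (Gamma0 N) →+ ZMod (p ^ k)) :=
    fun ℓ k => if h : ℓ.Prime ∧ ¬ ℓ ∣ N then
      (haveI : Fact ℓ.Prime := ⟨h.1⟩; Betti.heckeHom N h.2 (ZMod (p ^ k))) else 0
  refine exists_bettiKummer_faithful_of_kummer' N p hp κ hκ_add hκ_inj hκ_par hκ_compat tk ?_ ?_
    g hg (fun k => by rw [card_torsion_eq, hS27])
  · intro ℓ hFact hℓN _ k h _
    have hℓ : ℓ.Prime := hFact.out
    have e : tk ℓ k = Betti.heckeHom N hℓN (ZMod (p ^ k)) := dif_pos ⟨hℓ, hℓN⟩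
    rw [e]
    exact Betti.heckeHom_comp N hℓN _ h
  · intro ℓ hℓ hℓN hℓp k x hx
    have : Fact ℓ.Prime := ⟨hℓ⟩
    have e : tk ℓ k = Betti.heckeHom N hℓN (ZMod (p ^ k)) := dif_pos ⟨hℓ, hℓN⟩
    rw [e]
    exact hκ_hecke ℓ hℓ hℓN hℓp k x hx

/-- **BK with faithfulness**, unconditional (helper5154's Kummer family, the landed S27, GEN). -/
theorem exists_bettiKummer_faithful (p : ℕ) (hp : p.Prime) :
    ∃ B : BettiKummer N p, BettiFaithful B :=
  exists_bettiKummer_faithful_of_kummer_of_card N p hp (BK5154.kappa N p)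
    (fun k x y hx hy => BK5154.kappa_add hp k x y hx hy)
    (fun k x hx h0 => BK5154.kappa_inj hp k x hx h0)
    (fun k x hx => BK5154.kappa_par hp k x hx)
    (fun k x hx γ => BK5154.kappa_compat hp k x hx γ)
    (fun ℓ _ hℓ hℓN _ k x hx => BK5154.kappa_hecke hp ℓ hℓ hℓN k x hx)
    (AlgebraicCurve.genusFF (AlgebraicClosure ℚ) ↥(modularFunctionFieldBar N))
    (Fermat.Agent.S30.Gen.genusFF_ge N)
    (fun k => BK5154.card_torsion N p hp k)

/-- **The geometric leaves of GALREP.** -/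
theorem geoLeaves : GeoLeaves := by
  intro N p _ hp
  exact ⟨Rev4780.openStabilizers N, Rev4780.galoisHeckeCommute N p,
    Kes7734.unramifiedTorsion_of_goodSpec N p (Kes7734.goodSpec N p),
    Kes7734.frobeniusRelation_of_goodSpec N p (Kes7734.goodSpec N p),
    BK5154.torsionFinite N p hp.out, exists_bettiKummer_faithful N p hp.out⟩

end Fermat.Agent.GalRep.Geo7734
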