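/-
GALREP T1 TATE-ALG, part 1 (helper954): the `p`-adic Tate module of an abstract abelian group `J`
as the `ℤ_[p]`-module of compatible sequences.  Pure algebra, Mathlib only.
-/
import Mathlib

set_option autoImplicit false
set_option linter.unusedSectionVars false
set_option linter.style.haveILetI false

namespace Fermat.Agent.GalRep.TateAlg954

open PadicInt

section Basic

variable (p : ℕ) [hp : Fact p.Prime] (J : Type) [AddCommGroup J]

/-- compatible sequences `(x_n)`, `x_0 = 0`, `p • x_{n+1} = x_n` -/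
def tateSeq : AddSubgroup (ℕ → J) where
  carrier := {x | x 0 = 0 ∧ ∀ n, p • x (n + 1) = x n}
  zero_mem' := ⟨rfl, fun n => by simp⟩
  add_mem' := by
    rintro x y ⟨hx0, hx⟩ ⟨hy0, hy⟩
    exact ⟨by simp [hx0, hy0], fun n => by simp [smul_add, hx n, hy n]⟩
  neg_mem' := by
    rintro x ⟨hx0, hx⟩
    exact ⟨by simp [hx0], fun n => by simp [hx n]⟩

variable {p J}

theorem tateSeq_zero (x : tateSeq p J) : x.1 0 = 0 := x.2.1

theorem tateSeq_succ (x : tateSeq p J) (n : ℕ) : p • x.1 (n + 1) = x.1 n := x.2.2 n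

theorem tateSeq_pow_add (x : tateSeq p J) (n k : ℕ) : p ^ k • x.1 (n + k) = x.1 n := by
  induction k with
  | zero => simp
  | succ k ih =>
    rw [pow_succ, mul_smul, ← add_assoc, tateSeq_succ, ih]

theorem tateSeq_pow (x : tateSeq p J) (n : ℕ) : p ^ n • x.1 n = 0 := by
  have h := tateSeq_pow_add x 0 n
  rw [zero_add] at h
  rw [h, tateSeq_zero]

theorem tateSeq_ext {x y : tateSeq p J} (h : ∀ n, x.1 n = y.1 n) : x = y :=
  Subtype.ext (funext h)

omit hp in
theorem nsmul_eq_of_modEq {n a b : ℕ} {y : J} (hy : p ^ n • y = 0) (h : a ≡ b [MOD p ^ n]) :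
    a • y = b • y := by
  have key : ∀ a : ℕ, a • y = (a % p ^ n) • y := fun a => by
    conv_lhs => rw [← Nat.mod_add_div a (p ^ n)]
    rw [add_smul, mul_comm, mul_smul, hy, smul_zero, add_zero]
  rw [key a, key b, h]

variable (p) in
/-- residue of a `p`-adic integer modulo `p ^ n`, as a natural number -/
noncomputable def rp (n : ℕ) (a : ℤ_[p]) : ℕ := (toZModPow n a).val

theorem rp_add (n : ℕ) (a b : ℤ_[p]) : rp p n (a + b) ≡ rp p n a + rp p n b [MOD p ^ n] := by
  haveI : NeZero (p ^ n) := ⟨pow_ne_zero n hp.out.ne_zero⟩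
  unfold rp
  rw [map_add, ZMod.val_add]
  exact Nat.mod_modEq _ _

theorem rp_mul (n : ℕ) (a b : ℤ_[p]) : rp p n (a * b) ≡ rp p n a * rp p n b [MOD p ^ n] := by
  unfold rp
  rw [map_mul, ZMod.val_mul]
  exact Nat.mod_modEq _ _

theorem rp_one (n : ℕ) : rp p n 1 ≡ 1 [MOD p ^ n] := by
  unfold rp
  rw [map_one, ZMod.val_one_eq_one_mod]
  exact Nat.mod_modEq _ _

theorem rp_zero (n : ℕ) : rp p n 0 = 0 := by
  unfold rp
  rw [map_zero, ZMod.val_zero]

theorem rp_natCast (n k : ℕ) : rp p n (k : ℤ_[p]) ≡ k [MOD p ^ n] := by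
  unfold rp
  rw [map_natCast, ZMod.val_natCast]
  exact Nat.mod_modEq _ _

theorem rp_succ (n : ℕ) (a : ℤ_[p]) : rp p (n + 1) a ≡ rp p n a [MOD p ^ n] := by
  have h := congrArg (fun f => f a) (zmod_cast_comp_toZModPow (p := p) n (n + 1) (Nat.le_succ n))
  simp only [RingHom.comp_apply, ZMod.castHom_apply] at h
  unfold rp
  rw [← h, ← ZMod.natCast_val, ZMod.val_natCast]
  exact (Nat.mod_modEq _ _).symm

theorem rp_pow_mul (n : ℕ) (w : ℤ_[p]) : rp p n ((p : ℤ_[p]) ^ n * w) = 0 := by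
  unfold rp
  rw [map_mul, map_pow, map_natCast, ← Nat.cast_pow, ZMod.natCast_self, zero_mul, ZMod.val_zero]

theorem rp_eq_of_sub_mem {n : ℕ} {a b : ℤ_[p]} (h : a - b ∈ Ideal.span {(p : ℤ_[p]) ^ n}) :
    rp p n a = rp p n b := by
  unfold rp
  rw [← ker_toZModPow, RingHom.mem_ker, map_sub, sub_eq_zero] at h
  rw [h]

noncomputable instance instSMulTateSeq : SMul ℤ_[p] (tateSeq p J) where
  smul a x := ⟨fun n => rp p n a • x.1 n, by
    refine ⟨by simp [tateSeq_zero], fun n => ?_⟩
    rw [smul_comm, tateSeq_succ]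
    exact nsmul_eq_of_modEq (tateSeq_pow x n) (rp_succ n a)⟩

theorem smul_apply (a : ℤ_[p]) (x : tateSeq p J) (n : ℕ) : (a • x).1 n = rp p n a • x.1 n := rfl

noncomputable instance instModuleTateSeq : Module ℤ_[p] (tateSeq p J) where
  one_smul x := tateSeq_ext fun n => by
    rw [smul_apply, nsmul_eq_of_modEq (tateSeq_pow x n) (rp_one n), one_smul]
  mul_smul a b x := tateSeq_ext fun n => by
    rw [smul_apply, smul_apply, smul_apply, nsmul_eq_of_modEq (tateSeq_pow x n) (rp_mul n a b),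
      mul_smul]
  smul_zero a := tateSeq_ext fun n => by
    rw [smul_apply]; exact smul_zero _
  smul_add a x y := tateSeq_ext fun n => by
    simp only [smul_apply, AddSubgroup.coe_add, Pi.add_apply, smul_add]
  add_smul a b x := tateSeq_ext fun n => by
    rw [smul_apply, nsmul_eq_of_modEq (tateSeq_pow x n) (rp_add n a b), add_smul]
    rfl
  zero_smul x := tateSeq_ext fun n => by
    rw [smul_apply, rp_zero, zero_smul]; rfl

theorem natCast_smul_apply (k : ℕ) (x : tateSeq p J) (n : ℕ) :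
    ((k : ℤ_[p]) • x).1 n = k • x.1 n := by
  rw [smul_apply]
  exact nsmul_eq_of_modEq (tateSeq_pow x n) (rp_natCast n k)

theorem pow_smul_apply_self (n : ℕ) (w : tateSeq p J) : (((p : ℤ_[p]) ^ n) • w).1 n = 0 := by
  rw [← Nat.cast_pow, natCast_smul_apply, tateSeq_pow]

theorem pow_smul_apply_add (n k : ℕ) (w : tateSeq p J) :
    (((p : ℤ_[p]) ^ n) • w).1 (k + n) = w.1 k := by
  rw [← Nat.cast_pow, natCast_smul_apply, tateSeq_pow_add]

/-- the kernel of the `n`-th component is `p ^ n • M` -/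
theorem exists_eq_pow_smul (x : tateSeq p J) (n : ℕ) (h : x.1 n = 0) :
    ∃ w : tateSeq p J, x = ((p : ℤ_[p]) ^ n) • w := by
  refine ⟨⟨fun k => x.1 (k + n), by simpa using h, fun k => ?_⟩, tateSeq_ext fun k => ?_⟩
  · have := tateSeq_succ x (k + n)
    rwa [Nat.add_right_comm] at this
  · rw [← Nat.cast_pow, natCast_smul_apply]
    exact (tateSeq_pow_add x k n).symm

theorem eq_zero_of_forall_pow_smul (x : tateSeq p J)
    (h : ∀ n : ℕ, ∃ w : tateSeq p J, x = ((p : ℤ_[p]) ^ n) • w) : x = 0 :=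
  tateSeq_ext fun n => by
    obtain ⟨w, hw⟩ := h n
    rw [hw, pow_smul_apply_self]; rfl

theorem pow_smul_eq_zero (k : ℕ) (x : tateSeq p J) (h : ((p : ℤ_[p]) ^ k) • x = 0) : x = 0 :=
  tateSeq_ext fun n => by
    have := pow_smul_apply_add k n x
    rw [h] at this
    exact this.symm

/-- the Tate module is torsion free over `ℤ_[p]` -/
theorem smul_eq_zero_imp (a : ℤ_[p]) (x : tateSeq p J) (ha : a ≠ 0) (h : a • x = 0) : x = 0 := by
  obtain ⟨u, k, hu⟩ : ∃ (u : ℤ_[p]ˣ) (k : ℕ), a = (u : ℤ_[p]) * (p : ℤ_[p]) ^ k :=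
    ⟨_, _, PadicInt.unitCoeff_spec ha⟩
  apply pow_smul_eq_zero (p := p) k
  have h2 : ((u⁻¹ : ℤ_[p]ˣ) : ℤ_[p]) • (a • x) = 0 := by rw [h, smul_zero]
  rwa [smul_smul, hu, ← mul_assoc, Units.inv_mul, one_mul] at h2

instance instIsTorsionFreeTateSeq : Module.IsTorsionFree ℤ_[p] (tateSeq p J) where
  isSMulRegular r hr := by
    intro m₁ m₂ h
    have hr0 : r ≠ 0 := hr.ne_zero
    have h' : r • (m₁ - m₂) = 0 := by
      rw [smul_sub]; exact sub_eq_zero.mpr h
    exact sub_eq_zero.mp (smul_eq_zero_imp r _ hr0 h')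

/-- if `J[p]` is finite, the Tate module is a finitely generated `ℤ_[p]`-module -/
theorem finite_tateSeq (hfin : Finite {y : J // p • y = 0}) :
    Module.Finite ℤ_[p] (tateSeq p J) := by
  classical
  let π : tateSeq p J → {y : J // p • y = 0} := fun v =>
    ⟨v.1 1, by have := tateSeq_pow v 1; simpa using this⟩
  have hsec : ∀ y : {y : J // p • y = 0}, ∃ m : tateSeq p J, (∃ v, π v = y) → π m = y := by
    intro y
    by_cases h : ∃ v, π v = y
    · obtain ⟨v, hv⟩ := h
      exact ⟨v, fun _ => hv⟩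
    · exact ⟨0, fun h' => absurd h' h⟩
  choose s hs using hsec
  have hstep : ∀ v : tateSeq p J, ∃ w : tateSeq p J, v = s (π v) + (p : ℤ_[p]) • w := by
    intro v
    have h2 : (s (π v)).1 1 = v.1 1 := congrArg Subtype.val (hs (π v) ⟨v, rfl⟩)
    have h1 : (v - s (π v)).1 1 = 0 := by
      rw [AddSubgroup.coe_sub, Pi.sub_apply, h2, sub_self]
    obtain ⟨w, hw⟩ := exists_eq_pow_smul (v - s (π v)) 1 h1
    rw [pow_one] at hw
    exact ⟨w, by rw [← hw]; abel⟩
  choose step hstep' using hstep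
  haveI := Fintype.ofFinite {y : J // p • y = 0}
  refine ⟨⟨Finset.univ.image s, ?_⟩⟩
  rw [eq_top_iff]
  rintro v -
  set vs : ℕ → tateSeq p J := fun n => step^[n] v with hvs
  set ys : ℕ → {y : J // p • y = 0} := fun n => π (vs n) with hys
  have hrec : ∀ n, vs n = s (ys n) + (p : ℤ_[p]) • vs (n + 1) := by
    intro n
    have := hstep' (vs n)
    simp only [hvs, hys, Function.iterate_succ_apply'] at this ⊢
    exact this
  set c : ℕ → {y : J // p • y = 0} → ℤ_[p] := fun n y =>
    ∑ k ∈ Finset.range n, if ys k = y then (p : ℤ_[p]) ^ k else 0 with hc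
  have hc_succ : ∀ n y, c (n + 1) y = c n y + if ys n = y then (p : ℤ_[p]) ^ n else 0 := by
    intro n y
    simp only [hc, Finset.sum_range_succ]
  have hsum : ∀ n, v - ∑ y, c n y • s y = ((p : ℤ_[p]) ^ n) • vs n := by
    intro n
    induction n with
    | zero => simp [hc, hvs]
    | succ n ih =>
      have e1 : ∑ y, c (n + 1) y • s y = ∑ y, c n y • s y + ((p : ℤ_[p]) ^ n) • s (ys n) := by
        simp only [hc_succ, add_smul, Finset.sum_add_distrib, ite_smul, zero_smul]
        rw [Finset.sum_ite_eq]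
        simp
      rw [e1, ← sub_sub, ih, ← smul_sub, pow_succ, mul_smul]
      congr 1
      rw [hrec n]
      abel
  have hcauchy : ∀ y m n, m ≤ n → c n y - c m y ∈ Ideal.span {(p : ℤ_[p]) ^ m} := by
    intro y m n hmn
    induction n, hmn using Nat.le_induction with
    | base => simp
    | succ n hmn ih =>
      rw [hc_succ, add_sub_right_comm]
      refine Ideal.add_mem _ ih ?_
      split_ifs
      · exact Ideal.mem_span_singleton.mpr (pow_dvd_pow _ hmn)
      · exact Ideal.zero_mem _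
  have hlim : ∀ y, ∃ L : ℤ_[p], ∀ n, L - c n y ∈ Ideal.span {(p : ℤ_[p]) ^ n} := by
    intro y
    have hpre := (inferInstance : IsAdicComplete (IsLocalRing.maximalIdeal ℤ_[p]) ℤ_[p]).toIsPrecomplete
    have hI : ∀ n : ℕ, (IsLocalRing.maximalIdeal ℤ_[p] ^ n • ⊤ : Submodule ℤ_[p] ℤ_[p]) =
        Ideal.span {(p : ℤ_[p]) ^ n} := by
      intro n
      rw [PadicInt.maximalIdeal_eq_span_p, Ideal.span_singleton_pow, smul_eq_mul, Ideal.mul_top]
    obtain ⟨L, hL⟩ := hpre.prec' (fun n => c n y) (by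
      intro m n hmn
      rw [SModEq.sub_mem, hI]
      have := hcauchy y m n hmn
      rw [← neg_sub] at this
      exact (Ideal.neg_mem_iff _).mp this)
    refine ⟨L, fun n => ?_⟩
    have := hL n
    rw [SModEq.sub_mem, hI] at this
    rw [← neg_sub]
    exact (Ideal.neg_mem_iff _).mpr this
  choose L hL using hlim
  have hv : v = ∑ y, L y • s y := by
    rw [← sub_eq_zero]
    apply eq_zero_of_forall_pow_smul
    intro n
    have hd : ∀ y, ∃ d : ℤ_[p], L y - c n y = (p : ℤ_[p]) ^ n * d := fun y =>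
      Ideal.mem_span_singleton.mp (hL y n)
    choose d hd using hd
    refine ⟨vs n - ∑ y, d y • s y, ?_⟩
    rw [smul_sub, ← hsum n, Finset.smul_sum]
    have : ∑ y, L y • s y = ∑ y, c n y • s y + ∑ y, ((p : ℤ_[p]) ^ n) • d y • s y := by
      rw [← Finset.sum_add_distrib]
      refine Finset.sum_congr rfl fun y _ => ?_
      rw [smul_smul, ← hd y, ← add_smul]
      congr 1
      ring
    rw [this]
    abel
  rw [hv]
  refine Submodule.sum_mem _ fun y _ => Submodule.smul_mem _ _ (Submodule.subset_span ?_)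
  simp

/-- if `J[p]` is finite, the Tate module is a free `ℤ_[p]`-module -/
theorem free_tateSeq (hfin : Finite {y : J // p • y = 0}) :
    Module.Free ℤ_[p] (tateSeq p J) :=
  haveI := finite_tateSeq hfin
  Module.free_of_finite_type_torsion_free'

/-- an additive endomorphism of `J` acts on the Tate module -/
noncomputable def mapSeq (f : J →+ J) : tateSeq p J →ₗ[ℤ_[p]] tateSeq p J where
  toFun x := ⟨fun n => f (x.1 n), by simp [tateSeq_zero], fun n => by
    rw [← map_nsmul, tateSeq_succ]⟩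
  map_add' x y := tateSeq_ext fun n => by simp
  map_smul' a x := tateSeq_ext fun n => by simp [smul_apply, map_nsmul]

theorem mapSeq_apply (f : J →+ J) (x : tateSeq p J) (n : ℕ) : (mapSeq f x).1 n = f (x.1 n) := rfl

end Basic

end Fermat.Agent.GalRep.TateAlg954
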