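/-
GALREP T1 TATE-ALG, part 2 (helper954): `Nonempty (TateDatum N p)` (interface of helper5140,
`Interface5140.lean`) from finite-level data on an abstract abelian group `J` with Hecke and Galois
actions.  Pure algebra; see notes/GALREP_TATEALG_helper954.md.
-/
import Fermat.Agent.GalRep.Interface5140
import Fermat.Agent.GalRep.TateSeq954

set_option autoImplicit false
set_option linter.unusedSectionVars false
set_option linter.style.haveILetI false

namespace Fermat.Agent.GalRep.TateAlg954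

open PadicInt

section Hecke

variable {p : ℕ} [Fact p.Prime] {ι : Type} {M : Type} [AddCommGroup M] [Module ℤ_[p] M]
  (Tl : ι → Module.End ℤ_[p] M) (hcomm : ∀ i j, Tl i * Tl j = Tl j * Tl i)

include hcomm in
theorem isMulCommutative_adjoin_range :
    IsMulCommutative (Algebra.adjoin ℤ_[p] (Set.range Tl)) :=
  Algebra.isMulCommutative_adjoin ℤ_[p] (by
    rintro _ ⟨i, rfl⟩ _ ⟨j, rfl⟩
    exact hcomm i j)

open scoped IsMulCommutative in
/-- evaluation of polynomials at a commuting family of endomorphisms (into the adjoin) -/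
noncomputable def evalAux :
    MvPolynomial ι ℤ_[p] →ₐ[ℤ_[p]] (Algebra.adjoin ℤ_[p] (Set.range Tl)) :=
  haveI := isMulCommutative_adjoin_range Tl hcomm
  MvPolynomial.aeval fun i => ⟨Tl i, Algebra.subset_adjoin (Set.mem_range_self i)⟩

/-- evaluation of polynomials at a commuting family of endomorphisms -/
noncomputable def evalEnd : MvPolynomial ι ℤ_[p] →ₐ[ℤ_[p]] Module.End ℤ_[p] M :=
  (Algebra.adjoin ℤ_[p] (Set.range Tl)).val.comp (evalAux Tl hcomm)

open scoped IsMulCommutative in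
theorem evalEnd_X (i : ι) : evalEnd Tl hcomm (MvPolynomial.X i) = Tl i := by
  haveI := isMulCommutative_adjoin_range Tl hcomm
  show ((evalAux Tl hcomm (MvPolynomial.X i) : Algebra.adjoin ℤ_[p] (Set.range Tl)) :
    Module.End ℤ_[p] M) = Tl i
  rw [evalAux, MvPolynomial.aeval_X]

theorem evalEnd_commute (f : Module.End ℤ_[p] M) (hf : ∀ i, f * Tl i = Tl i * f)
    (P : MvPolynomial ι ℤ_[p]) : f * evalEnd Tl hcomm P = evalEnd Tl hcomm P * f := by
  have hle : Algebra.adjoin ℤ_[p] (Set.range Tl) ≤ Subalgebra.centralizer ℤ_[p] {f} := by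
    apply Algebra.adjoin_le
    rintro _ ⟨i, rfl⟩
    rw [SetLike.mem_coe, Subalgebra.mem_centralizer_iff]
    intro g hg
    rw [Set.mem_singleton_iff] at hg
    subst hg
    exact hf i
  have h := hle (evalAux Tl hcomm P).2
  rw [Subalgebra.mem_centralizer_iff] at h
  exact h f rfl

/-- the module structure over the polynomial ring given by a commuting family -/
@[reducible] noncomputable def heckeModule : Module (MvPolynomial ι ℤ_[p]) M :=
  Module.compHom M (evalEnd Tl hcomm).toRingHom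

theorem heckeModule_smul (P : MvPolynomial ι ℤ_[p]) (v : M) :
    (letI := heckeModule Tl hcomm; P • v) = evalEnd Tl hcomm P v := rfl

theorem heckeModule_tower :
    letI := heckeModule Tl hcomm
    IsScalarTower ℤ_[p] (MvPolynomial ι ℤ_[p]) M := by
  letI := heckeModule Tl hcomm
  refine ⟨fun a P v => ?_⟩
  show evalEnd Tl hcomm (a • P) v = a • evalEnd Tl hcomm P v
  rw [map_smul]
  rfl

end Hecke

section Datum

variable {N p : ℕ} [NeZero N] [Fact p.Prime] (J : Type) [AddCommGroup J] [DistribMulAction GQ J]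
  (T : GoodPrime N p → J →+ J)

/-- Hecke operators on the Tate module -/
noncomputable def Tlin (ℓ : GoodPrime N p) : Module.End ℤ_[p] (tateSeq p J) := mapSeq (T ℓ)

variable {J T} in
theorem Tlin_comm
    (hTcomm : ∀ ℓ ℓ' (x : J), (∃ n : ℕ, p ^ n • x = 0) → T ℓ (T ℓ' x) = T ℓ' (T ℓ x))
    (ℓ ℓ' : GoodPrime N p) : Tlin J T ℓ * Tlin J T ℓ' = Tlin J T ℓ' * Tlin J T ℓ :=
  LinearMap.ext fun v => tateSeq_ext fun n => hTcomm ℓ ℓ' _ ⟨n, tateSeq_pow v n⟩

variable (p) in
/-- Galois action on the Tate module -/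
noncomputable def galLin (σ : GQ) : Module.End ℤ_[p] (tateSeq p J) :=
  mapSeq (DistribSMul.toAddMonoidHom J σ)

theorem galLin_apply (σ : GQ) (v : tateSeq p J) (n : ℕ) : (galLin p J σ v).1 n = σ • v.1 n := rfl

variable {J T} in
theorem galLin_Tlin
    (hgal : ∀ (σ : GQ) ℓ (x : J), (∃ n : ℕ, p ^ n • x = 0) → σ • T ℓ x = T ℓ (σ • x))
    (σ : GQ) (ℓ : GoodPrime N p) : galLin p J σ * Tlin J T ℓ = Tlin J T ℓ * galLin p J σ :=
  LinearMap.ext fun v => tateSeq_ext fun n => hgal σ ℓ _ ⟨n, tateSeq_pow v n⟩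

/-- **TATE-ALG, first half**: the Tate module of `J` is a `TateDatum` as soon as it is faithful. -/
theorem nonempty_tateDatum_of_faithful
    (hTcomm : ∀ ℓ ℓ' (x : J), (∃ n : ℕ, p ^ n • x = 0) → T ℓ (T ℓ' x) = T ℓ' (T ℓ x))
    (hgal : ∀ (σ : GQ) ℓ (x : J), (∃ n : ℕ, p ^ n • x = 0) → σ • T ℓ x = T ℓ (σ • x))
    (hfin : Finite {x : J // p • x = 0})
    (hlevel : ∀ n : ℕ, ∃ L : IntermediateField ℚ (AlgebraicClosure ℚ), FiniteDimensional ℚ L ∧
        ∀ σ : GQ, (∀ y ∈ L, σ y = y) → ∀ x : J, p ^ n • x = 0 → σ • x = x)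
    (hunr : ∀ ℓ : GoodPrime N p, ∀ A : ValuationSubring (AlgebraicClosure ℚ), A.LiesOverPrime ℓ →
        ∀ σ ∈ A.inertiaSubgroupIn ℚ, ∀ x : J, (∃ n : ℕ, p ^ n • x = 0) → σ • x = x)
    (hfrob : ∀ ℓ : GoodPrime N p, ∀ A : ValuationSubring (AlgebraicClosure ℚ),
        A.LiesOverPrime ℓ → ∀ σ : GQ, A.IsFrobeniusAt σ ℓ → ∀ x : J, (∃ n : ℕ, p ^ n • x = 0) →
          σ • σ • x - T ℓ (σ • x) + (ℓ : ℕ) • x = 0)
    (hfaith : ∀ (S : Set ℕ) (P : MvPolynomial (GoodPrimeOutside N p S) ℤ_[p]),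
        (∀ v : tateSeq p J, evalEnd (Tlin J T) (Tlin_comm hTcomm)
          (MvPolynomial.rename Subtype.val P) v = 0) →
        P ∈ (heckeRelations N p S).map (MvPolynomial.map (Int.castRingHom ℤ_[p]))) :
    Nonempty (TateDatum N p) := by
  letI : Module (HeckePoly N p) (tateSeq p J) := heckeModule (Tlin J T) (Tlin_comm hTcomm)
  haveI : IsScalarTower ℤ_[p] (HeckePoly N p) (tateSeq p J) :=
    heckeModule_tower (Tlin J T) (Tlin_comm hTcomm)
  haveI := finite_tateSeq hfin
  haveI := free_tateSeq hfin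
  refine ⟨{ M := tateSeq p J
            ρ := { toFun := fun σ =>
                    { toFun := fun v => galLin p J σ v
                      map_add' := map_add _
                      map_smul' := fun P v =>
                        congrArg (fun f : Module.End ℤ_[p] (tateSeq p J) => f v)
                          (evalEnd_commute (Tlin J T) (Tlin_comm hTcomm) (galLin p J σ)
                            (galLin_Tlin hgal σ) P) }
                   map_one' := LinearMap.ext fun v => tateSeq_ext fun n => one_smul _ _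
                   map_mul' := fun σ τ => LinearMap.ext fun v => tateSeq_ext fun n =>
                    mul_smul σ τ _ }
            continuous := ?_
            unramified := ?_
            frobenius := ?_
            faithful := ?_ }⟩
  · intro n
    obtain ⟨L, hL, h⟩ := hlevel n
    refine ⟨L, hL, fun σ hσ v => ?_⟩
    apply exists_eq_pow_smul
    show σ • v.1 n - v.1 n = 0
    rw [h σ hσ _ (tateSeq_pow v n), sub_self]
  · intro ℓ A hA σ hσ
    refine LinearMap.ext fun v => tateSeq_ext fun n => ?_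
    exact hunr ℓ A hA σ hσ _ ⟨n, tateSeq_pow v n⟩
  · intro ℓ A hA σ hσ v
    refine tateSeq_ext fun n => ?_
    have h := hfrob ℓ A hA σ hσ (v.1 n) ⟨n, tateSeq_pow v n⟩
    have hX : ∀ w : tateSeq p J, (MvPolynomial.X ℓ : HeckePoly N p) • w = Tlin J T ℓ w := by
      intro w
      show evalEnd (Tlin J T) (Tlin_comm hTcomm) (MvPolynomial.X ℓ) w = _
      rw [evalEnd_X]
    rw [hX]
    show σ • σ • v.1 n - T ℓ (σ • v.1 n) + ((((ℓ : ℕ) : ℤ_[p]) • v : tateSeq p J)).1 n = 0
    rw [natCast_smul_apply]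
    exact h
  · intro S P hP
    exact hfaith S P hP

end Datum

section Flat

variable {p : ℕ} [Fact p.Prime]

/-- **Flat base change of a kernel, in coordinates.**  `Φ` a `ℤ`-linear map from a polynomial ring
to a finite free `ℤ`-module; a polynomial with `ℤ_[p]`-coefficients which lies in the kernel of
`ℤ_[p] ⊗ Φ` is a `ℤ_[p]`-combination of integral polynomials in the kernel of `Φ`. -/
theorem exists_decomp_of_flat {σ : Type} {V : Type} [AddCommGroup V]
    (Φ : MvPolynomial σ ℤ →ₗ[ℤ] V) {κ : Type} [Fintype κ] (e : Module.Basis κ ℤ V)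
    (P : MvPolynomial σ ℤ_[p])
    (hP : ∀ k : κ, ∑ m ∈ P.support, MvPolynomial.coeff m P *
      ((e.repr (Φ (MvPolynomial.monomial m 1)) k : ℤ) : ℤ_[p]) = 0) :
    ∃ (n : ℕ) (y : Fin n → ℤ_[p]) (Q : Fin n → MvPolynomial σ ℤ), (∀ j, Φ (Q j) = 0) ∧
      P = ∑ j, MvPolynomial.C (y j) * MvPolynomial.map (Int.castRingHom ℤ_[p]) (Q j) := by
  classical
  let x : (↥P.support →₀ ℤ) →ₗ[ℤ] ℤ_[p] :=
    Finsupp.linearCombination ℤ (fun m : ↥P.support => MvPolynomial.coeff m.1 P)
  let g : κ → (↥P.support →₀ ℤ) := fun k =>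
    Finsupp.equivFunOnFinite.symm (fun m : ↥P.support => e.repr (Φ (MvPolynomial.monomial m.1 1)) k)
  let f : (κ →₀ ℤ) →ₗ[ℤ] (↥P.support →₀ ℤ) := Finsupp.linearCombination ℤ g
  have hg : ∀ k, g k = ∑ m : ↥P.support,
      (e.repr (Φ (MvPolynomial.monomial m.1 1)) k) • Finsupp.single m (1 : ℤ) := by
    intro k
    conv_lhs => rw [← Finsupp.univ_sum_single (g k)]
    refine Finset.sum_congr rfl fun m _ => ?_
    rw [Finsupp.smul_single, smul_eq_mul, mul_one]
    rfl
  have hxf : x ∘ₗ f = 0 := by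
    refine Finsupp.lhom_ext fun k b => ?_
    rw [LinearMap.comp_apply, LinearMap.zero_apply]
    show x (Finsupp.linearCombination ℤ g (Finsupp.single k b)) = 0
    rw [Finsupp.linearCombination_single, map_smul, hg, map_sum]
    have : ∑ m : ↥P.support, x ((e.repr (Φ (MvPolynomial.monomial m.1 1)) k) •
        Finsupp.single m (1 : ℤ)) = 0 := by
      have h2 := hP k
      rw [← Finset.sum_coe_sort] at h2
      rw [← h2]
      refine Finset.sum_congr rfl fun m _ => ?_
      rw [map_smul]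
      show _ • Finsupp.linearCombination ℤ (fun m : ↥P.support => MvPolynomial.coeff m.1 P)
        (Finsupp.single m 1) = _
      rw [Finsupp.linearCombination_single, one_smul, zsmul_eq_mul, mul_comm]
    rw [this, smul_zero]
  obtain ⟨n, a, y, hya, haf⟩ := Module.Flat.exists_factorization_of_comp_eq_zero_of_free hxf
  refine ⟨n, fun j => y (Finsupp.single j 1), fun j => ∑ m : ↥P.support,
    (a (Finsupp.single m 1) j) • MvPolynomial.monomial m.1 (1 : ℤ), fun j => ?_, ?_⟩
  · apply e.repr.injective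
    ext k
    rw [map_sum, map_sum, map_zero, Finsupp.coe_finsetSum, Finset.sum_apply, Finsupp.zero_apply]
    have h1 : a (g k) j = 0 := by
      have := congrArg (fun φ => φ (Finsupp.single k 1) j) haf
      simp only [LinearMap.comp_apply, LinearMap.zero_apply, Finsupp.zero_apply] at this
      have h3 : f (Finsupp.single k 1) = g k := by
        show Finsupp.linearCombination ℤ g (Finsupp.single k 1) = g k
        rw [Finsupp.linearCombination_single, one_smul]
      rwa [h3] at this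
    rw [hg, map_sum, Finsupp.coe_finsetSum, Finset.sum_apply] at h1
    rw [← h1]
    refine Finset.sum_congr rfl fun m _ => ?_
    rw [map_smul, map_smul, map_smul, Finsupp.smul_apply, Finsupp.smul_apply, smul_eq_mul,
      smul_eq_mul, mul_comm]
  · have hcoeff : ∀ m : ↥P.support, MvPolynomial.coeff m.1 P =
        ∑ j, y (Finsupp.single j 1) * ((a (Finsupp.single m 1) j : ℤ) : ℤ_[p]) := by
      intro m
      have h1 : x (Finsupp.single m 1) = MvPolynomial.coeff m.1 P := by
        show Finsupp.linearCombination ℤ (fun m : ↥P.support => MvPolynomial.coeff m.1 P)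
          (Finsupp.single m 1) = _
        rw [Finsupp.linearCombination_single, one_smul]
      rw [← h1, hya, LinearMap.comp_apply]
      conv_lhs => rw [← Finsupp.univ_sum_single (a (Finsupp.single m 1))]
      rw [map_sum]
      refine Finset.sum_congr rfl fun j _ => ?_
      have : Finsupp.single j (a (Finsupp.single m 1) j) =
          (a (Finsupp.single m 1) j) • Finsupp.single j (1 : ℤ) := by
        rw [Finsupp.smul_single, smul_eq_mul, mul_one]
      rw [this, map_smul, zsmul_eq_mul, mul_comm]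
    conv_lhs => rw [← MvPolynomial.support_sum_monomial_coeff P]
    rw [← Finset.sum_coe_sort]
    simp only [map_sum, Finset.mul_sum]
    rw [Finset.sum_comm]
    refine Finset.sum_congr rfl fun m _ => ?_
    rw [hcoeff m, map_sum]
    refine Finset.sum_congr rfl fun j _ => ?_
    rw [MvPolynomial.smul_monomial, MvPolynomial.map_monomial, MvPolynomial.C_mul_monomial,
      smul_eq_mul, mul_one, eq_intCast]

end Flat

section Lam

variable {N p : ℕ} [NeZero N] [Fact p.Prime] (J : Type) [AddCommGroup J] [DistribMulAction GQ J]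
  (T : GoodPrime N p → J →+ J)
  (W : Type) [AddCommGroup W] [Module (HeckePolyZ N p) W]
  (lam : ℕ → W →+ J)
  (hlam_tors : ∀ n w, p ^ n • lam n w = 0)
  (hlam_compat : ∀ n w, p • lam (n + 1) w = lam n w)

variable (p) in
/-- `n`-th component of a compatible sequence -/
def evalSeq (n : ℕ) : tateSeq p J →+ J :=
  (Pi.evalAddMonoidHom (fun _ : ℕ => J) n).comp (tateSeq p J).subtype

theorem evalSeq_apply (n : ℕ) (x : tateSeq p J) : evalSeq p J n x = x.1 n := rfl

theorem sub_rp_mem (n : ℕ) (a : ℤ_[p]) :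
    a - (rp p n a : ℤ_[p]) ∈ Ideal.span {(p : ℤ_[p]) ^ n} := by
  haveI : NeZero (p ^ n) := ⟨pow_ne_zero n (Fact.out : p.Prime).ne_zero⟩
  rw [← ker_toZModPow, RingHom.mem_ker, map_sub, map_natCast]
  unfold rp
  rw [ZMod.natCast_zmod_val, sub_self]

/-- the map `W → T_p J` given by a compatible system `W → J[p^n]` -/
noncomputable def Lam : W →+ tateSeq p J where
  toFun w := ⟨fun n => lam n w, by simpa using hlam_tors 0 w, fun n => hlam_compat n w⟩
  map_zero' := tateSeq_ext fun n => map_zero _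
  map_add' w w' := tateSeq_ext fun n => map_add _ _ _

theorem Lam_apply (w : W) (n : ℕ) : (Lam J W lam hlam_tors hlam_compat w).1 n = lam n w := rfl

variable {J T W lam} in
theorem Lam_smul
    (hTcomm : ∀ ℓ ℓ' (x : J), (∃ n : ℕ, p ^ n • x = 0) → T ℓ (T ℓ' x) = T ℓ' (T ℓ x))
    (hlam_hecke : ∀ n ℓ w, lam n ((MvPolynomial.X ℓ : HeckePolyZ N p) • w) = T ℓ (lam n w))
    (Q : HeckePolyZ N p) (w : W) :
    Lam J W lam hlam_tors hlam_compat (Q • w) =
      evalEnd (Tlin J T) (Tlin_comm hTcomm) (MvPolynomial.map (Int.castRingHom ℤ_[p]) Q)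
        (Lam J W lam hlam_tors hlam_compat w) := by
  induction Q using MvPolynomial.induction_on generalizing w with
  | C a =>
    have h1 : (MvPolynomial.C a : HeckePolyZ N p) • w = a • w := by
      rw [← MvPolynomial.algebraMap_eq, algebraMap_smul]
    rw [h1, map_zsmul, MvPolynomial.map_C, ← MvPolynomial.algebraMap_eq, AlgHom.commutes,
      Module.algebraMap_end_apply, eq_intCast, Int.cast_smul_eq_zsmul]
  | add P Q hP hQ =>
    rw [add_smul, map_add, hP, hQ, map_add, map_add, LinearMap.add_apply]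
  | mul_X Q ℓ ih =>
    rw [mul_smul, ih, map_mul, map_mul, MvPolynomial.map_X, evalEnd_X, Module.End.mul_apply]
    congr 1
    exact tateSeq_ext fun n => hlam_hecke n ℓ w

variable {J W lam} in
theorem Lam_indep {ι : Type} [Fintype ι] (b : Module.Basis ι ℤ W) (c : ℕ) (hc : c ≠ 0)
    (hlam_inj : ∀ n w, lam n w = 0 → ∃ w', c • w = p ^ n • w')
    (α : ι → ℤ_[p]) (h : ∑ i, α i • Lam J W lam hlam_tors hlam_compat (b i) = 0) :
    ∀ i, α i = 0 := by
  classical
  intro i
  have key : ∀ n : ℕ, (c : ℤ_[p]) * α i ∈ Ideal.span {(p : ℤ_[p]) ^ n} := by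
    intro n
    have h0 := congrArg (evalSeq p J n) h
    rw [map_sum, map_zero] at h0
    have h1 : lam n (∑ i, rp p n (α i) • b i) = 0 := by
      rw [map_sum, ← h0]
      refine Finset.sum_congr rfl fun i _ => ?_
      rw [map_nsmul]
      rfl
    obtain ⟨w', hw'⟩ := hlam_inj n _ h1
    have h2 : (c : ℤ) * (rp p n (α i) : ℤ) = (p : ℤ) ^ n * b.repr w' i := by
      have := congrArg (fun w => b.repr w i) hw'
      simpa [Finsupp.single_apply] using this
    have h3 := sub_rp_mem n (α i)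
    have h4 : (c : ℤ_[p]) * α i =
        (c : ℤ_[p]) * (α i - (rp p n (α i) : ℤ_[p])) + (p : ℤ_[p]) ^ n * ((b.repr w' i : ℤ) : ℤ_[p]) := by
      have h2' : ((c : ℤ_[p])) * ((rp p n (α i) : ℕ) : ℤ_[p]) =
          (p : ℤ_[p]) ^ n * ((b.repr w' i : ℤ) : ℤ_[p]) := by
        exact_mod_cast congrArg (Int.cast : ℤ → ℤ_[p]) h2
      rw [← h2']
      ring
    rw [h4]
    exact Ideal.add_mem _ (Ideal.mul_mem_left _ _ h3) (Ideal.mul_mem_right _ _
      (Ideal.mem_span_singleton_self _))
  have hzero : (c : ℤ_[p]) * α i = 0 := by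
    rw [← PadicInt.ext_of_toZModPow]
    intro n
    have := key n
    rw [← ker_toZModPow, RingHom.mem_ker] at this
    rw [this, map_zero]
  rcases mul_eq_zero.mp hzero with h | h
  · exact absurd h (Nat.cast_ne_zero.mpr hc)
  · exact h

end Lam

section Main

variable {N p : ℕ} [NeZero N] [Fact p.Prime]

/-- **TATE-ALG** (core form): `Nonempty (TateDatum N p)` from finite-level data. -/
theorem nonempty_tateDatum
    (J : Type) [AddCommGroup J] [DistribMulAction GQ J]
    (T : GoodPrime N p → J →+ J)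
    (hTcomm : ∀ ℓ ℓ' (x : J), (∃ n : ℕ, p ^ n • x = 0) → T ℓ (T ℓ' x) = T ℓ' (T ℓ x))
    (hgal : ∀ (σ : GQ) ℓ (x : J), (∃ n : ℕ, p ^ n • x = 0) → σ • T ℓ x = T ℓ (σ • x))
    (hfin : Finite {x : J // p • x = 0})
    (hlevel : ∀ n : ℕ, ∃ L : IntermediateField ℚ (AlgebraicClosure ℚ), FiniteDimensional ℚ L ∧
        ∀ σ : GQ, (∀ y ∈ L, σ y = y) → ∀ x : J, p ^ n • x = 0 → σ • x = x)
    (hunr : ∀ ℓ : GoodPrime N p, ∀ A : ValuationSubring (AlgebraicClosure ℚ), A.LiesOverPrime ℓ →
        ∀ σ ∈ A.inertiaSubgroupIn ℚ, ∀ x : J, (∃ n : ℕ, p ^ n • x = 0) → σ • x = x)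
    (hfrob : ∀ ℓ : GoodPrime N p, ∀ A : ValuationSubring (AlgebraicClosure ℚ),
        A.LiesOverPrime ℓ → ∀ σ : GQ, A.IsFrobeniusAt σ ℓ → ∀ x : J, (∃ n : ℕ, p ^ n • x = 0) →
          σ • σ • x - T ℓ (σ • x) + (ℓ : ℕ) • x = 0)
    (W : Type) [AddCommGroup W] [Module (HeckePolyZ N p) W] [Module.Free ℤ W] [Module.Finite ℤ W]
    (hann : ∀ (S : Set ℕ) (Q : MvPolynomial (GoodPrimeOutside N p S) ℤ),
        (∀ w : W, (MvPolynomial.rename Subtype.val Q : HeckePolyZ N p) • w = 0) →
          Q ∈ heckeRelations N p S)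
    (lam : ℕ → W →+ J)
    (hlam_tors : ∀ n w, p ^ n • lam n w = 0)
    (hlam_compat : ∀ n w, p • lam (n + 1) w = lam n w)
    (hlam_hecke : ∀ n ℓ w, lam n ((MvPolynomial.X ℓ : HeckePolyZ N p) • w) = T ℓ (lam n w))
    (c : ℕ) (hc : c ≠ 0)
    (hlam_inj : ∀ n w, lam n w = 0 → ∃ w', c • w = p ^ n • w') :
    Nonempty (TateDatum N p) := by
  classical
  refine nonempty_tateDatum_of_faithful J T hTcomm hgal hfin hlevel hunr hfrob ?_
  intro S P hP
  let b := Module.Free.chooseBasis ℤ W
  let Φ : MvPolynomial (GoodPrimeOutside N p S) ℤ →ₗ[ℤ] (Module.Free.ChooseBasisIndex ℤ W → W) :=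
    { toFun := fun Q i => (MvPolynomial.rename Subtype.val Q : HeckePolyZ N p) • b i
      map_add' := fun Q Q' => funext fun i => by
        simp only [map_add, add_smul, Pi.add_apply]
      map_smul' := fun z Q => funext fun i => by
        simp only [map_zsmul, smul_assoc, Pi.smul_apply, eq_intCast, Int.cast_id] }
  have hΦ : ∀ Q i, Φ Q i = (MvPolynomial.rename Subtype.val Q : HeckePolyZ N p) • b i :=
    fun _ _ => rfl
  obtain ⟨n, y, Q, hQ, hPQ⟩ := exists_decomp_of_flat (p := p) Φ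
    (Pi.basis fun _ : Module.Free.ChooseBasisIndex ℤ W => b) P (by
    rintro ⟨i, k⟩
    simp only [Pi.basis_repr, hΦ]
    set Λ := Lam J W lam hlam_tors hlam_compat with hΛ
    have hexp : MvPolynomial.rename (Subtype.val : GoodPrimeOutside N p S → GoodPrime N p) P =
        ∑ m ∈ P.support, MvPolynomial.C (MvPolynomial.coeff m P) *
          MvPolynomial.map (Int.castRingHom ℤ_[p])
            (MvPolynomial.rename Subtype.val (MvPolynomial.monomial m (1 : ℤ))) := by
      conv_lhs => rw [← MvPolynomial.support_sum_monomial_coeff P]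
      rw [map_sum]
      refine Finset.sum_congr rfl fun m _ => ?_
      rw [MvPolynomial.rename_monomial, MvPolynomial.rename_monomial, MvPolynomial.map_monomial,
        MvPolynomial.C_mul_monomial, map_one, mul_one]
    have h1 := hP (Λ (b i))
    rw [hexp, map_sum, LinearMap.sum_apply] at h1
    have h2 : ∀ m ∈ P.support,
        evalEnd (Tlin J T) (Tlin_comm hTcomm) (MvPolynomial.C (MvPolynomial.coeff m P) *
          MvPolynomial.map (Int.castRingHom ℤ_[p])
            (MvPolynomial.rename Subtype.val (MvPolynomial.monomial m (1 : ℤ)))) (Λ (b i)) =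
        ∑ k, (MvPolynomial.coeff m P * ((b.repr ((MvPolynomial.rename Subtype.val
          (MvPolynomial.monomial m (1 : ℤ)) : HeckePolyZ N p) • b i) k : ℤ) : ℤ_[p])) • Λ (b k) := by
      intro m _
      rw [MvPolynomial.C_mul', map_smul, LinearMap.smul_apply,
        ← Lam_smul hlam_tors hlam_compat hTcomm hlam_hecke]
      conv_lhs => rw [← b.sum_repr ((MvPolynomial.rename Subtype.val
          (MvPolynomial.monomial m (1 : ℤ)) : HeckePolyZ N p) • b i)]
      rw [map_sum, Finset.smul_sum]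
      refine Finset.sum_congr rfl fun k _ => ?_
      rw [map_zsmul, ← Int.cast_smul_eq_zsmul ℤ_[p], smul_smul]
    rw [Finset.sum_congr rfl h2, Finset.sum_comm] at h1
    simp only [← Finset.sum_smul] at h1
    exact Lam_indep hlam_tors hlam_compat b c hc hlam_inj _ h1 k)
  rw [hPQ]
  refine Ideal.sum_mem _ fun j _ => Ideal.mul_mem_left _ _ (Ideal.mem_map_of_mem _ (hann S (Q j) ?_))
  intro w
  have hb : ∀ i, (MvPolynomial.rename Subtype.val (Q j) : HeckePolyZ N p) • b i = 0 := fun i =>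
    congrFun (hQ j) i
  have h0 : (DistribSMul.toAddMonoidHom W
      (MvPolynomial.rename Subtype.val (Q j) : HeckePolyZ N p)).toIntLinearMap = 0 :=
    b.ext fun i => hb i
  exact congrArg (fun g : W →ₗ[ℤ] W => g w) h0

/-- **TATE-ALG** (Kummer form): the same from finite-level Kummer maps `κ n : J[p^n] → H n`
(additive, injective, Hecke-equivariant, compatible with reduction `H (n+1) → H n`) and the
reductions `ε n : W → H n` of a Betti lattice `W`, with `c • ε n w` always a Kummer class. -/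
theorem nonempty_tateDatum_of_kappa
    (J : Type) [AddCommGroup J] [DistribMulAction GQ J]
    (T : GoodPrime N p → J →+ J)
    (hTcomm : ∀ ℓ ℓ' (x : J), (∃ n : ℕ, p ^ n • x = 0) → T ℓ (T ℓ' x) = T ℓ' (T ℓ x))
    (hgal : ∀ (σ : GQ) ℓ (x : J), (∃ n : ℕ, p ^ n • x = 0) → σ • T ℓ x = T ℓ (σ • x))
    (hfin : Finite {x : J // p • x = 0})
    (hlevel : ∀ n : ℕ, ∃ L : IntermediateField ℚ (AlgebraicClosure ℚ), FiniteDimensional ℚ L ∧
        ∀ σ : GQ, (∀ y ∈ L, σ y = y) → ∀ x : J, p ^ n • x = 0 → σ • x = x)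
    (hunr : ∀ ℓ : GoodPrime N p, ∀ A : ValuationSubring (AlgebraicClosure ℚ), A.LiesOverPrime ℓ →
        ∀ σ ∈ A.inertiaSubgroupIn ℚ, ∀ x : J, (∃ n : ℕ, p ^ n • x = 0) → σ • x = x)
    (hfrob : ∀ ℓ : GoodPrime N p, ∀ A : ValuationSubring (AlgebraicClosure ℚ),
        A.LiesOverPrime ℓ → ∀ σ : GQ, A.IsFrobeniusAt σ ℓ → ∀ x : J, (∃ n : ℕ, p ^ n • x = 0) →
          σ • σ • x - T ℓ (σ • x) + (ℓ : ℕ) • x = 0)
    (W : Type) [AddCommGroup W] [Module (HeckePolyZ N p) W] [Module.Free ℤ W] [Module.Finite ℤ W]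
    (hann : ∀ (S : Set ℕ) (Q : MvPolynomial (GoodPrimeOutside N p S) ℤ),
        (∀ w : W, (MvPolynomial.rename Subtype.val Q : HeckePolyZ N p) • w = 0) →
          Q ∈ heckeRelations N p S)
    (H : ℕ → Type) [∀ n, AddCommGroup (H n)]
    (tH : ∀ n, GoodPrime N p → H n →+ H n)
    (red : ∀ n, H (n + 1) →+ H n)
    (κ : ∀ n, J → H n)
    (hκ_add : ∀ n x y, p ^ n • x = 0 → p ^ n • y = 0 → κ n (x + y) = κ n x + κ n y)
    (hκ_inj : ∀ n x, p ^ n • x = 0 → κ n x = 0 → x = 0)
    (hκ_hecke : ∀ n ℓ x, p ^ n • x = 0 → κ n (T ℓ x) = tH n ℓ (κ n x))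
    (hκ_red : ∀ n x, p ^ (n + 1) • x = 0 → κ n (p • x) = red n (κ (n + 1) x))
    (ε : ∀ n, W →+ H n)
    (hε_red : ∀ n w, red n (ε (n + 1) w) = ε n w)
    (hε_hecke : ∀ n ℓ w, ε n ((MvPolynomial.X ℓ : HeckePolyZ N p) • w) = tH n ℓ (ε n w))
    (hε_ker : ∀ n w, ε n w = 0 → ∃ w', w = p ^ n • w')
    (c : ℕ) (hc : c ≠ 0)
    (hsurj : ∀ n w, ∃ x : J, p ^ n • x = 0 ∧ κ n x = c • ε n w) :
    Nonempty (TateDatum N p) := by
  classical
  have hκ0 : ∀ n, κ n 0 = 0 := by
    intro n
    have h := hκ_add n 0 0 (smul_zero _) (smul_zero _)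
    rw [add_zero] at h
    exact (add_eq_left.mp h.symm)
  have hinj : ∀ n x y, p ^ n • x = 0 → p ^ n • y = 0 → κ n x = κ n y → x = y := by
    intro n x y hx hy hxy
    have hxy0 : p ^ n • (x - y) = 0 := by rw [smul_sub, hx, hy, sub_zero]
    have h := hκ_add n (x - y) y hxy0 hy
    rw [sub_add_cancel, hxy] at h
    exact sub_eq_zero.mp (hκ_inj n _ hxy0 (add_eq_right.mp h.symm))
  choose lam0 hlam0 using hsurj
  let lam : ℕ → W →+ J := fun n =>
    { toFun := lam0 n
      map_zero' := by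
        apply hinj n _ _ (hlam0 n 0).1 (smul_zero _)
        rw [(hlam0 n 0).2, map_zero, smul_zero, hκ0]
      map_add' := fun w w' => by
        have hsum : p ^ n • (lam0 n w + lam0 n w') = 0 := by
          rw [smul_add, (hlam0 n w).1, (hlam0 n w').1, add_zero]
        apply hinj n _ _ (hlam0 n (w + w')).1 hsum
        rw [(hlam0 n (w + w')).2, hκ_add n _ _ (hlam0 n w).1 (hlam0 n w').1, (hlam0 n w).2,
          (hlam0 n w').2, map_add, smul_add] }
  have hlam : ∀ n w, lam n w = lam0 n w := fun _ _ => rfl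
  refine nonempty_tateDatum J T hTcomm hgal hfin hlevel hunr hfrob W hann lam
    (fun n w => (hlam0 n w).1) ?_ ?_ c hc ?_
  · intro n w
    rw [hlam, hlam]
    have h1 : p ^ n • (p • lam0 (n + 1) w) = 0 := by
      rw [smul_smul, ← pow_succ, (hlam0 (n + 1) w).1]
    apply hinj n _ _ h1 (hlam0 n w).1
    rw [hκ_red n _ (hlam0 (n + 1) w).1, (hlam0 (n + 1) w).2, (hlam0 n w).2, map_nsmul, hε_red]
  · intro n ℓ w
    rw [hlam, hlam]
    have h1 : p ^ n • T ℓ (lam0 n w) = 0 := by
      rw [← map_nsmul, (hlam0 n w).1, map_zero]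
    apply hinj n _ _ (hlam0 n _).1 h1
    rw [(hlam0 n _).2, hκ_hecke n ℓ _ (hlam0 n w).1, (hlam0 n w).2, map_nsmul, hε_hecke]
  · intro n w hw
    rw [hlam] at hw
    have h1 : ε n (c • w) = 0 := by
      rw [map_nsmul, ← (hlam0 n w).2, hw, hκ0]
    exact hε_ker n _ h1

end Main

end Fermat.Agent.GalRep.TateAlg954
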