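/-
GALREP (helper5140): the BRIDGE between the two skeletons.

`tateDatum_of_geo` : the six finite-level geometric leaves of helper100's tree
(`Fermat/Agent/S30/GeoDefs.lean`: HK4 `OpenStabilizers`, HK3 `GaloisHeckeCommute`,
U `UnramifiedTorsion`, ES `FrobeniusRelation`, FIN `TorsionFinite`, BK `BettiKummer`) together with
faithfulness of the Betti lattice (`BettiFaithful`; delivered by helper2381's `betti_injective`)
give `Nonempty (TateDatum N p)`, hence (sorry-free, `S29S31_5140.lean`) frozen S29 and S31.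

NO commutation of the Hecke operators on `J_0(N)` is needed: `nonempty_tateDatum_noComm` applies
helper954's TATE-ALG to the largest Hecke- and Galois-stable subgroup on which the `T_ℓ` commute;
it contains the image of the Betti lattice.
-/
import Fermat.Agent.GalRep.TateAlg954
import Fermat.Agent.S30.Tate.Level

set_option autoImplicit false

namespace Fermat.Agent.GalRep

section NoComm

variable {N p : ℕ} (J : Type) [AddCommGroup J] (T : GoodPrime N p → J →+ J)

/-- a word in the Hecke operators (the head of the list is applied first) -/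
def heckeWord : List (GoodPrime N p) → J →+ J
  | [] => AddMonoidHom.id J
  | ℓ :: ws => (heckeWord ws).comp (T ℓ)

/-- the largest Hecke-stable subgroup on which the Hecke operators commute -/
def commPart : AddSubgroup J where
  carrier := {x | ∀ (ws : List (GoodPrime N p)) (ℓ ℓ' : GoodPrime N p),
    T ℓ (T ℓ' (heckeWord J T ws x)) = T ℓ' (T ℓ (heckeWord J T ws x))}
  zero_mem' := fun ws ℓ ℓ' => by simp only [map_zero]
  add_mem' := fun {x y} hx hy ws ℓ ℓ' => by
    simp only [map_add, hx ws ℓ ℓ', hy ws ℓ ℓ']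
  neg_mem' := fun {x} hx ws ℓ ℓ' => by
    simp only [map_neg, hx ws ℓ ℓ']

variable {J T}

theorem mem_commPart {x : J} : x ∈ commPart J T ↔
    ∀ (ws : List (GoodPrime N p)) (ℓ ℓ' : GoodPrime N p),
      T ℓ (T ℓ' (heckeWord J T ws x)) = T ℓ' (T ℓ (heckeWord J T ws x)) := Iff.rfl

theorem hecke_mem_commPart {x : J} (hx : x ∈ commPart J T) (ℓ₀ : GoodPrime N p) :
    T ℓ₀ x ∈ commPart J T := fun ws ℓ ℓ' => hx (ℓ₀ :: ws) ℓ ℓ'

theorem heckeWord_smul [DistribMulAction GQ J]
    (hgal : ∀ (σ : GQ) ℓ (x : J), σ • T ℓ x = T ℓ (σ • x)) (σ : GQ)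
    (ws : List (GoodPrime N p)) (x : J) :
    heckeWord J T ws (σ • x) = σ • heckeWord J T ws x := by
  induction ws generalizing x with
  | nil => rfl
  | cons ℓ ws ih =>
    show heckeWord J T ws (T ℓ (σ • x)) = σ • heckeWord J T ws (T ℓ x)
    rw [← hgal, ih]

theorem smul_mem_commPart [DistribMulAction GQ J]
    (hgal : ∀ (σ : GQ) ℓ (x : J), σ • T ℓ x = T ℓ (σ • x)) (σ : GQ) {x : J}
    (hx : x ∈ commPart J T) : σ • x ∈ commPart J T := fun ws ℓ ℓ' => by
  rw [heckeWord_smul hgal, ← hgal, ← hgal, ← hgal, ← hgal, hx ws ℓ ℓ']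

/-- the Galois action on the commuting part -/
@[reducible] noncomputable def commPartAction [DistribMulAction GQ J]
    (hgal : ∀ (σ : GQ) ℓ (x : J), σ • T ℓ x = T ℓ (σ • x)) :
    DistribMulAction GQ (commPart J T) where
  smul σ x := ⟨σ • x.1, smul_mem_commPart hgal σ x.2⟩
  one_smul x := Subtype.ext (one_smul GQ x.1)
  mul_smul σ τ x := Subtype.ext (mul_smul σ τ x.1)
  smul_zero σ := Subtype.ext (smul_zero σ)
  smul_add σ x y := Subtype.ext (smul_add σ x.1 y.1)

variable (J T) in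
/-- the Hecke operators on the commuting part -/
def commPartHecke (ℓ : GoodPrime N p) : commPart J T →+ commPart J T :=
  ((T ℓ).comp (commPart J T).subtype).codRestrict (commPart J T)
    (fun x => hecke_mem_commPart x.2 ℓ)

theorem coe_commPartHecke (ℓ : GoodPrime N p) (x : commPart J T) :
    ((commPartHecke J T ℓ x : commPart J T) : J) = T ℓ x.1 := rfl

end NoComm

section NoCommMain

variable {N p : ℕ} [NeZero N] [Fact p.Prime]

/-- **TATE-ALG without Hecke commutation on `J`** (wrapper around helper954's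
`TateAlg954.nonempty_tateDatum`). -/
theorem nonempty_tateDatum_noComm
    (J : Type) [AddCommGroup J] [DistribMulAction GQ J]
    (T : GoodPrime N p → J →+ J)
    (hgal : ∀ (σ : GQ) ℓ (x : J), σ • T ℓ x = T ℓ (σ • x))
    (hfin : Finite {x : J // p • x = 0})
    (hlevel : ∀ n : ℕ, ∃ L : IntermediateField ℚ (AlgebraicClosure ℚ), FiniteDimensional ℚ L ∧
        ∀ σ : GQ, (∀ y ∈ L, σ y = y) → ∀ x : J, p ^ n • x = 0 → σ • x = x)
    (hunr : ∀ ℓ : GoodPrime N p, ∀ A : ValuationSubring (AlgebraicClosure ℚ), A.LiesOverPrime ℓ →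
        ∀ σ ∈ A.inertiaSubgroupIn ℚ, ∀ x : J, (∃ n : ℕ, p ^ n • x = 0) → σ • x = x)
    (hfrob : ∀ ℓ : GoodPrime N p, ∀ A : ValuationSubring (AlgebraicClosure ℚ),
        A.LiesOverPrime ℓ → ∀ σ : GQ, A.IsFrobeniusAt σ ℓ → ∀ x : J, (∃ n : ℕ, p ^ n • x = 0) →
          σ • σ • x - T ℓ (σ • x) + (ℓ : ℕ) • x = 0)
    (W : Type) [AddCommGroup W] [Module (HeckePolyZ N p) W] [Module.Free ℤ W] [Module.Finite ℤ W]
    (hann : ∀ (S : Set ℕ) (Q : MvPolynomial (GoodPrimeOutside N p S) ℤ),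
        (∀ w : W, (MvPolynomial.rename Subtype.val Q : HeckePolyZ N p) • w = 0) →
          Q ∈ heckeRelations N p S)
    (lam : ℕ → W →+ J)
    (hlam_tors : ∀ n w, p ^ n • lam n w = 0)
    (hlam_compat : ∀ n w, p • lam (n + 1) w = lam n w)
    (hlam_hecke : ∀ n ℓ w, lam n ((MvPolynomial.X ℓ : HeckePolyZ N p) • w) = T ℓ (lam n w))
    (c : ℕ) (hc : c ≠ 0)
    (hlam_inj : ∀ n w, lam n w = 0 → ∃ w', c • w = p ^ n • w') :
    Nonempty (TateDatum N p) := by
  classical
  letI : DistribMulAction GQ (commPart J T) := commPartAction hgal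
  have hsmul : ∀ (σ : GQ) (x : commPart J T), ((σ • x : commPart J T) : J) = σ • (x : J) :=
    fun _ _ => rfl
  -- words applied to the image of `lam` stay in the image of `lam`
  have hword : ∀ (n : ℕ) (ws : List (GoodPrime N p)) (w : W),
      ∃ w' : W, heckeWord J T ws (lam n w) = lam n w' := by
    intro n ws
    induction ws with
    | nil => exact fun w => ⟨w, rfl⟩
    | cons ℓ ws ih =>
      intro w
      obtain ⟨w', hw'⟩ := ih ((MvPolynomial.X ℓ : HeckePolyZ N p) • w)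
      refine ⟨w', ?_⟩
      show heckeWord J T ws (T ℓ (lam n w)) = lam n w'
      rw [← hlam_hecke, hw']
  have hmem : ∀ (n : ℕ) (w : W), lam n w ∈ commPart J T := by
    intro n w ws ℓ ℓ'
    obtain ⟨w', hw'⟩ := hword n ws w
    rw [hw', ← hlam_hecke, ← hlam_hecke, ← hlam_hecke, ← hlam_hecke, ← mul_smul, ← mul_smul,
      mul_comm]
  have hcoe0 : ∀ {k : ℕ} {x : commPart J T}, k • x = 0 → k • (x : J) = 0 := by
    intro k x h
    have h' := congrArg (Subtype.val : commPart J T → J) h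
    rw [AddSubgroup.coe_nsmul] at h'
    exact h'
  refine TateAlg954.nonempty_tateDatum (commPart J T) (commPartHecke J T) ?_ ?_ ?_ ?_ ?_ ?_ W hann
    (fun n => (lam n).codRestrict (commPart J T) (hmem n)) ?_ ?_ ?_ c hc ?_
  · intro ℓ ℓ' x _
    exact Subtype.ext (x.2 [] ℓ ℓ')
  · intro σ ℓ x _
    exact Subtype.ext (hgal σ ℓ x.1)
  · refine Finite.of_injective
      (fun x : {x : commPart J T // p • x = 0} =>
        (⟨x.1.1, hcoe0 x.2⟩ : {x : J // p • x = 0})) ?_
    intro x y h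
    have h' : ((x.1 : commPart J T) : J) = ((y.1 : commPart J T) : J) :=
      congrArg (fun z : {x : J // p • x = 0} => (z : J)) h
    exact Subtype.ext (Subtype.ext h')
  · intro n
    obtain ⟨L, hL, h⟩ := hlevel n
    exact ⟨L, hL, fun σ hσ x hx => Subtype.ext (h σ hσ x.1 (hcoe0 hx))⟩
  · intro ℓ A hA σ hσ x hx
    obtain ⟨n, hn⟩ := hx
    exact Subtype.ext (hunr ℓ A hA σ hσ x.1 ⟨n, hcoe0 hn⟩)
  · intro ℓ A hA σ hσ x hx
    obtain ⟨n, hn⟩ := hx
    have h := hfrob ℓ A hA σ hσ x.1 ⟨n, hcoe0 hn⟩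
    refine Subtype.ext ?_
    rw [AddSubgroup.coe_add, AddSubgroup.coe_sub, AddSubgroup.coe_nsmul]
    exact h
  · intro n w
    refine Subtype.ext ?_
    rw [AddSubgroup.coe_nsmul]
    exact hlam_tors n w
  · intro n w
    refine Subtype.ext ?_
    rw [AddSubgroup.coe_nsmul]
    exact hlam_compat n w
  · intro n ℓ w
    exact Subtype.ext (hlam_hecke n ℓ w)
  · intro n w h
    exact hlam_inj n w (congrArg (Subtype.val : commPart J T → J) h)

end NoCommMain

section Geo

variable {N p : ℕ} [NeZero N]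

/-- **Faithfulness of the Betti lattice**: for every `S` the Hecke algebra of `S_2(Γ_0(N))` away
from `S` acts faithfully on `B.H`, with `T_ℓ` acting as `B.hecke ℓ`.  (For
`B.H = Hom_par(Γ_0(N), ℤ)` this is helper2381's `betti`, `betti_injective`, `betti_T`:
landed S21 + Hecke-equivariance of the period map.)  It implies the field `B.support`. -/
def BettiFaithful (B : S30.BettiKummer N p) : Prop :=
  ∀ S : Set ℕ, ∃ β : CuspForm.heckeAlgebra N 2 S →+* Module.End ℤ B.H, Function.Injective β ∧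
    ∀ (ℓ : ℕ) (hℓ : ℓ.Prime) (hℓN : ¬ ℓ ∣ N) (hℓS : ℓ ∉ S),
      β (CuspForm.heckeAlgebra.T hℓ hℓN hℓS) = B.hecke ⟨ℓ, hℓ⟩

/-- **BRIDGE**: the finite-level geometric leaves of helper100's `GeoDefs.lean` (+ faithfulness of
the Betti lattice) produce a `TateDatum`.  Sorry-free. -/
theorem tateDatum_of_geo (N p : ℕ) [NeZero N] [Fact p.Prime]
    (hOS : S30.OpenStabilizers N) (hGH : S30.GaloisHeckeCommute N p)
    (hU : S30.UnramifiedTorsion N p) (hES : S30.FrobeniusRelation N p)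
    (hFin : S30.TorsionFinite N p) (B : S30.BettiKummer N p) (hB : BettiFaithful B) :
    Nonempty (TateDatum N p) := by
  classical
  obtain ⟨β0, -, hβ0⟩ := hB ∅
  let φ : HeckePolyZ N p →+* Module.End ℤ B.H :=
    β0.comp (MvPolynomial.eval₂Hom (Int.castRingHom (CuspForm.heckeAlgebra N 2 (∅ : Set ℕ)))
      (fun ℓ : GoodPrime N p => CuspForm.heckeAlgebra.T ℓ.2.1 ℓ.not_dvd (Set.notMem_empty _)))
  letI : Module (HeckePolyZ N p) B.H := Module.compHom B.H φ
  have hsmul : ∀ (P : HeckePolyZ N p) (w : B.H), P • w = φ P w := fun _ _ => rfl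
  have hφX : ∀ ℓ : GoodPrime N p, φ (MvPolynomial.X ℓ) = B.hecke ⟨ℓ.1, ℓ.2.1⟩ := by
    intro ℓ
    show β0 (MvPolynomial.eval₂Hom _ _ (MvPolynomial.X ℓ)) = _
    rw [MvPolynomial.eval₂Hom_X']
    exact hβ0 ℓ.1 ℓ.2.1 ℓ.not_dvd (Set.notMem_empty _)
  obtain ⟨m, hm⟩ := B.θ_ker
  have htors : ∀ (n : ℕ) (w : B.H), p ^ n • B.θ n w = 0 := by
    intro n
    induction n with
    | zero => intro w; rw [pow_zero, one_smul, B.θ_zero]
    | succ n ih => intro w; rw [pow_succ, mul_smul, B.θ_compat, ih]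
  refine nonempty_tateDatum_noComm (ModularCurve.JZero N)
    (fun ℓ => (ModularCurve.heckeOperatorBar N ⟨ℓ.1, ℓ.2.1⟩).toAddMonoidHom)
    ?_ hFin.to_subtype (S30.Tate.exists_level N p hOS hFin) ?_ ?_ B.H ?_ B.θ htors B.θ_compat ?_
    (p ^ m) (pow_ne_zero m (Fact.out : p.Prime).ne_zero) ?_
  · intro σ ℓ x
    exact (hGH ⟨ℓ.1, ℓ.2.1⟩ ℓ.2.2 σ x).symm
  · intro ℓ A hA σ hσ x hx
    exact hU ℓ.1 ℓ.2.1 ℓ.2.2 A hA σ hσ x hx
  · intro ℓ A hA σ hσ x hx
    exact hES ℓ.1 ℓ.2.1 ℓ.2.2 A hA σ hσ x hx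
  · intro S Q hQ
    obtain ⟨β, hβinj, hβ⟩ := hB S
    have hfg : β.comp (evalS2 N p S) =
        φ.comp (MvPolynomial.rename (Subtype.val : GoodPrimeOutside N p S → GoodPrime N p) :
          MvPolynomial (GoodPrimeOutside N p S) ℤ →ₐ[ℤ] HeckePolyZ N p).toRingHom := by
      refine MvPolynomial.ringHom_ext (fun r => ?_) (fun ℓ => ?_)
      · simp only [RingHom.coe_comp, Function.comp_apply, AlgHom.toRingHom_eq_coe,
          RingHom.coe_coe, MvPolynomial.rename_C]
        rw [← MvPolynomial.algebraMap_eq, eq_intCast, eq_intCast, map_intCast, map_intCast,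
          map_intCast]
      · simp only [RingHom.coe_comp, Function.comp_apply, AlgHom.toRingHom_eq_coe,
          RingHom.coe_coe, MvPolynomial.rename_X]
        rw [hφX, evalS2, MvPolynomial.eval₂Hom_X']
        exact hβ ℓ.1.1 ℓ.1.2.1 ℓ.1.not_dvd ℓ.2
    have h0 : β (evalS2 N p S Q) = 0 := by
      have h1 := congrArg (fun f => f Q) hfg
      simp only [RingHom.coe_comp, Function.comp_apply, AlgHom.toRingHom_eq_coe,
        RingHom.coe_coe] at h1
      rw [h1]
      refine LinearMap.ext fun w => ?_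
      rw [← hsmul, hQ w]
      rfl
    have h2 : evalS2 N p S Q = 0 := hβinj (by rw [h0, map_zero])
    exact h2
  · intro n ℓ w
    rw [hsmul, hφX]
    exact B.θ_hecke ⟨ℓ.1, ℓ.2.1⟩ ℓ.2.2 n w
  · intro n w h
    by_cases hmn : m ≤ n
    · obtain ⟨y, hy⟩ := hm (n - m) w (by rwa [Nat.sub_add_cancel hmn])
      refine ⟨y, ?_⟩
      calc p ^ m • w = ((p ^ m : ℕ) : ℤ) • w := (natCast_zsmul w _).symm
        _ = ((p ^ m : ℕ) : ℤ) • (((p : ℤ) ^ (n - m)) • y) := by rw [← hy]
        _ = ((p ^ n : ℕ) : ℤ) • y := by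
            rw [smul_smul]
            congr 1
            push_cast
            rw [← pow_add, Nat.add_sub_cancel' hmn]
        _ = p ^ n • y := natCast_zsmul y _
    · refine ⟨p ^ (m - n) • w, ?_⟩
      rw [smul_smul, ← pow_add, Nat.add_sub_cancel' (le_of_not_ge hmn)]

end Geo

end Fermat.Agent.GalRep
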